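import Fermat.Agent.MU.F4.Dict.Ord
import Fermat.Agent.MU.F4.Dict.Formation
import Fermat.Agent.MU.F4.Cf.Defs
import Fermat.Agent.MU.S17.W.Final

section MergeWrap_F4_Dict_Level -- from F4/Dict/Level.lean

/-!
# F4 / Dict / Level : the finite levels of `G_S` as number fields (layer DICT, K4; shared
definitions, owner helper55)

* `OpenS S` : an open subgroup `U` of `G_S`, bundled; `L.field = ℚ̄^U`, a number field
  (instances `FiniteDimensional ℚ L.field`, `NumberField L.field`);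
* `L.toQS : (L.field)ˣ → QSx S` : `Fˣ ⊂ (ℚ_S)ˣ`;
* `L.T` : the primes of `F = L.field` over `S`;
* `L.emb q g : F →+* PadicAlgCl q`, `a ↦ ι (g a)` : the embedding of `F` attached to `g`
  (its place `primeOf (L.emb q g)` of helper86's `F4/Glob/Compl` is the place of `F` attached to
  the double coset `D_q g U`);
* `L.TU` : `{t ∈ (ℚ_S)ˣ | (g - 1) t ∈ E ∀ g ∈ U}` (invariant ideals with a generator);
* `L.IsDivS t d` : `d : primes of F → ℤ` is the divisor of `t` outside `S`;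
* `L.JUk k` : the elements of `J^U` which are `≡ 1 mod q^k` at all places;
* `LayerS p S` : a cyclic layer `V ⊴ U` of degree `p`, `bot.field ⊂ top.field` with its
  `Algebra`, `IsGalois`, `finrank = p`, and the generator `gen` of the Galois group.
-/

set_option autoImplicit false
set_option synthInstance.maxHeartbeats 400000
set_option linter.style.haveILetI false

open CategoryTheory groupCohomology ExtCitation
open NumberField IsDedekindDomain
open scoped Pointwise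

namespace Fermat.Agent.F4

/-- An open subgroup of `G_S`, bundled. -/
structure OpenS (S : Finset Nat.Primes) where
  U : Subgroup GQ
  isOpen : (levelsS S).IsOpen U

namespace OpenS

variable {S : Finset Nat.Primes} (L : OpenS S)

/-- The fixed field of `U`. -/
noncomputable def field : IntermediateField ℚ (AlgebraicClosure ℚ) :=
  IntermediateField.fixedField L.U

lemma exists_level : ∃ F₀ : IntermediateField ℚ (AlgebraicClosure ℚ),
    F₀.IsUnramifiedOutside S ∧ IsStableField F₀ ∧ F₀.fixingSubgroup ≤ L.U := by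
  obtain ⟨V, ⟨F₀, hF, hst, rfl⟩, hle⟩ := L.isOpen
  exact ⟨F₀, hF, hst, hle⟩

instance finiteDimensional_field : FiniteDimensional ℚ L.field := by
  obtain ⟨F₀, hF, -, hle⟩ := L.exists_level
  haveI := hF.1
  exact Fermat.Agent.KFin.kf_finiteDimensional_of_le
    (Fermat.Agent.KFin.kf_fixedField_le L.U F₀ hle)

instance numberField_field : NumberField L.field :=
  { to_charZero := inferInstance, to_finiteDimensional := inferInstance }

lemma fixingSubgroup_field : L.field.fixingSubgroup = L.U := by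
  obtain ⟨F₀, hF, -, hle⟩ := L.exists_level
  haveI := hF.1
  exact Fermat.Agent.KFin.kf_fixingSubgroup_fixedField L.U F₀ hle

lemma mem_field_iff (x : AlgebraicClosure ℚ) : x ∈ L.field ↔ ∀ g ∈ L.U, g x = x := by
  constructor
  · intro h g hg
    exact h ⟨g, hg⟩
  · intro h g
    exact h g.1 g.2

/-- The units of `F` are smooth units of `ℚ̄`. -/
lemma map_mem_smUnitsSub (a : (L.field)ˣ) :
    Units.map ((algebraMap L.field (AlgebraicClosure ℚ)) : L.field →* AlgebraicClosure ℚ) a ∈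
      smUnitsSub (levelsS S) galAct := by
  obtain ⟨V, hV, hle⟩ := L.isOpen
  refine ⟨V, hV, fun v hv => ?_⟩
  exact (L.mem_field_iff _).1 (a : L.field).2 v (hle hv)

/-- `Fˣ → (ℚ_S)ˣ`. -/
noncomputable def toQS (a : (L.field)ˣ) : QSx S :=
  smUnits.mk _ (L.map_mem_smUnitsSub a)

@[simp] lemma val_toQS (a : (L.field)ˣ) :
    ((smUnits.val (L.toQS a) : (AlgebraicClosure ℚ)ˣ) : AlgebraicClosure ℚ) =
      ((a : L.field) : AlgebraicClosure ℚ) := rfl

lemma toQS_mul (a b : (L.field)ˣ) : L.toQS (a * b) = L.toQS a + L.toQS b := by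
  apply smUnits.val_injective
  apply Units.ext
  rw [smUnits.val_add]
  simp

lemma toQS_one : L.toQS 1 = 0 := by
  apply smUnits.val_injective
  show Units.map _ (1 : (L.field)ˣ) = 1
  exact map_one _

lemma toQS_inv (a : (L.field)ˣ) : L.toQS a⁻¹ = - L.toQS a := by
  have h := L.toQS_mul a a⁻¹
  rw [mul_inv_cancel, toQS_one] at h
  exact eq_neg_of_add_eq_zero_right h.symm

lemma toQS_injective : Function.Injective L.toQS := by
  intro a b h
  apply Units.ext
  apply Subtype.ext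
  rw [← val_toQS, ← val_toQS, h]

/-- The elements of `Fˣ` are fixed by `U`. -/
lemma toQS_fixed (a : (L.field)ˣ) (g : GQ) (hg : g ∈ L.U) : (QSx S).ρ g (L.toQS a) = L.toQS a := by
  rw [smUnits.ρ_eq_iff]
  exact (L.mem_field_iff _).1 (a : L.field).2 g hg

/-- The elements of `(ℚ_S)ˣ` fixed by `U` are the elements of `Fˣ`. -/
lemma exists_toQS_of_fixed (t : QSx S) (h : ∀ g ∈ L.U, (QSx S).ρ g t = t) :
    ∃ a : (L.field)ˣ, L.toQS a = t := by
  have hmem : ((smUnits.val t : (AlgebraicClosure ℚ)ˣ) : AlgebraicClosure ℚ) ∈ L.field :=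
    (L.mem_field_iff _).2 fun g hg => (smUnits.ρ_eq_iff g t).1 (h g hg)
  have hne : (⟨_, hmem⟩ : L.field) ≠ 0 := by
    intro h0
    have := congrArg (fun z : L.field => (z : AlgebraicClosure ℚ)) h0
    exact (smUnits.val t).ne_zero this
  refine ⟨Units.mk0 ⟨_, hmem⟩ hne, ?_⟩
  apply smUnits.val_injective
  apply Units.ext
  rfl

/-- The primes of `F` over `S`. -/
noncomputable def T : Finset (HeightOneSpectrum (𝓞 L.field)) :=
  Set.Finite.toFinset (s := {v | ∃ q ∈ S, (((q : ℕ) : ℕ) : 𝓞 L.field) ∈ v.asIdeal}) (by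
    have hsub : {v : HeightOneSpectrum (𝓞 L.field) | ∃ q ∈ S, (((q : ℕ) : ℕ) : 𝓞 L.field) ∈ v.asIdeal} ⊆
        ⋃ q ∈ S, {v : HeightOneSpectrum (𝓞 L.field) |
          v.asIdeal ∣ Ideal.span {(((q : ℕ) : ℕ) : 𝓞 L.field)}} := by
      rintro v ⟨q, hq, hv⟩
      simp only [Set.mem_iUnion]
      refine ⟨q, hq, ?_⟩
      show v.asIdeal ∣ Ideal.span {(((q : ℕ) : ℕ) : 𝓞 L.field)}
      rw [Ideal.dvd_iff_le, Ideal.span_singleton_le_iff_mem]
      exact hv
    refine Set.Finite.subset (Set.Finite.biUnion S.finite_toSet fun q _ => ?_) hsub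
    refine Ideal.finite_factors ?_
    intro h0
    rw [Ideal.zero_eq_bot, Ideal.span_singleton_eq_bot] at h0
    exact q.2.ne_zero (by exact_mod_cast h0))

lemma mem_T (v : HeightOneSpectrum (𝓞 L.field)) :
    v ∈ L.T ↔ ∃ q ∈ S, (((q : ℕ) : ℕ) : 𝓞 L.field) ∈ v.asIdeal := by
  unfold T
  rw [Set.Finite.mem_toFinset]
  rfl

/-- The embedding `a ↦ ι (g a)` of `F` into `PadicAlgCl q`. -/
noncomputable def emb (q : Nat.Primes) (g : GQ) : L.field →+* @PadicAlgCl (q : ℕ) ⟨q.2⟩ :=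
  (locEmb q).comp (((g : AlgebraicClosure ℚ →ₐ[ℚ] AlgebraicClosure ℚ) : AlgebraicClosure ℚ →+*
    AlgebraicClosure ℚ).comp (algebraMap L.field (AlgebraicClosure ℚ)))

@[simp] lemma emb_apply (q : Nat.Primes) (g : GQ) (a : L.field) :
    L.emb q g a = locEmb q (g (a : AlgebraicClosure ℚ)) := rfl

/-- `T_U = {t ∈ (ℚ_S)ˣ | (g - 1) t ∈ E for all g ∈ U}`. -/
def TU : AddSubgroup (QSx S) where
  carrier := {t | ∀ g ∈ L.U, (QSx S).ρ g t - t ∈ sUnitsAdd S}
  zero_mem' := fun g _ => by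
    show (QSx S).ρ g 0 - 0 ∈ sUnitsAdd S
    rw [map_zero, sub_zero]
    exact (sUnitsAdd S).zero_mem
  add_mem' := fun {a b} ha hb g hg => by
    show (QSx S).ρ g (a + b) - (a + b) ∈ sUnitsAdd S
    have e : (QSx S).ρ g (a + b) - (a + b) = ((QSx S).ρ g a - a) + ((QSx S).ρ g b - b) := by
      rw [map_add]; abel
    rw [e]
    exact (sUnitsAdd S).add_mem (ha g hg) (hb g hg)
  neg_mem' := fun {a} ha g hg => by
    show (QSx S).ρ g (-a) - (-a) ∈ sUnitsAdd S
    have e : (QSx S).ρ g (-a) - (-a) = -((QSx S).ρ g a - a) := by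
      rw [map_neg]; abel
    rw [e]
    exact (sUnitsAdd S).neg_mem (ha g hg)

lemma mem_TU (t : QSx S) : t ∈ L.TU ↔ ∀ g ∈ L.U, (QSx S).ρ g t - t ∈ sUnitsAdd S := Iff.rfl

lemma toQS_mem_TU (a : (L.field)ˣ) : L.toQS a ∈ L.TU := fun g hg => by
  rw [L.toQS_fixed a g hg, sub_self]
  exact (sUnitsAdd S).zero_mem

lemma sUnitsAdd_le_TU : sUnitsAdd S ≤ L.TU := fun t ht g _ =>
  (sUnitsAdd S).sub_mem (sUnitsAdd_stable S g t ht) ht

/-- `d` is the divisor of `t` outside `S`: for every valuation subring `A` of `ℚ̄` over a prime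
`q ∉ S`, the order of `t` at `A` is `d v`, `v = A ∩ F`.  (`ℚ_S/ℚ` is unramified outside `S`,
orders are normalised by `ord q = 1`, so this is the order of the ideal at `v`.)  No condition
on `d` at the primes over `S`. -/
def IsDivS (t : QSx S) (d : HeightOneSpectrum (𝓞 L.field) → ℤ) : Prop :=
  ∀ q : Nat.Primes, q ∉ S → ∀ A : ValuationSubring (AlgebraicClosure ℚ),
    A.LiesOverPrime (q : ℕ) → ∀ v : HeightOneSpectrum (𝓞 L.field),
      v.asIdeal = Fermat.Agent.KFin.primeBelow L.field A →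
        HasOrdAt A q ((smUnits.val t : (AlgebraicClosure ℚ)ˣ) : AlgebraicClosure ℚ) (d v)

/-- The elements of `J` fixed by `U`. -/
def JU : AddSubgroup (Jrep S) where
  carrier := {x | F4Cf.Fix (Jrep S) L.U x}
  zero_mem' := fun g _ => map_zero _
  add_mem' := fun {a b} ha hb g hg => by
    show (Jrep S).ρ g (a + b) = a + b
    exact (((Jrep S).ρ g).map_add a b).trans (congrArg₂ _ (ha g hg) (hb g hg))
  neg_mem' := fun {a} ha g hg => by
    show (Jrep S).ρ g (-a) = -a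
    exact (((Jrep S).ρ g).map_neg a).trans (congrArg _ (ha g hg))

/-- The value of `x ∈ J` at `(q, g)`, an element of `PadicAlgCl q`. -/
noncomputable def _root_.Fermat.Agent.F4.Jval (x : Jrep S) (q : ↥S) (g : GQ) :
    @PadicAlgCl ((q : Nat.Primes) : ℕ) ⟨(q : Nat.Primes).2⟩ :=
  ((smUnits.val (((x q : ↥(coIndSub (primeLocalToGlobal q.1) (levelsS S) (LqS S q.1))) :
    GQ → LqS S q.1) g) : (@PadicAlgCl ((q : Nat.Primes) : ℕ) ⟨(q : Nat.Primes).2⟩)ˣ) :
      @PadicAlgCl ((q : Nat.Primes) : ℕ) ⟨(q : Nat.Primes).2⟩)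

/-- `x ∈ J` is `≡ 1 mod q ^ k` at all places (`J_(k)` of the blueprint). -/
def _root_.Fermat.Agent.F4.NearOne (x : Jrep S) (k : ℕ) : Prop :=
  ∀ (q : ↥S) (g : GQ), ‖Jval x q g - 1‖ < (((q : Nat.Primes) : ℕ) : ℝ) ^ (-(k : ℤ))

/-- The value of `diagJ t` at `(q, g)` is `ι (g t)`. -/
lemma _root_.Fermat.Agent.F4.Jval_diagJ (t : QSx S) (q : ↥S) (g : GQ) :
    Jval (diagJ S t) q g =
      locEmb q.1 (g ((smUnits.val t : (AlgebraicClosure ℚ)ˣ) : AlgebraicClosure ℚ)) := by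
  unfold Jval
  rw [diagJ_apply, locUnit_val, smUnits.val_ρ]
  rfl

/-- The value of `diagJ a`, `a ∈ Fˣ`, at `(q, g)` is `L.emb q g a`. -/
lemma Jval_diagJ_toQS (a : (L.field)ˣ) (q : ↥S) (g : GQ) :
    Jval (diagJ S (L.toQS a)) q g = L.emb q.1 g (a : L.field) := by
  rw [Jval_diagJ, val_toQS, emb_apply]

end OpenS

/-- In a cyclic layer of degree `p`, `σ ^ d ∉ V` for `0 < d < p`. -/
theorem isCyc_pow_not_mem {G : Type} [Group G] {p : ℕ} (hp : p.Prime) {U V : Subgroup G} {σ : G}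
    (h : F4Cf.IsCyc p U V σ) (d : ℕ) (hd : 0 < d) (hdp : d < p) : σ ^ d ∉ V := by
  intro hmem
  have hcop : Nat.Coprime d p := (Nat.coprime_of_lt_prime hd.ne' hdp hp).symm
  have hb : (d : ℤ) * Int.gcdA d p + p * Int.gcdB d p = 1 := by
    have := Int.gcd_eq_gcd_ab d p
    rw [Int.gcd_natCast_natCast, hcop] at this
    exact_mod_cast this.symm
  have h1 : σ = (σ ^ d) ^ (Int.gcdA d p) * (σ ^ p) ^ (Int.gcdB d p) := by
    rw [← zpow_natCast σ d, ← zpow_natCast σ p, ← zpow_mul, ← zpow_mul, ← zpow_add, hb, zpow_one]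
  apply h.not_mem
  rw [h1]
  exact V.mul_mem (V.zpow_mem hmem _) (V.zpow_mem h.pow_mem _)

/-- The index of a cyclic layer of degree `p`. -/
theorem isCyc_relIndex_eq {G : Type} [Group G] {p : ℕ} (hp : p.Prime) {U V : Subgroup G} {σ : G}
    (h : F4Cf.IsCyc p U V σ) : V.relIndex U = p := by
  classical
  have hpow : ∀ i : ℕ, σ ^ i ∈ U := fun i => U.pow_mem h.mem i
  let f : Fin p → (↥U ⧸ V.subgroupOf U) := fun i => QuotientGroup.mk ⟨σ ^ (i : ℕ), hpow i⟩
  have hinj : Function.Injective f := by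
    intro i j hij
    have h1 : (⟨σ ^ (i : ℕ), hpow i⟩ : ↥U)⁻¹ * ⟨σ ^ (j : ℕ), hpow j⟩ ∈ V.subgroupOf U :=
      QuotientGroup.eq.1 hij
    rw [Subgroup.mem_subgroupOf] at h1
    have h2 : (σ ^ (i : ℕ))⁻¹ * σ ^ (j : ℕ) ∈ V := h1
    by_contra hne
    rcases Nat.lt_or_gt_of_ne (fun e => hne (Fin.ext e)) with hlt | hlt
    · apply isCyc_pow_not_mem hp h ((j : ℕ) - i) (by omega) (by omega)
      have e : σ ^ ((j : ℕ) - (i : ℕ)) = (σ ^ (i : ℕ))⁻¹ * σ ^ (j : ℕ) := by
        rw [eq_inv_mul_iff_mul_eq, ← pow_add]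
        congr 1; omega
      rw [e]; exact h2
    · apply isCyc_pow_not_mem hp h ((i : ℕ) - j) (by omega) (by omega)
      have e : σ ^ ((i : ℕ) - (j : ℕ)) = ((σ ^ (i : ℕ))⁻¹ * σ ^ (j : ℕ))⁻¹ := by
        rw [mul_inv_rev, inv_inv, eq_inv_mul_iff_mul_eq, ← pow_add]
        congr 1; omega
      rw [e]; exact V.inv_mem h2
  have hsurj : Function.Surjective f := by
    intro x
    induction x using QuotientGroup.induction_on with
    | H u =>
      obtain ⟨i, hi, hmem⟩ := h.gen u.1 u.2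
      refine ⟨⟨i, hi⟩, ?_⟩
      apply QuotientGroup.eq.2
      rw [Subgroup.mem_subgroupOf]
      exact hmem
  have hcard := Nat.card_eq_of_bijective f ⟨hinj, hsurj⟩
  rw [Nat.card_fin] at hcard
  unfold Subgroup.relIndex Subgroup.index
  exact hcard.symm

/-- A cyclic layer of degree `p` of `G_S`: `V = top.U ⊴ U = bot.U` of index `p`, `σ` a generator
of `U / V`; `F = bot.field ⊂ M = top.field`. -/
structure LayerS (p : ℕ) (S : Finset Nat.Primes) where
  bot : OpenS S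
  top : OpenS S
  σ : GQ
  cyc : F4Cf.IsCyc p bot.U top.U σ

namespace LayerS

variable {p : ℕ} {S : Finset Nat.Primes}

/-- The layer attached to the data of the fields of `PCF`. -/
def ofCyc {U V : Subgroup GQ} {σ : GQ} (hV : (levelsS S).IsOpen V) (hc : F4Cf.IsCyc p U V σ) :
    LayerS p S :=
  { bot := ⟨U, Levels.IsOpen.mono _ hV hc.le⟩, top := ⟨V, hV⟩, σ := σ, cyc := hc }

variable (ℓ : LayerS p S)

lemma field_le : ℓ.bot.field ≤ ℓ.top.field := by
  intro x hx
  rw [OpenS.mem_field_iff] at hx ⊢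
  exact fun g hg => hx g (ℓ.cyc.le hg)

/-- `M` is an `F`-algebra (inclusion). -/
noncomputable instance algebra : Algebra ℓ.bot.field ℓ.top.field :=
  (IntermediateField.inclusion ℓ.field_le).toRingHom.toAlgebra

@[simp] lemma coe_algebraMap (a : ℓ.bot.field) :
    ((algebraMap ℓ.bot.field ℓ.top.field a : ℓ.top.field) : AlgebraicClosure ℚ) =
      (a : AlgebraicClosure ℚ) := rfl

instance isScalarTower_rat : IsScalarTower ℚ ℓ.bot.field ℓ.top.field :=
  IsScalarTower.of_algebraMap_eq fun _ => rfl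

instance isScalarTower_Qbar : IsScalarTower ℓ.bot.field ℓ.top.field (AlgebraicClosure ℚ) :=
  IsScalarTower.of_algebraMap_eq fun _ => rfl

/-- `U` preserves `M` (`V` is normal in `U`). -/
lemma map_mem_top (u : GQ) (hu : u ∈ ℓ.bot.U) (x : AlgebraicClosure ℚ) (hx : x ∈ ℓ.top.field) :
    u x ∈ ℓ.top.field := by
  rw [OpenS.mem_field_iff] at hx ⊢
  intro v hv
  have h1 : u⁻¹ * v * u⁻¹⁻¹ ∈ ℓ.top.U :=
    ℓ.cyc.normal u⁻¹ (ℓ.bot.U.inv_mem hu) v hv
  rw [inv_inv] at h1
  have h2 := hx _ h1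
  have h3 : v (u x) = u ((u⁻¹ * v * u) x) := by
    show v (u x) = u (u⁻¹ (v (u x)))
    show v (u x) = u (u.symm (v (u x)))
    simp
  rw [h3, h2]

/-- The restriction of `u ∈ U` to `M`, as an `F`-automorphism. -/
noncomputable def res (u : GQ) (hu : u ∈ ℓ.bot.U) : ℓ.top.field ≃ₐ[ℓ.bot.field] ℓ.top.field :=
  AlgEquiv.ofAlgHom
    { toFun := fun x => ⟨u (x : AlgebraicClosure ℚ), ℓ.map_mem_top u hu _ x.2⟩
      map_one' := Subtype.ext (map_one u)
      map_mul' := fun x y => Subtype.ext (map_mul u _ _)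
      map_zero' := Subtype.ext (map_zero u)
      map_add' := fun x y => Subtype.ext (map_add u _ _)
      commutes' := fun a => Subtype.ext
        ((ℓ.bot.mem_field_iff _).1 (a : ℓ.bot.field).2 u hu) }
    { toFun := fun x => ⟨u⁻¹ (x : AlgebraicClosure ℚ),
        ℓ.map_mem_top u⁻¹ (ℓ.bot.U.inv_mem hu) _ x.2⟩
      map_one' := Subtype.ext (map_one u⁻¹)
      map_mul' := fun x y => Subtype.ext (map_mul u⁻¹ _ _)
      map_zero' := Subtype.ext (map_zero u⁻¹)
      map_add' := fun x y => Subtype.ext (map_add u⁻¹ _ _)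
      commutes' := fun a => Subtype.ext
        ((ℓ.bot.mem_field_iff _).1 (a : ℓ.bot.field).2 u⁻¹ (ℓ.bot.U.inv_mem hu)) }
    (by
      ext x
      show u (u⁻¹ (x : AlgebraicClosure ℚ)) = x
      show u (u.symm (x : AlgebraicClosure ℚ)) = x
      simp)
    (by
      ext x
      show u⁻¹ (u (x : AlgebraicClosure ℚ)) = x
      show u.symm (u (x : AlgebraicClosure ℚ)) = x
      simp)

@[simp] lemma coe_res (u : GQ) (hu : u ∈ ℓ.bot.U) (x : ℓ.top.field) :
    ((ℓ.res u hu x : ℓ.top.field) : AlgebraicClosure ℚ) = u (x : AlgebraicClosure ℚ) := rfl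

/-- The generator `σ|_M` of `Gal(M/F)`. -/
noncomputable def gen : ℓ.top.field ≃ₐ[ℓ.bot.field] ℓ.top.field := ℓ.res ℓ.σ ℓ.cyc.mem

@[simp] lemma coe_gen (x : ℓ.top.field) :
    ((ℓ.gen x : ℓ.top.field) : AlgebraicClosure ℚ) = ℓ.σ (x : AlgebraicClosure ℚ) := rfl

/-! ### K4 : the Galois theory of the layer -/

instance finiteDimensional : FiniteDimensional ℓ.bot.field ℓ.top.field :=
  Module.Finite.right ℚ ℓ.bot.field ℓ.top.field

lemma coe_gen_pow (i : ℕ) (x : ℓ.top.field) :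
    (((ℓ.gen ^ i) x : ℓ.top.field) : AlgebraicClosure ℚ) = (ℓ.σ ^ i) (x : AlgebraicClosure ℚ) := by
  induction i generalizing x with
  | zero => simp
  | succ n ih =>
    rw [pow_succ, pow_succ, AlgEquiv.mul_apply, ih, coe_gen]
    rfl

lemma gen_pow_injOn [Fact p.Prime] (i j : ℕ) (hi : i < p) (hj : j < p)
    (h : ℓ.gen ^ i = ℓ.gen ^ j) : i = j := by
  have key : ∀ a b : ℕ, a < b → b < p → ℓ.gen ^ a = ℓ.gen ^ b → False := by
    intro a b hab hb hh
    apply isCyc_pow_not_mem (Fact.out : p.Prime) ℓ.cyc (b - a) (by omega) (by omega)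
    rw [← ℓ.top.fixingSubgroup_field, IntermediateField.mem_fixingSubgroup_iff]
    intro x hx
    have h1 := congrArg (fun τ : ℓ.top.field ≃ₐ[ℓ.bot.field] ℓ.top.field =>
      ((τ ⟨x, hx⟩ : ℓ.top.field) : AlgebraicClosure ℚ)) hh
    simp only [coe_gen_pow] at h1
    have h2 : (ℓ.σ ^ b) x = (ℓ.σ ^ a) ((ℓ.σ ^ (b - a)) x) := by
      rw [← AlgEquiv.mul_apply, ← pow_add]
      congr 2; omega
    rw [h2] at h1
    exact ((ℓ.σ ^ a).injective h1).symm
  by_contra hne
  rcases Nat.lt_or_gt_of_ne hne with hlt | hlt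
  · exact key i j hlt hj h
  · exact key j i hlt hi h.symm

/-- `[M : F] = p`. -/
theorem finrank_eq [Fact p.Prime] : Module.finrank ℓ.bot.field ℓ.top.field = p := by
  have hgal := isGalois_Qbar
  have h1 : Module.finrank ℚ ℓ.top.field = ℓ.top.U.index := by
    rw [IntermediateField.finrank_eq_fixingSubgroup_index, ℓ.top.fixingSubgroup_field]
  have h2 : Module.finrank ℚ ℓ.bot.field = ℓ.bot.U.index := by
    rw [IntermediateField.finrank_eq_fixingSubgroup_index, ℓ.bot.fixingSubgroup_field]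
  have h3 := Module.finrank_mul_finrank ℚ ℓ.bot.field ℓ.top.field
  have h4 := Subgroup.relIndex_mul_index ℓ.cyc.le
  rw [isCyc_relIndex_eq (Fact.out : p.Prime) ℓ.cyc] at h4
  rw [h1, h2, ← h4, mul_comm] at h3
  have h0 : ℓ.bot.U.index ≠ 0 := by
    rw [← h2]
    exact Module.finrank_pos.ne'
  exact Nat.eq_of_mul_eq_mul_right (Nat.pos_of_ne_zero h0) h3

theorem card_aut [Fact p.Prime] : Nat.card (ℓ.top.field ≃ₐ[ℓ.bot.field] ℓ.top.field) = p := by
  have hfin : Finite (ℓ.top.field ≃ₐ[ℓ.bot.field] ℓ.top.field) := inferInstance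
  have hle : Nat.card (ℓ.top.field ≃ₐ[ℓ.bot.field] ℓ.top.field) ≤ p := by
    have := AlgEquiv.card_le (F := ℓ.bot.field) (K := ℓ.top.field)
    rw [ℓ.finrank_eq] at this
    rwa [Nat.card_eq_fintype_card]
  have hge : p ≤ Nat.card (ℓ.top.field ≃ₐ[ℓ.bot.field] ℓ.top.field) := by
    have hinj : Function.Injective (fun i : Fin p => ℓ.gen ^ (i : ℕ)) := fun i j h =>
      Fin.ext (ℓ.gen_pow_injOn i j i.2 j.2 h)
    have := Nat.card_le_card_of_injective _ hinj
    rwa [Nat.card_fin] at this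
  exact le_antisymm hle hge

/-- `M / F` is Galois. -/
instance isGalois [Fact p.Prime] : IsGalois ℓ.bot.field ℓ.top.field :=
  IsGalois.of_card_aut_eq_finrank _ _ (by rw [ℓ.card_aut, ℓ.finrank_eq])

lemma gen_pow_bijective [Fact p.Prime] :
    Function.Bijective (fun i : Fin p => ℓ.gen ^ (i : ℕ)) := by
  have hinj : Function.Injective (fun i : Fin p => ℓ.gen ^ (i : ℕ)) := fun i j h =>
    Fin.ext (ℓ.gen_pow_injOn i j i.2 j.2 h)
  have hfin : Finite (ℓ.top.field ≃ₐ[ℓ.bot.field] ℓ.top.field) := inferInstance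
  rw [Nat.bijective_iff_injective_and_card]
  exact ⟨hinj, by rw [Nat.card_fin, ℓ.card_aut]⟩

/-- `σ|_M` generates `Gal(M/F)`. -/
theorem exists_gen_pow [Fact p.Prime] (τ : ℓ.top.field ≃ₐ[ℓ.bot.field] ℓ.top.field) :
    ∃ i : ℕ, i < p ∧ τ = ℓ.gen ^ i := by
  obtain ⟨i, hi⟩ := ℓ.gen_pow_bijective.2 τ
  exact ⟨i, i.2, hi.symm⟩

theorem gen_ne_one : ℓ.gen ≠ 1 := by
  intro h1
  apply ℓ.cyc.not_mem
  rw [← ℓ.top.fixingSubgroup_field, IntermediateField.mem_fixingSubgroup_iff]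
  intro x hx
  have := congrArg (fun τ : ℓ.top.field ≃ₐ[ℓ.bot.field] ℓ.top.field =>
    ((τ ⟨x, hx⟩ : ℓ.top.field) : AlgebraicClosure ℚ)) h1
  exact this

/-- The norm of `M / F` is `∏_{i < p} σ^i`. -/
theorem coe_norm [Fact p.Prime] (x : ℓ.top.field) :
    ((Algebra.norm ℓ.bot.field x : ℓ.bot.field) : AlgebraicClosure ℚ) =
      ∏ i ∈ Finset.range p, (ℓ.σ ^ i) (x : AlgebraicClosure ℚ) := by
  classical
  have h1 := Algebra.norm_eq_prod_automorphisms ℓ.bot.field x
  have h2 : (∏ τ : ℓ.top.field ≃ₐ[ℓ.bot.field] ℓ.top.field, τ x) =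
      ∏ i : Fin p, (ℓ.gen ^ (i : ℕ)) x :=
    (Fintype.prod_bijective (fun i : Fin p => ℓ.gen ^ (i : ℕ)) ℓ.gen_pow_bijective _ _
      (fun i => rfl)).symm
  rw [h2, Fin.prod_univ_eq_prod_range (fun i => (ℓ.gen ^ i) x) p] at h1
  have h3 := congrArg (algebraMap ℓ.top.field (AlgebraicClosure ℚ)) h1
  rw [map_prod] at h3
  refine Eq.trans ?_ (h3.trans (Finset.prod_congr rfl fun i _ => ℓ.coe_gen_pow i x))
  rfl

/-- The norm on units: `N_{M/F}` corresponds to `cnorm` on `(ℚ_S)ˣ`. -/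
theorem toQS_norm [Fact p.Prime] (a : (ℓ.top.field)ˣ) :
    ℓ.bot.toQS (Units.map (Algebra.norm ℓ.bot.field : ℓ.top.field →* ℓ.bot.field) a) =
      F4Cf.cnorm (QSx S) p ℓ.σ (ℓ.top.toQS a) := by
  apply smUnits.val_injective
  apply Units.ext
  rw [OpenS.val_toQS]
  show ((Algebra.norm ℓ.bot.field (a : ℓ.top.field) : ℓ.bot.field) : AlgebraicClosure ℚ) = _
  rw [ℓ.coe_norm]
  unfold F4Cf.cnorm
  have key : ∀ (s : Finset ℕ), ((smUnits.val (∑ i ∈ s, (QSx S).ρ (ℓ.σ ^ i) (ℓ.top.toQS a)) :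
      (AlgebraicClosure ℚ)ˣ) : AlgebraicClosure ℚ) =
      ∏ i ∈ s, (ℓ.σ ^ i) ((a : ℓ.top.field) : AlgebraicClosure ℚ) := by
    intro s
    induction s using Finset.induction_on with
    | empty =>
      rw [Finset.sum_empty, Finset.prod_empty]
      rfl
    | insert i s hi ih =>
      rw [Finset.sum_insert hi, Finset.prod_insert hi, smUnits.val_add, Units.val_mul, ih,
        smUnits.val_ρ]
      rfl
  exact (key _).symm

/-- `Fˣ ⊂ Mˣ` inside `(ℚ_S)ˣ`. -/
theorem toQS_algebraMap (a : (ℓ.bot.field)ˣ) :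
    ℓ.top.toQS (Units.map (algebraMap ℓ.bot.field ℓ.top.field : ℓ.bot.field →* ℓ.top.field) a) =
      ℓ.bot.toQS a := by
  apply smUnits.val_injective
  apply Units.ext
  rfl

end LayerS

end Fermat.Agent.F4
end MergeWrap_F4_Dict_Level
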