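import Fermat.Agent.MU.F4.Dict.Div
import Fermat.Agent.F4.Glob.Compl.Basic
import Fermat.Agent.Lib.FrobDensity.Bridge

section MergeWrap_F4_Dict_PlaceSurj -- from F4/Dict/PlaceSurj.lean

/-!
# F4 / Dict / PlaceSurj : every prime of `F = ℚ̄^U` is a place `primeOf (L.emb q g)` (helper56)

* `OpenS.exists_primeBelowAt_of_mem` : every prime `v` of `F` containing the rational prime `q` is
  `L.primeBelowAt q A hA` for a valuation subring `A` of `ℚ̄` over `q`;
* `exists_smul_eq_of_liesOverPrime` : `Gal(ℚ̄/ℚ)` is transitive on the valuation subrings of `ℚ̄`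
  over `q`;
* `primeLocalPlace_liesOverPrime`, `mem_nonunits_primeLocalPlace_iff` : the place
  `primeLocalPlace q = ι⁻¹(unit ball)` of the Prelude;
* `OpenS.primeOf_emb_asIdeal` : the prime of `L.emb q g = ι ∘ g` is the prime of `F` below
  `g⁻¹ • primeLocalPlace q`;
* `OpenS.exists_emb_of_natCast_mem` : **surjectivity**, every prime `v ∋ q` of `F` is
  `primeOf (L.emb q g)` for some `g`; `OpenS.exists_emb_of_mem_T` for `v ∈ L.T`.
-/

set_option autoImplicit false
set_option synthInstance.maxHeartbeats 400000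
set_option linter.unusedSectionVars false
set_option linter.style.haveILetI false

open CategoryTheory groupCohomology ExtCitation
open NumberField IsDedekindDomain
open scoped Pointwise

namespace Fermat.Agent.F4

/-- For `A` over `q`, an integer is a nonunit of `A` iff it is divisible by `q`. -/
lemma intCast_mem_nonunits_iff (A : ValuationSubring (AlgebraicClosure ℚ)) {q : ℕ}
    (hq : q.Prime) (hA : A.LiesOverPrime q) (n : ℤ) :
    ((n : ℤ) : AlgebraicClosure ℚ) ∈ A.nonunits ↔ (q : ℤ) ∣ n := by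
  have hqA : ((⟨(q : AlgebraicClosure ℚ), natCast_mem A q⟩ : A)) ∈ IsLocalRing.maximalIdeal A := by
    rw [← ValuationSubring.coe_mem_nonunits_iff]
    exact hA
  constructor
  · intro h
    by_contra hnd
    have hcop : IsCoprime (q : ℤ) n :=
      (Int.prime_iff_natAbs_prime.2 (by simpa using hq)).coprime_iff_not_dvd.2 hnd
    obtain ⟨a, b, hab⟩ := hcop
    have hnA : ((⟨(n : AlgebraicClosure ℚ), intCast_mem A n⟩ : A)) ∈
        IsLocalRing.maximalIdeal A := by
      rw [← ValuationSubring.coe_mem_nonunits_iff]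
      exact h
    have h1 : (1 : A) ∈ IsLocalRing.maximalIdeal A := by
      have h2 := (IsLocalRing.maximalIdeal A).add_mem
        ((IsLocalRing.maximalIdeal A).mul_mem_left (⟨(a : AlgebraicClosure ℚ), intCast_mem A a⟩ : A) hqA)
        ((IsLocalRing.maximalIdeal A).mul_mem_left (⟨(b : AlgebraicClosure ℚ), intCast_mem A b⟩ : A) hnA)
      have e : (⟨(a : AlgebraicClosure ℚ), intCast_mem A a⟩ : A) * ⟨(q : AlgebraicClosure ℚ), natCast_mem A q⟩ +
          ⟨(b : AlgebraicClosure ℚ), intCast_mem A b⟩ * ⟨(n : AlgebraicClosure ℚ), intCast_mem A n⟩ = 1 := by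
        apply Subtype.ext
        show (a : AlgebraicClosure ℚ) * (q : AlgebraicClosure ℚ) +
          (b : AlgebraicClosure ℚ) * (n : AlgebraicClosure ℚ) = 1
        have := congrArg (fun z : ℤ => (z : AlgebraicClosure ℚ)) hab
        push_cast at this
        exact this
      rwa [e] at h2
    exact (IsLocalRing.maximalIdeal.isMaximal A).ne_top ((Ideal.eq_top_iff_one _).2 h1)
  · rintro ⟨m, rfl⟩
    have h2 := (IsLocalRing.maximalIdeal A).mul_mem_right
      (⟨(m : AlgebraicClosure ℚ), intCast_mem A m⟩ : A) hqA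
    rw [← ValuationSubring.coe_mem_nonunits_iff] at h2
    have e : (((⟨(q : AlgebraicClosure ℚ), natCast_mem A q⟩ : A) *
        ⟨(m : AlgebraicClosure ℚ), intCast_mem A m⟩ : A) : AlgebraicClosure ℚ) =
        (((q : ℤ) * m : ℤ) : AlgebraicClosure ℚ) := by
      push_cast
      rfl
    rwa [e] at h2

/-- `Gal(ℚ̄/ℚ)` is transitive on the valuation subrings of `ℚ̄` over a prime `q`. -/
theorem exists_smul_eq_of_liesOverPrime (A A' : ValuationSubring (AlgebraicClosure ℚ)) {q : ℕ}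
    (hq : q.Prime) (hA : A.LiesOverPrime q) (hA' : A'.LiesOverPrime q) :
    ∃ g : GQ, g • A = A' := by
  obtain ⟨g, -, hg⟩ := div_exists_smul_eq (⊥ : IntermediateField ℚ (AlgebraicClosure ℚ)) A A'
    (fun x hx hint => by
      obtain ⟨r, rfl⟩ := IntermediateField.mem_bot.1 hx
      have hr : IsIntegral ℤ r :=
        (isIntegral_algebraMap_iff (algebraMap ℚ (AlgebraicClosure ℚ)).injective).1 hint
      obtain ⟨n, rfl⟩ := IsIntegrallyClosed.isIntegral_iff.1 hr
      have e : algebraMap ℚ (AlgebraicClosure ℚ) (algebraMap ℤ ℚ n) =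
          ((n : ℤ) : AlgebraicClosure ℚ) := by simp
      rw [e, intCast_mem_nonunits_iff A hq hA, intCast_mem_nonunits_iff A' hq hA'])
  exact ⟨g, hg⟩

/-- The nonunits of the place `primeLocalPlace q`. -/
lemma mem_nonunits_primeLocalPlace_iff (q : Nat.Primes) (x : AlgebraicClosure ℚ) :
    x ∈ (primeLocalPlace q).nonunits ↔ ‖locEmb q x‖ < 1 := by
  letI : Fact (q : ℕ).Prime := ⟨q.2⟩
  have hmem : ∀ y : AlgebraicClosure ℚ, y ∈ primeLocalPlace q ↔ ‖locEmb q y‖ ≤ 1 := by
    intro y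
    show y ∈ padicPlace (q : ℕ) ↔ _
    rw [mem_padicPlace_iff]
    exact Iff.rfl
  rw [ValuationSubring.mem_nonunits_iff]
  by_cases hx0 : x = 0
  · subst hx0
    simp
  constructor
  · intro h
    by_contra hcon
    have h1 : ‖locEmb q x⁻¹‖ ≤ 1 := by
      rw [map_inv₀, norm_inv]
      exact inv_le_one_of_one_le₀ (not_lt.1 hcon)
    have h2 : x⁻¹ ∈ primeLocalPlace q := (hmem _).2 h1
    have h3 : (primeLocalPlace q).valuation x⁻¹ ≤ 1 :=
      (ValuationSubring.valuation_le_one_iff _ _).2 h2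
    rw [map_inv₀] at h3
    have h4 : (primeLocalPlace q).valuation x ≠ 0 := (Valuation.ne_zero_iff _).2 hx0
    have h5 : 1 ≤ (primeLocalPlace q).valuation x := (inv_le_one₀ (zero_lt_iff.2 h4)).1 h3
    exact absurd h (not_lt.2 h5)
  · intro h
    by_contra hcon
    have h5 : 1 ≤ (primeLocalPlace q).valuation x := not_lt.1 hcon
    have h4 : (primeLocalPlace q).valuation x ≠ 0 := (Valuation.ne_zero_iff _).2 hx0
    have h3 : (primeLocalPlace q).valuation x⁻¹ ≤ 1 := by
      rw [map_inv₀]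
      exact (inv_le_one₀ (zero_lt_iff.2 h4)).2 h5
    have h2 : x⁻¹ ∈ primeLocalPlace q := (ValuationSubring.valuation_le_one_iff _ _).1 h3
    have h1 := (hmem _).1 h2
    rw [map_inv₀, norm_inv] at h1
    have hpos : 0 < ‖locEmb q x‖ := norm_pos_iff.2 ((map_ne_zero _).2 hx0)
    have := (inv_le_one₀ hpos).1 h1
    exact absurd h (not_lt.2 this)

/-- `primeLocalPlace q` lies over `q`. -/
lemma primeLocalPlace_liesOverPrime (q : Nat.Primes) :
    (primeLocalPlace q).LiesOverPrime (q : ℕ) := by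
  letI : Fact (q : ℕ).Prime := ⟨q.2⟩
  show ((q : ℕ) : AlgebraicClosure ℚ) ∈ (primeLocalPlace q).nonunits
  rw [mem_nonunits_primeLocalPlace_iff, map_natCast]
  have h2 : ‖((q : ℕ) : PadicAlgCl (q : ℕ))‖ = ‖((q : ℕ) : ℚ_[(q : ℕ)])‖ := by
    rw [← PadicAlgCl.norm_extends]
    congr 1
  rw [h2, Padic.norm_p]
  exact inv_lt_one_of_one_lt₀ (by exact_mod_cast q.2.one_lt)

namespace OpenS

variable {S : Finset Nat.Primes} (L : OpenS S)

/-- Every prime of `F` containing `q` is below a valuation subring of `ℚ̄` over `q`. -/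
theorem exists_primeBelowAt_of_mem (v : HeightOneSpectrum (𝓞 L.field)) (q : Nat.Primes)
    (hq : (((q : ℕ) : ℕ) : 𝓞 L.field) ∈ v.asIdeal) :
    ∃ (A : ValuationSubring (AlgebraicClosure ℚ)) (hA : A.LiesOverPrime (q : ℕ)),
      v = L.primeBelowAt q A hA := by
  haveI := v.isPrime
  obtain ⟨A, hA, hPA⟩ := Fermat.Agent.FrobBridge.exists_valuationSubring_over_prime L.field
    v.asIdeal (q : ℕ) q.2 hq
  refine ⟨A, hA, ?_⟩
  apply L.eq_primeBelowAt hA
  ext x
  rw [hPA, Fermat.Agent.KFin.mem_primeBelow_iff]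

/-- Every prime of `F` contains a rational prime. -/
theorem exists_natCast_mem (v : HeightOneSpectrum (𝓞 L.field)) :
    ∃ q : Nat.Primes, (((q : ℕ) : ℕ) : 𝓞 L.field) ∈ v.asIdeal := by
  obtain ⟨q, hq, hqv⟩ := Fermat.Agent.KFin.exists_prime_mem_asIdeal (K := L.field) v
  exact ⟨⟨q, hq⟩, hqv⟩

/-- A prime of `F` outside `L.T` contains a rational prime `q ∉ S`. -/
theorem exists_natCast_mem_of_not_mem_T (v : HeightOneSpectrum (𝓞 L.field)) (hv : v ∉ L.T) :
    ∃ q : Nat.Primes, q ∉ S ∧ (((q : ℕ) : ℕ) : 𝓞 L.field) ∈ v.asIdeal := by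
  obtain ⟨q, hq⟩ := L.exists_natCast_mem v
  refine ⟨q, fun hqS => hv ?_, hq⟩
  rw [L.mem_T]
  exact ⟨q, hqS, hq⟩

/-- The prime of `L.emb q g = ι ∘ g` is the prime of `F` below `g⁻¹ • primeLocalPlace q`. -/
theorem primeOf_emb_asIdeal (q : Nat.Primes) (g : GQ) :
    letI : Fact (q : ℕ).Prime := ⟨q.2⟩
    (F4G.primeOf (L.emb q g)).asIdeal =
      Fermat.Agent.KFin.primeBelow L.field (g⁻¹ • primeLocalPlace q) := by
  letI : Fact (q : ℕ).Prime := ⟨q.2⟩
  ext x
  rw [F4G.mem_primeOf, Fermat.Agent.KFin.mem_primeBelow_iff, L.emb_apply,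
    ← mem_nonunits_primeLocalPlace_iff]
  constructor
  · intro h
    have := Fermat.Agent.KFin.kf_smul_mem_nonunits (primeLocalPlace q) g⁻¹ h
    have e : g⁻¹ (g (((x : 𝓞 L.field) : L.field) : AlgebraicClosure ℚ)) =
        (((x : 𝓞 L.field) : L.field) : AlgebraicClosure ℚ) := g.symm_apply_apply _
    rwa [e] at this
  · intro h
    have := Fermat.Agent.KFin.kf_smul_mem_nonunits (g⁻¹ • primeLocalPlace q) g h
    rwa [smul_inv_smul] at this

/-- **Surjectivity**: every prime of `F` containing `q` is `primeOf (L.emb q g)` for some `g`. -/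
theorem exists_emb_of_natCast_mem (v : HeightOneSpectrum (𝓞 L.field)) (q : Nat.Primes)
    (hq : (((q : ℕ) : ℕ) : 𝓞 L.field) ∈ v.asIdeal) :
    letI : Fact (q : ℕ).Prime := ⟨q.2⟩
    ∃ g : GQ, F4G.primeOf (L.emb q g) = v := by
  letI : Fact (q : ℕ).Prime := ⟨q.2⟩
  obtain ⟨A, hA, hv⟩ := L.exists_primeBelowAt_of_mem v q hq
  obtain ⟨g, hg⟩ := exists_smul_eq_of_liesOverPrime A (primeLocalPlace q) q.2 hA
    (primeLocalPlace_liesOverPrime q)
  refine ⟨g, ?_⟩
  ext1
  rw [L.primeOf_emb_asIdeal q g, ← hg, inv_smul_smul, hv]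
  rfl

/-- **Surjectivity** for the primes over `S`. -/
theorem exists_emb_of_mem_T (v : HeightOneSpectrum (𝓞 L.field)) (hv : v ∈ L.T) :
    ∃ (q : ↥S) (g : GQ),
      letI : Fact ((q : Nat.Primes) : ℕ).Prime := ⟨(q : Nat.Primes).2⟩
      F4G.primeOf (L.emb q.1 g) = v := by
  obtain ⟨q, hqS, hq⟩ := (L.mem_T v).1 hv
  obtain ⟨g, hg⟩ := L.exists_emb_of_natCast_mem v q hq
  exact ⟨⟨q, hqS⟩, g, hg⟩

end OpenS

end Fermat.Agent.F4
end MergeWrap_F4_Dict_PlaceSurj
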