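import Fermat.Agent.MU.F4.Dict.PlacesWire
import Fermat.Agent.MU.F4.Dict.KappaAbs
import Fermat.Agent.MU.F4.Cf.Lines
import Fermat.Agent.MU.S17.W.Final

section MergeWrap_F4_Dict_LocNorm -- from F4/Dict/LocNorm.lean

/-!
# F4 / Dict / LocNorm : the norm of `J^V` modulo `J_(k)` (layer DICT, seat NM, helper90)

`ℓ : LayerS p S` a cyclic layer `V ⊴ U` of degree `p`, `F = ℓ.bot.field ⊂ M = ℓ.top.field`.

* `LayerS.cnorm_eq_diagJ_add` (NM) : for `x ∈ J^V` and every `k` there are `y ∈ Mˣ` and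
  `u ∈ J^U`, `u ≡ 1 mod q^k` everywhere, with `N x = diagJ (N_{M/F} y) + u`
  (weak approximation `x = diagJ y + u₀` in `J^V`, then apply the norm);
* `LayerS.exists_norm_oneMod` (K3iv) : if `diagJ f = N x`, `x ∈ J^V`, then for every `k` there is
  `y ∈ Mˣ` with `f / N y ≡ 1 mod v^(k+1)` for all `v ∈ T_F`.
-/

set_option autoImplicit false
set_option synthInstance.maxHeartbeats 400000
set_option linter.unusedSectionVars false
set_option linter.style.haveILetI false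

open CategoryTheory groupCohomology ExtCitation
open NumberField IsDedekindDomain

namespace Fermat.Agent.F4

variable {S : Finset Nat.Primes}

/-- The value of a finite sum in `J` is the product of the values. -/
lemma nm_Jval_sum {ι : Type*} (s : Finset ι) (f : ι → Jrep S) (q : ↥S) (g : GQ) :
    Jval (∑ i ∈ s, f i) q g = ∏ i ∈ s, Jval (f i) q g := by
  classical
  induction s using Finset.induction_on with
  | empty => rw [Finset.sum_empty, Finset.prod_empty, Jval_zero]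
  | insert a s ha ih => rw [Finset.sum_insert ha, Finset.prod_insert ha, Jval_add, ih]

/-- The value of a cyclic norm. -/
lemma nm_Jval_cnorm (n : ℕ) (σ : GQ) (x : Jrep S) (q : ↥S) (g : GQ) :
    Jval (F4Cf.cnorm (Jrep S) n σ x) q g = ∏ i ∈ Finset.range n, Jval x q (g * σ ^ i) := by
  unfold F4Cf.cnorm
  rw [nm_Jval_sum]
  exact Finset.prod_congr rfl fun i _ => Jval_ρ x q (σ ^ i) g

/-- In `PadicAlgCl q`, a finite product of elements close to `1` is close to `1`. -/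
lemma nm_norm_prod_sub_one_lt {q : ℕ} [Fact q.Prime] {ι : Type*} (s : Finset ι)
    (f : ι → PadicAlgCl q) {ε : ℝ} (hε : ε ≤ 1) (hε0 : 0 < ε) (h : ∀ i ∈ s, ‖f i - 1‖ < ε) :
    ‖∏ i ∈ s, f i - 1‖ < ε := by
  classical
  induction s using Finset.induction_on with
  | empty => simpa using hε0
  | insert a s ha ih =>
    rw [Finset.prod_insert ha]
    exact F4G.norm_mul_sub_one_lt hε (h a (Finset.mem_insert_self a s))
      (ih fun i hi => h i (Finset.mem_insert_of_mem hi))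

/-- The cyclic norm of an element of `J_(k)` lies in `J_(k)`. -/
lemma nm_nearOne_cnorm (n : ℕ) (σ : GQ) {x : Jrep S} {k : ℕ} (hx : NearOne x k) :
    NearOne (F4Cf.cnorm (Jrep S) n σ x) k := by
  intro q g
  letI : Fact ((q : Nat.Primes) : ℕ).Prime := ⟨(q : Nat.Primes).2⟩
  rw [nm_Jval_cnorm]
  have hq1 : (1 : ℝ) ≤ (((q : Nat.Primes) : ℕ) : ℝ) := by
    exact_mod_cast (q : Nat.Primes).2.one_lt.le
  have hε : ((((q : Nat.Primes) : ℕ) : ℝ)) ^ (-(k : ℤ)) ≤ 1 := by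
    rw [zpow_neg, zpow_natCast]
    exact inv_le_one_of_one_le₀ (one_le_pow₀ hq1)
  have hε0 : (0 : ℝ) < ((((q : Nat.Primes) : ℕ) : ℝ)) ^ (-(k : ℤ)) :=
    zpow_pos (lt_of_lt_of_le zero_lt_one hq1) _
  exact nm_norm_prod_sub_one_lt _ _ hε hε0 fun i _ => hx q (g * σ ^ i)

/-- The cyclic norm commutes with the diagonal embedding. -/
lemma nm_cnorm_diagJ (n : ℕ) (σ : GQ) (t : QSx S) :
    F4Cf.cnorm (Jrep S) n σ (diagJ S t) = diagJ S (F4Cf.cnorm (QSx S) n σ t) := by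
  unfold F4Cf.cnorm
  rw [map_sum]
  exact Finset.sum_congr rfl fun i _ => (diagJ_comm S (σ ^ i) t).symm

namespace LayerS

variable {p : ℕ}

/-- **NM.**  The norm of `x ∈ J^V` is, modulo `J^U_(k)`, the diagonal image of a norm from
`Mˣ`. -/
theorem cnorm_eq_diagJ_add (ℓ : LayerS p S) [Fact p.Prime] {x : Jrep S} (hx : x ∈ ℓ.top.JU)
    (k : ℕ) :
    ∃ y : (ℓ.top.field)ˣ, ∃ u : Jrep S, u ∈ ℓ.bot.JU ∧ NearOne u k ∧
      F4Cf.cnorm (Jrep S) p ℓ.σ x =
        diagJ S (ℓ.bot.toQS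
          (Units.map (Algebra.norm ℓ.bot.field : ℓ.top.field →* ℓ.bot.field) y)) + u := by
  obtain ⟨y, u₀, hu₀, hn₀, hxe⟩ := ℓ.top.jApprox hx k
  refine ⟨y, F4Cf.cnorm (Jrep S) p ℓ.σ u₀, ?_, nm_nearOne_cnorm p ℓ.σ hn₀, ?_⟩
  · exact F4Cf.acf3_fix_cnorm ℓ.cyc hu₀
  · rw [hxe, cnorm_add, nm_cnorm_diagJ, ← ℓ.toQS_norm]

/-- **K3iv.**  If `diagJ f` is the norm of `x ∈ J^V`, then `f` is a norm from `Mˣ` modulo
`U_v^(k+1)` at all `v ∈ T_F`, simultaneously. -/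
theorem exists_norm_oneMod (ℓ : LayerS p S) [Fact p.Prime] {x : Jrep S} (hx : x ∈ ℓ.top.JU)
    (f : (ℓ.bot.field)ˣ) (hf : diagJ S (ℓ.bot.toQS f) = F4Cf.cnorm (Jrep S) p ℓ.σ x) (k : ℕ) :
    ∃ y : (ℓ.top.field)ˣ, ∀ v ∈ ℓ.bot.T,
      f / Fermat.Agent.S14SI.normUnits ℓ.bot.field ℓ.top.field y ∈
        F4G.oneModSubgroup ℓ.bot.field v k := by
  obtain ⟨y, u, -, hun, he⟩ := ℓ.cnorm_eq_diagJ_add hx k
  refine ⟨y, ℓ.bot.oneMod_of_nearOne_diagJ' k _ ?_⟩
  have h1 : diagJ S (ℓ.bot.toQS (f / Fermat.Agent.S14SI.normUnits ℓ.bot.field ℓ.top.field y)) = u := by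
    rw [div_eq_mul_inv, OpenS.toQS_mul, OpenS.toQS_inv, map_add, map_neg, hf, he]
    show _ + u + -diagJ S (ℓ.bot.toQS
      (Units.map (Algebra.norm ℓ.bot.field : ℓ.top.field →* ℓ.bot.field) y)) = u
    abel
  rw [h1]
  exact hun

end LayerS

end Fermat.Agent.F4
end MergeWrap_F4_Dict_LocNorm
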