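import Fermat.Agent.MU.F4.Dict.KappaPres
import Fermat.Agent.MU.F4.Dict.DivNorm
import Fermat.Agent.MU.F4.Dict.DivFin
import Fermat.Agent.MU.F4.Dict.LocNorm
import Fermat.Agent.MU.F4.Recip.ArtinSym
import Fermat.Agent.MU.F4.Recip.Distinct
import Fermat.Agent.MU.F4.Dict.InertDiv
import Fermat.Agent.Lib.Minkowski.InertiaLift
import Fermat.Agent.MU.F4.Dict.Level
import Fermat.Agent.MU.F4.Recip.Statements
import Fermat.Agent.MU.F4.Cf.RecipCFin

section MergeWrap_F4_Dict_Artin -- from F4/Dict/Artin.lean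

/-!
# F4 / Dict / Artin : the derivation (DER) of `dict_first` / `dict_distinct` from reciprocity
(seat ART + DER, helper14)

`ℓ : LayerS p S` a cyclic layer `V ⊴ U` of degree `p`, `F = ℓ.bot.field ⊂ M = ℓ.top.field`,
`A` the Artin map of `M/F` (`F4Rec.artin_core`).

* `KForm.norm_kernel` : (abstract K1 step) if `pr (d t) = N (pr (x' + d t'))`, `x' ∈ J^V`, then
  `f := ε - (t - N t')` is fixed by `U` and `d f = N (-x')`, for some `ε ∈ E`;
* `LayerS.der_core` : **(DER)** if `P ∉ T_F` is a prime with `A P ≠ 1`, and `t ∈ (ℚ_S)ˣ` has divisor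
  `m • [P]` with `p ∤ m`, then `CMk (diagJ t)` is NOT a norm from `C^V`.

Inputs taken as hypotheses until they land: `LayerS.InertDiv` (seat INERT-DIV, helper31) and
`F4Rec.UnramOutside F M T_F` (seat UNR, helper49).
-/

set_option autoImplicit false
set_option synthInstance.maxHeartbeats 400000
set_option linter.unusedSectionVars false
set_option linter.style.haveILetI false

open CategoryTheory groupCohomology ExtCitation
open scoped Pointwise
open NumberField IsDedekindDomain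

namespace Fermat.Agent.F4

open Fermat.Agent.F4Cf Fermat.Agent.F4Rec

/-! ### The abstract step -/

namespace KForm

variable {G : Type} [Group G] (K : KForm G)

/-- **K1 for a norm equation**: if `pr (d t)` is the norm of `pr (x' + d t')`, `x' ∈ J^V`, then
`ε - (t - N t')` lies in `Q^U` and maps to `N (-x')`, for some `ε ∈ E`. -/
theorem norm_kernel {p : ℕ} [Fact p.Prime] {U V : Subgroup G} {σ : G} (hc : IsCyc p U V σ)
    {t : K.Q}
    {x' : K.J} (hx' : x' ∈ K.JU V) {t' : K.Q}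
    (h : K.pr (K.d t) = cnorm K.C p σ (K.pr (x' + K.d t'))) :
    ∃ ε ∈ K.E, ε - (t - cnorm K.Q p σ t') ∈ K.QU U ∧
      K.d (ε - (t - cnorm K.Q p σ t')) = cnorm K.J p σ (-x') := by
  rw [K.cnorm_pr, cnorm_add, K.cnorm_d] at h
  have h' : K.pr (0 + K.d t) = K.pr (cnorm K.J p σ x' + K.d (cnorm K.Q p σ t')) := by
    rw [zero_add]
    exact h
  obtain ⟨ε, hε, he⟩ := K.pr_eq_iff.1 h'
  have he' : K.d (ε - (t - cnorm K.Q p σ t')) = cnorm K.J p σ (-x') := by
    rw [← he, cnorm_neg, zero_sub]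
  refine ⟨ε, hε, ?_, he'⟩
  rw [← K.d_mem_JU_iff, he']
  exact acf3_fix_cnorm hc (fun g hg => by rw [map_neg, hx' g hg])

end KForm

/-! ### Multiplicities of primes -/

section Mult

variable {R : Type*} [CommRing R] [IsDedekindDomain R]

lemma der_multiplicity_self (P : HeightOneSpectrum R) : multiplicity P.asIdeal P.asIdeal = 1 :=
  multiplicity_self

lemma der_multiplicity_ne {v P : HeightOneSpectrum R} (h : v ≠ P) :
    multiplicity v.asIdeal P.asIdeal = 0 := by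
  apply multiplicity_eq_zero.mpr
  intro hdvd
  apply h
  have hle : P.asIdeal ≤ v.asIdeal := Ideal.le_of_dvd hdvd
  exact HeightOneSpectrum.ext (P.isMaximal.eq_of_le v.isPrime.ne_top hle).symm

end Mult

namespace LayerS

variable {p : ℕ} [Fact p.Prime] {S : Finset Nat.Primes} (ℓ : LayerS p S)

/-- **(INERT-DIV)** the divisor of a norm is divisible by `p` at the inert primes. -/
def InertDiv : Prop :=
  ∀ (t : QSx S), t ∈ ℓ.top.TU → ∀ d : HeightOneSpectrum (𝓞 ℓ.bot.field) → ℤ,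
    ℓ.bot.IsDivS (cnorm (QSx S) p ℓ.σ t) d →
    ∀ v : HeightOneSpectrum (𝓞 ℓ.bot.field), v ∉ ℓ.bot.T →
    (∀ Q Q' : Ideal (𝓞 ℓ.top.field), Q.IsPrime → Q'.IsPrime → Q ≠ ⊥ → Q' ≠ ⊥ →
      Q.under (𝓞 ℓ.bot.field) = v.asIdeal → Q'.under (𝓞 ℓ.bot.field) = v.asIdeal → Q' = Q) →
    (p : ℤ) ∣ d v

/-- `T_F` is nonempty (`p ∈ S`). -/
lemma der_T_nonempty (L : OpenS S) (q : Nat.Primes) (hq : q ∈ S) : L.T.Nonempty :=
  ⟨_, L.primeOf_emb_mem_T_of_mem q hq 1⟩

/-- **(DER)** the class of a prime `P` with nontrivial Artin symbol is not a norm. -/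
theorem der_core (hp2 : p ≠ 2) (hpS : pPrime p ∈ S) (hID : ℓ.InertDiv)
    (hunr : UnramOutside ℓ.bot.field ℓ.top.field ℓ.bot.T) :
    ∃ A : Ideal (𝓞 ℓ.bot.field) → (ℓ.top.field ≃ₐ[ℓ.bot.field] ℓ.top.field),
      (∀ Q : Ideal (𝓞 ℓ.top.field), Q.IsPrime → Q ≠ ⊥ →
        IsFrobRel (A (Q.under (𝓞 ℓ.bot.field))) Q
          (Ideal.absNorm (Q.under (𝓞 ℓ.bot.field)))) ∧
      ∀ P : HeightOneSpectrum (𝓞 ℓ.bot.field), P ∉ ℓ.bot.T → A P.asIdeal ≠ 1 →
        ∀ (t : QSx S) (m : ℕ), ¬ p ∣ m →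
          ℓ.bot.IsDivS t (fun v => ((m * multiplicity v.asIdeal P.asIdeal : ℕ) : ℤ)) →
          ¬ IsNormFrom (Crep S) p ℓ.top.U ℓ.σ (CMk S (diagJ S t)) := by
  classical
  have hp : p.Prime := Fact.out
  have hS : S.Nonempty := ⟨_, hpS⟩
  obtain ⟨A, k₀, hfrob, hcore⟩ := artin_core p ℓ.bot.T hp hp2 ℓ.finrank_eq
    (der_T_nonempty ℓ.bot _ hpS) hunr
  refine ⟨A, hfrob, ?_⟩
  rintro P hP hAP t m hm hdiv ⟨c', hc'fix, hc'⟩
  -- K1 for `V`
  obtain ⟨x', hx', t', ht', rfl⟩ := kappa_pres S hS ℓ.top.U ℓ.top.isOpen c' hc'fix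
  obtain ⟨ε, hε, hfU, hfd⟩ := (kfS S hS).norm_kernel ℓ.cyc hx' hc'
  obtain ⟨f, hf⟩ := ℓ.bot.exists_toQS_of_fixed _ hfU
  -- `f` is a local norm on `T_F`
  have hx'n : -x' ∈ ℓ.top.JU := ℓ.top.JU.neg_mem hx'
  have hfd' : diagJ S (ℓ.bot.toQS f) = cnorm (Jrep S) p ℓ.σ (-x') := by
    rw [hf]
    exact hfd
  obtain ⟨y, hy⟩ := ℓ.exists_norm_oneMod hx'n f hfd' k₀
  have hloc : f ∈ Fermat.Agent.F4G.localNormsAt ℓ.bot.field ℓ.top.field ℓ.bot.T k₀ :=
    Fermat.Agent.F4G.mem_localNormsAt.mpr fun v hv =>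
      Fermat.Agent.F4G.mem_localNormGroup.mpr ⟨y, hy v hv⟩
  -- divisors
  obtain ⟨dN, hdN⟩ := ℓ.bot.exists_isDivS _ (ℓ.cnorm_mem_bot_TU ht')
  have hdf : ℓ.bot.IsDivS (ℓ.bot.toQS f)
      (0 - ((fun v => ((m * multiplicity v.asIdeal P.asIdeal : ℕ) : ℤ)) - dN)) := by
    rw [hf]
    exact (ℓ.bot.isDivS_of_mem_sUnitsAdd hε).sub (hdiv.sub hdN)
  have hord : ∀ v : HeightOneSpectrum (𝓞 ℓ.bot.field), v ∉ ℓ.bot.T →
      ordV v f = 0 - (((m * multiplicity v.asIdeal P.asIdeal : ℕ) : ℤ) - dN v) := by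
    intro v hv
    obtain ⟨q, hq, B, hB, rfl⟩ := ℓ.bot.exists_primeBelowAt v hv
    exact OpenS.IsDivS.eq_of_primeBelow (ℓ.bot.capit_isDivS_toQS f) hdf q hq B hB _ rfl
  -- inert primes
  have hinert : ∀ v : HeightOneSpectrum (𝓞 ℓ.bot.field), v ∉ ℓ.bot.T → A v.asIdeal ≠ 1 →
      (p : ℤ) ∣ dN v := by
    intro v hv hAv
    refine hID t' ht' dN hdN v hv fun Q Q' hQ hQ' hQ0 _ hQv hQ'v => ?_
    have hn : Ideal.absNorm v.asIdeal ≠ 0 := by
      rw [Ne, Ideal.absNorm_eq_zero_iff]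
      exact v.ne_bot
    have hfr := hfrob Q hQ hQ0
    rw [hQv] at hfr
    exact artin_inert hp ℓ.finrank_eq hAv hn hQ hQ0 hQ' hfr (hQ'v.trans hQv.symm)
  -- reciprocity
  have hfin := hcore f hloc P hP hAP (fun v hv hvP => by
    by_cases hAv : A v.asIdeal = 1
    · exact Or.inl hAv
    · right
      rw [hord v hv, der_multiplicity_ne hvP, Nat.mul_zero, Nat.cast_zero, zero_sub, zero_sub,
        neg_neg]
      exact hinert v hv hAv)
  rw [hord P hP, der_multiplicity_self, Nat.mul_one] at hfin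
  have h1 := hinert P hP hAP
  have h2 : (p : ℤ) ∣ (m : ℤ) := by
    have h3 : (m : ℤ) = dN P - (0 - ((m : ℤ) - dN P)) := by ring
    rw [h3]
    exact dvd_sub h1 hfin
  exact hm (Int.natCast_dvd_natCast.mp h2)

/-- **First inequality** for the layer `ℓ` (derivation): there is a class in `C^U` which is not
a norm from `C^V`, namely the class of a prime of `F` which is inert in `M`. -/
theorem first_of (hp2 : p ≠ 2) (hpS : pPrime p ∈ S) (hID : ℓ.InertDiv)
    (hunr : UnramOutside ℓ.bot.field ℓ.top.field ℓ.bot.T) :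
    ∃ a : Crep S, Fix (Crep S) ℓ.bot.U a ∧ ¬ IsNormFrom (Crep S) p ℓ.top.U ℓ.σ a := by
  classical
  have hp : p.Prime := Fact.out
  have hS : S.Nonempty := ⟨_, hpS⟩
  obtain ⟨A, hfrob, hder⟩ := ℓ.der_core hp2 hpS hID hunr
  -- an inert prime
  obtain ⟨Q, hQ, hQ0, -, -, -, hcop, hAQ⟩ := distinct_prime (F := ℓ.bot.field)
    (M := ℓ.bot.field) (M' := ℓ.top.field) (N := ℓ.top.field) hp ℓ.finrank_eq
    (fun g hg => AlgEquiv.ext fun y => hg y) ℓ.bot.T hunr ∅ A hfrob
  have hPp : (Q.under (𝓞 ℓ.bot.field)).IsPrime := Ideal.comap_isPrime _ _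
  have hP0 : Q.under (𝓞 ℓ.bot.field) ≠ ⊥ := Ideal.under_ne_bot (𝓞 ℓ.bot.field) hQ0
  have hPT : (⟨Q.under (𝓞 ℓ.bot.field), hPp, hP0⟩ : HeightOneSpectrum (𝓞 ℓ.bot.field)) ∉
      ℓ.bot.T := fun hmem => rg_ne_of_sup_eq_top le_rfl hPp.ne_top hcop _ hmem rfl
  obtain ⟨m, hm, hcap⟩ := ℓ.bot.capit (p := p) hpS
  obtain ⟨t, ht, htdiv⟩ := hcap (Q.under (𝓞 ℓ.bot.field)) hP0
  refine ⟨CMk S (diagJ S t), ?_, hder ⟨Q.under (𝓞 ℓ.bot.field), hPp, hP0⟩ hPT hAQ t m hm htdiv⟩
  have h := kappa_fix S hS ℓ.bot.U (x := 0) (kpJU S hS ℓ.bot.U).zero_mem (t := t) ht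
  have e : (0 : Jrep S) + diagJ S t = diagJ S t := zero_add _
  rw [e] at h
  exact h

end LayerS

/-- **`dict_first`** (derivation), modulo the inputs (INERT-DIV) and (UNR). -/
theorem dict_first_of {p : ℕ} [Fact p.Prime] {S : Finset Nat.Primes} (hp2 : p ≠ 2)
    (hpS : pPrime p ∈ S) (U V : Subgroup GQ) (σ : GQ) (hV : (levelsS S).IsOpen V)
    (hc : IsCyc p U V σ)
    (hID : (LayerS.ofCyc hV hc).InertDiv)
    (hunr : UnramOutside (LayerS.ofCyc hV hc).bot.field (LayerS.ofCyc hV hc).top.field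
      (LayerS.ofCyc hV hc).bot.T) :
    ∃ a : Crep S, Fix (Crep S) U a ∧ ¬ IsNormFrom (Crep S) p V σ a :=
  (LayerS.ofCyc hV hc).first_of hp2 hpS hID hunr

end Fermat.Agent.F4
end MergeWrap_F4_Dict_Artin

section MergeWrap_F4_Dict_ArtinDistinct -- from F4/Dict/ArtinDistinct.lean

/-!
# F4 / Dict / ArtinDistinct : the derivation of `dict_distinct` (seat ART + DER, helper14)

Two cyclic layers `V, V' ⊴ U` of degree `p`, `V ≠ V'`; `F ⊂ M, M'` their fields, `N = M M'` the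
field of `V ⊓ V'`.  By `F4Rec.distinct_prime` there is a prime `Q` of `M` of degree one over `F`
such that the Artin symbol of `M'/F` at `P = Q ∩ F` is nontrivial; `y := cl_V(Q)` has norm
`cl_U(P)`, which is not a norm from `M'` (`LayerS.der_core`).

* `isCyc_of_not_mem` : every element of `U \ V` generates `U / V`;
* `isCyc_not_le` : distinct layers are not comparable;
* `isCyc_inf` : `V ⊓ V' ⊴ V` is a cyclic layer of degree `p`;
* `LayerS.distinct_of`, `dict_distinct_of`.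
-/

set_option autoImplicit false
set_option synthInstance.maxHeartbeats 400000
set_option linter.unusedSectionVars false
set_option linter.style.haveILetI false

open CategoryTheory groupCohomology ExtCitation
open scoped Pointwise
open NumberField IsDedekindDomain

namespace Fermat.Agent.F4

open Fermat.Agent.F4Cf Fermat.Agent.F4Rec

/-! ### Group theory of cyclic layers -/

section Grp

variable {G : Type} [Group G] {p : ℕ}

/-- The quotient `U / V` of a cyclic layer has `p` elements. -/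
lemma isCyc_card_quot (hp : p.Prime) {U V : Subgroup G} {σ : G} (hc : IsCyc p U V σ) :
    Nat.card (↥U ⧸ V.subgroupOf U) = p := by
  have h := isCyc_relIndex_eq hp hc
  unfold Subgroup.relIndex Subgroup.index at h
  exact h

lemma isCyc_normal_subgroupOf {U V : Subgroup G} {σ : G} (hc : IsCyc p U V σ) :
    (V.subgroupOf U).Normal :=
  ⟨fun n hn g => hc.normal g.1 g.2 n.1 hn⟩

/-- Every element of `U \ V` generates `U / V`. -/
theorem isCyc_of_not_mem (hp : p.Prime) {U V : Subgroup G} {σ : G} (hc : IsCyc p U V σ)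
    {τ : G} (hτ : τ ∈ U) (hτV : τ ∉ V) : IsCyc p U V τ := by
  have hpF : Fact p.Prime := ⟨hp⟩
  haveI := isCyc_normal_subgroupOf hc
  have hcard := isCyc_card_quot hp hc
  set x : ↥U ⧸ V.subgroupOf U := QuotientGroup.mk ⟨τ, hτ⟩ with hx
  have hx1 : x ≠ 1 := by
    intro h
    apply hτV
    have := (QuotientGroup.eq_one_iff (N := V.subgroupOf U) (⟨τ, hτ⟩ : ↥U)).1 h
    exact this
  have hxp : x ^ p = 1 := by
    rw [← hcard]
    exact pow_card_eq_one'
  have hord : orderOf x = p := orderOf_eq_prime hxp hx1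
  refine ⟨hc.le, hc.normal, hτ, hτV, ?_, ?_⟩
  · have h1 : (QuotientGroup.mk ((⟨τ, hτ⟩ : ↥U) ^ p) : ↥U ⧸ V.subgroupOf U) = 1 := by
      rw [QuotientGroup.mk_pow]
      exact hxp
    have := (QuotientGroup.eq_one_iff (N := V.subgroupOf U) ((⟨τ, hτ⟩ : ↥U) ^ p)).1 h1
    rw [Subgroup.mem_subgroupOf, Subgroup.coe_pow] at this
    exact this
  · intro u hu
    have hmem : (QuotientGroup.mk ⟨u, hu⟩ : ↥U ⧸ V.subgroupOf U) ∈ Subgroup.zpowers x :=
      mem_zpowers_of_prime_card hcard hx1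
    obtain ⟨k, hk⟩ := hmem
    have hk' : x ^ (k % (p : ℤ)) = QuotientGroup.mk ⟨u, hu⟩ := by
      have := zpow_mod_orderOf x k
      rw [hord] at this
      rw [this]
      exact hk
    have hp0 : (p : ℤ) ≠ 0 := by exact_mod_cast hp.ne_zero
    have hnn : 0 ≤ k % (p : ℤ) := Int.emod_nonneg k hp0
    have hlt : k % (p : ℤ) < p := Int.emod_lt_of_pos k (by exact_mod_cast hp.pos)
    obtain ⟨i, hi⟩ := Int.eq_ofNat_of_zero_le hnn
    rw [hi, zpow_natCast] at hk'
    refine ⟨i, by omega, ?_⟩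
    have h2 : (QuotientGroup.mk ((⟨τ, hτ⟩ : ↥U) ^ i) : ↥U ⧸ V.subgroupOf U) =
        QuotientGroup.mk ⟨u, hu⟩ := by
      rw [QuotientGroup.mk_pow]
      exact hk'
    have h3 := QuotientGroup.eq.1 h2
    rw [Subgroup.mem_subgroupOf] at h3
    simpa using h3

/-- Distinct cyclic layers of degree `p` of `U` are not comparable. -/
theorem isCyc_not_le (hp : p.Prime) {U V V' : Subgroup G} {σ σ' : G} (hc : IsCyc p U V σ)
    (hc' : IsCyc p U V' σ') (hne : V ≠ V') : ¬ V ≤ V' := by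
  intro hle
  apply hne
  refine le_antisymm hle ?_
  have h1 := Subgroup.relIndex_mul_relIndex V V' U hle hc'.le
  rw [isCyc_relIndex_eq hp hc', isCyc_relIndex_eq hp hc] at h1
  have h2 : V.relIndex V' = 1 := by
    have hp0 : 0 < p := hp.pos
    have : V.relIndex V' * p = 1 * p := by rw [h1, one_mul]
    exact Nat.eq_of_mul_eq_mul_right hp0 this
  exact Subgroup.relIndex_eq_one.mp h2

/-- `V ⊓ V' ⊴ V` is a cyclic layer of degree `p`, generated by any `τ ∈ V \ V'`. -/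
theorem isCyc_inf (hp : p.Prime) {U V V' : Subgroup G} {σ σ' : G} (hc : IsCyc p U V σ)
    (hc' : IsCyc p U V' σ') {τ : G} (hτ : τ ∈ V) (hτV : τ ∉ V') : IsCyc p V (V ⊓ V') τ := by
  have hc₂ := isCyc_of_not_mem hp hc' (hc.le hτ) hτV
  refine ⟨inf_le_left, ?_, hτ, fun h => hτV h.2, ?_, ?_⟩
  · intro u hu v hv
    exact ⟨V.mul_mem (V.mul_mem hu hv.1) (V.inv_mem hu), hc'.normal u (hc.le hu) v hv.2⟩
  · exact ⟨V.pow_mem hτ p, hc₂.pow_mem⟩
  · intro u hu
    obtain ⟨i, hi, hmem⟩ := hc₂.gen u (hc.le hu)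
    exact ⟨i, hi, V.mul_mem (V.inv_mem (V.pow_mem hτ i)) hu, hmem⟩

end Grp

/-- The intersection of two open subgroups is open. -/
lemma der_isOpen_inf {G : Type} [Group G] (𝓤 : Levels G) {V V' : Subgroup G}
    (hV : 𝓤.IsOpen V) (hV' : 𝓤.IsOpen V') : 𝓤.IsOpen (V ⊓ V') := by
  obtain ⟨W, hW, hWV⟩ := hV
  obtain ⟨W', hW', hWV'⟩ := hV'
  obtain ⟨W'', hW'', hle⟩ := 𝓤.directed W hW W' hW'
  exact ⟨W'', hW'', hle.trans (inf_le_inf hWV hWV')⟩

namespace LayerS

variable {p : ℕ} [Fact p.Prime] {S : Finset Nat.Primes}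

/-- **Reciprocity** (derivation): a cyclic layer `V ⊴ U` of degree `p` different from the layer
`ℓ'` (`V' ⊴ U`) contains a class `y ∈ C^V` whose norm is not a norm from `C^{V'}`. -/
theorem distinct_of (ℓ' : LayerS p S) (hp2 : p ≠ 2) (hpS : pPrime p ∈ S) (hID : ℓ'.InertDiv)
    (hunr : UnramOutside ℓ'.bot.field ℓ'.top.field ℓ'.bot.T)
    (V : OpenS S) (σ : GQ) (hc : IsCyc p ℓ'.bot.U V.U σ) (hne : V.U ≠ ℓ'.top.U) :
    ∃ y : Crep S, Fix (Crep S) V.U y ∧
      ¬ IsNormFrom (Crep S) p ℓ'.top.U ℓ'.σ (cnorm (Crep S) p σ y) := by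
  classical
  have hp : p.Prime := Fact.out
  have hS : S.Nonempty := ⟨_, hpS⟩
  -- the layers
  set ℓ : LayerS p S := ⟨ℓ'.bot, V, σ, hc⟩ with hℓ
  obtain ⟨σ₂, hσ₂V, hσ₂V'⟩ := SetLike.not_le_iff_exists.mp (isCyc_not_le hp hc ℓ'.cyc hne)
  have hc₂ : IsCyc p ℓ'.bot.U ℓ'.top.U σ₂ := isCyc_of_not_mem hp ℓ'.cyc (hc.le hσ₂V) hσ₂V'
  set W : OpenS S := ⟨V.U ⊓ ℓ'.top.U, der_isOpen_inf _ V.isOpen ℓ'.top.isOpen⟩ with hW
  set ℓ₂ : LayerS p S := ⟨V, W, σ₂, isCyc_inf hp hc ℓ'.cyc hσ₂V hσ₂V'⟩ with hℓ₂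
  have hM'N : ℓ'.top.field ≤ W.field := by
    intro x hx
    rw [OpenS.mem_field_iff] at hx ⊢
    exact fun g hg => hx g hg.2
  have hFN : ℓ'.bot.field ≤ W.field := ℓ'.field_le.trans hM'N
  letI instM'N : Algebra ℓ'.top.field W.field :=
    (IntermediateField.inclusion hM'N).toRingHom.toAlgebra
  letI instFN : Algebra ℓ'.bot.field W.field :=
    (IntermediateField.inclusion hFN).toRingHom.toAlgebra
  letI instFM : Algebra ℓ'.bot.field V.field := ℓ.algebra
  letI instMN : Algebra V.field W.field := ℓ₂.algebra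
  have towerFMN : @IsScalarTower ℓ'.bot.field V.field W.field ℓ.algebra.toSMul
      ℓ₂.algebra.toSMul instFN.toSMul :=
    @IsScalarTower.of_algebraMap_eq ℓ'.bot.field V.field W.field _ _ _ ℓ.algebra ℓ₂.algebra
      instFN (fun _ => rfl)
  have towerFM'N : @IsScalarTower ℓ'.bot.field ℓ'.top.field W.field ℓ'.algebra.toSMul
      instM'N.toSMul instFN.toSMul :=
    @IsScalarTower.of_algebraMap_eq ℓ'.bot.field ℓ'.top.field W.field _ _ _ ℓ'.algebra instM'N
      instFN (fun _ => rfl)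
  -- `N` is generated by `M'` over `M`
  have hgen : ∀ g : W.field ≃ₐ[V.field] W.field,
      (∀ y : ℓ'.top.field, g (algebraMap ℓ'.top.field W.field y) =
        algebraMap ℓ'.top.field W.field y) → g = 1 := by
    intro g hg
    obtain ⟨i, hi, rfl⟩ := ℓ₂.exists_gen_pow g
    have hmem : σ₂ ^ i ∈ ℓ'.top.U := by
      rw [← ℓ'.top.fixingSubgroup_field, IntermediateField.mem_fixingSubgroup_iff]
      intro x hx
      have h1 := congrArg (fun z : W.field => (z : AlgebraicClosure ℚ)) (hg ⟨x, hx⟩)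
      simp only [ℓ₂.coe_gen_pow] at h1
      exact h1
    have hi0 : i = 0 := by
      by_contra h0
      exact isCyc_pow_not_mem hp hc₂ i (Nat.pos_of_ne_zero h0) hi hmem
    rw [hi0, pow_zero]
  -- the Artin map of `M'/F` and a prime of degree one of `M`
  obtain ⟨A, hfrob, hder⟩ := ℓ'.der_core hp2 hpS hID hunr
  obtain ⟨Q, hQ, hQ0, -, -, hrel, hcop, hAQ⟩ :=
    @distinct_prime p ℓ'.bot.field V.field ℓ'.top.field W.field _ _ _ _ _ _ _ _
      ℓ.algebra ℓ'.algebra instFN ℓ₂.algebra instM'N towerFMN towerFM'N ℓ'.isGalois ℓ₂.isGalois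
      hp ℓ₂.finrank_eq hgen ℓ'.bot.T hunr ∅ A hfrob
  have hPp : (Q.under (𝓞 ℓ'.bot.field)).IsPrime := Ideal.comap_isPrime _ _
  have hP0 : Q.under (𝓞 ℓ'.bot.field) ≠ ⊥ := Ideal.under_ne_bot (𝓞 ℓ'.bot.field) hQ0
  have hPT : (⟨Q.under (𝓞 ℓ'.bot.field), hPp, hP0⟩ : HeightOneSpectrum (𝓞 ℓ'.bot.field)) ∉
      ℓ'.bot.T := fun hmem => rg_ne_of_sup_eq_top le_rfl hPp.ne_top hcop _ hmem rfl
  -- the class of `Q`
  obtain ⟨m, hm, hcap⟩ := V.capit (p := p) hpS
  obtain ⟨s, hs, hsdiv⟩ := hcap Q hQ0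
  have hN := ℓ.isDivS_bot_cnorm Q hQ0 m hsdiv
  rw [hrel] at hN
  have hnot := hder ⟨Q.under (𝓞 ℓ'.bot.field), hPp, hP0⟩ hPT hAQ _ m hm hN
  refine ⟨CMk S (diagJ S s), ?_, ?_⟩
  · have h := kappa_fix S hS V.U (x := 0) (kpJU S hS V.U).zero_mem (t := s) hs
    have e : (0 : Jrep S) + diagJ S s = diagJ S s := zero_add _
    rw [e] at h
    exact h
  · have e : cnorm (Crep S) p σ (CMk S (diagJ S s)) =
        CMk S (diagJ S (cnorm (QSx S) p σ s)) := by
      have h1 := (kfS S hS).cnorm_pr p σ (diagJ S s)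
      have h2 := (kfS S hS).cnorm_d p σ s
      exact h1.trans (congrArg (CMk S) h2)
    rw [e]
    exact hnot

end LayerS

/-- **`dict_distinct`** (derivation), modulo the inputs (INERT-DIV) and (UNR) for the layer
`(U, V', σ')`. -/
theorem dict_distinct_of {p : ℕ} [Fact p.Prime] {S : Finset Nat.Primes} (hp2 : p ≠ 2)
    (hpS : pPrime p ∈ S) (U V V' : Subgroup GQ) (σ σ' : GQ)
    (hV : (levelsS S).IsOpen V) (hV' : (levelsS S).IsOpen V')
    (hc : IsCyc p U V σ) (hc' : IsCyc p U V' σ') (hne : V ≠ V')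
    (hID : (LayerS.ofCyc hV' hc').InertDiv)
    (hunr : UnramOutside (LayerS.ofCyc hV' hc').bot.field (LayerS.ofCyc hV' hc').top.field
      (LayerS.ofCyc hV' hc').bot.T) :
    ∃ y : Crep S, Fix (Crep S) V y ∧ ¬ IsNormFrom (Crep S) p V' σ' (cnorm (Crep S) p σ y) :=
  (LayerS.ofCyc hV' hc').distinct_of hp2 hpS hID hunr ⟨V, hV⟩ σ hc hne

end Fermat.Agent.F4
end MergeWrap_F4_Dict_ArtinDistinct

section MergeWrap_F4_Dict_ArtinWire -- from F4/Dict/ArtinWire.lean

/-!
# F4 / Dict / ArtinWire : `dict_first` and `dict_distinct`, modulo (UNR) only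
(seat ART + DER, helper14)

* `LayerS.inertDiv` : the input (INERT-DIV) (helper31's `LayerS.dvd_of_inert`);
* `dict_first_unr`, `dict_distinct_unr` : the two statements of `F4/Cf/Dict.lean`, with the
  single hypothesis that the layer is unramified outside `T_F` (seat UNR).
-/

set_option autoImplicit false
set_option synthInstance.maxHeartbeats 400000
set_option linter.unusedSectionVars false

open CategoryTheory groupCohomology ExtCitation
open NumberField IsDedekindDomain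

namespace Fermat.Agent.F4

open Fermat.Agent.F4Cf Fermat.Agent.F4Rec

variable {p : ℕ} [Fact p.Prime] {S : Finset Nat.Primes}

/-- (INERT-DIV) holds. -/
theorem LayerS.inertDiv (ℓ : LayerS p S) : ℓ.InertDiv :=
  fun _ ht _ hd v hv hin => ℓ.dvd_of_inert ht hd v hv hin

/-- **`dict_first`**, modulo (UNR). -/
theorem dict_first_unr (hp2 : p ≠ 2) (hpS : pPrime p ∈ S) (U V : Subgroup GQ) (σ : GQ)
    (hV : (levelsS S).IsOpen V) (hc : IsCyc p U V σ)
    (hunr : UnramOutside (LayerS.ofCyc hV hc).bot.field (LayerS.ofCyc hV hc).top.field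
      (LayerS.ofCyc hV hc).bot.T) :
    ∃ a : Crep S, Fix (Crep S) U a ∧ ¬ IsNormFrom (Crep S) p V σ a :=
  dict_first_of hp2 hpS U V σ hV hc (LayerS.ofCyc hV hc).inertDiv hunr

/-- **`dict_distinct`**, modulo (UNR). -/
theorem dict_distinct_unr (hp2 : p ≠ 2) (hpS : pPrime p ∈ S) (U V V' : Subgroup GQ)
    (σ σ' : GQ) (hV : (levelsS S).IsOpen V) (hV' : (levelsS S).IsOpen V')
    (hc : IsCyc p U V σ) (hc' : IsCyc p U V' σ') (hne : V ≠ V')
    (hunr : UnramOutside (LayerS.ofCyc hV' hc').bot.field (LayerS.ofCyc hV' hc').top.field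
      (LayerS.ofCyc hV' hc').bot.T) :
    ∃ y : Crep S, Fix (Crep S) V y ∧ ¬ IsNormFrom (Crep S) p V' σ' (cnorm (Crep S) p σ y) :=
  dict_distinct_of hp2 hpS U V V' σ σ' hV hV' hc hc' hne (LayerS.ofCyc hV' hc').inertDiv hunr

end Fermat.Agent.F4
end MergeWrap_F4_Dict_ArtinWire

section MergeWrap_F4_Dict_Unram -- from F4/Dict/Unram.lean

/-!
# F4 / Dict / Unram : the layers of `G_S` are unramified outside `S` at finite level
(helper29)

* `ub_exists_mem_inertia` : inertia lifting for an ARBITRARY finite subextension `L/ℚ` of `ℚ̄`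
  (not necessarily normal): an automorphism `s` of `L` acting trivially on the integers of `L`
  modulo the maximal ideal of the valuation subring `A` of `ℚ̄` is the restriction of an element
  of the inertia group of `A`  (helper10's `exists_mem_inertiaSubgroupIn_restrict` without
  normality);
* `OpenS.unramAt` : for `L : OpenS S` and any subfield `F` of `M = L.field` (with `Algebra F M`
  the inclusion), `M / F` is unramified at every prime of `M` over a rational prime `r ∉ S`;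
* `LayerS.unramOutside` : `UnramOutside bot.field top.field bot.T` (helper14's finite-level
  hypothesis of `FirstIneqRay`, `ArtinRay`, `artinMapExists`).
-/

set_option autoImplicit false
set_option linter.unusedSectionVars false
set_option linter.style.haveILetI false
set_option synthInstance.maxHeartbeats 400000

open NumberField IsDedekindDomain ExtCitation

namespace Fermat.Agent.F4UB

open Fermat.Agent.FrobExists Fermat.Agent.Minkowski
open scoped Pointwise
open IsLocalRing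

attribute [local instance] isAlgebraic_Qb isAlgClosure_Qb isInvariant_Zb isGalois_Qb

section Lift

variable (L : IntermediateField ℚ Qb)

/-- If `σ` restricts to `s` on `L` and `s` is trivial on the integers of `L` modulo the centre
of `A`, then `σ` is trivial on the integers of `L` modulo the centre of `A`. -/
theorem ub_smul_sub_mem_centre (A : ValuationSubring Qb) (s : L ≃ₐ[ℚ] L)
    (hs : ∀ x : L, IsIntegral ℤ x → ((s x : L) : Qb) - (x : Qb) ∈ A.nonunits)
    (σ : GQ) (hσ : ∀ x : L, σ (x : Qb) = ((s x : L) : Qb)) (a : Zb) (ha : a ∈ intL L) :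
    σ • a - a ∈ centre A := by
  rw [mem_centre_iff]
  have hx : IsIntegral ℤ (⟨(a : Qb), ha⟩ : L) := by
    have h1 : IsIntegral ℤ (algebraMap L Qb ⟨(a : Qb), ha⟩) := a.2
    exact (isIntegral_algebraMap_iff (FaithfulSMul.algebraMap_injective L Qb)).mp h1
  have h := hs ⟨(a : Qb), ha⟩ hx
  rw [← hσ] at h
  exact h

/-- **Lifting inertia** from an arbitrary finite level. -/
theorem ub_exists_mem_inertia (A : ValuationSubring Qb) [FiniteDimensional ℚ L]
    (s : L ≃ₐ[ℚ] L)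
    (hs : ∀ x : L, IsIntegral ℤ x → ((s x : L) : Qb) - (x : Qb) ∈ A.nonunits) :
    ∃ σ ∈ A.inertiaSubgroupIn ℚ, ∀ x : L, σ (x : Qb) = ((s x : L) : Qb) := by
  let _ : TopologicalSpace Zb := ⊥
  have : DiscreteTopology Zb := ⟨rfl⟩
  have := continuousSMul_fixingSubgroup_Zb L
  have := compactSpace_fixingSubgroup L
  have := isInvariant_intL L
  -- Step 0: a lift
  let σ₀ : GQ := s.liftNormal Qb
  have hσ₀ : ∀ x : L, σ₀ (x : Qb) = ((s x : L) : Qb) := fun x => s.liftNormal_commutes Qb x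
  have hfix : ∀ (ρ : GQ), ρ ∈ L.fixingSubgroup → ∀ x : L, ρ (x : Qb) = x := fun ρ hρ x =>
    (IntermediateField.mem_fixingSubgroup_iff L ρ).mp hρ _ x.2
  -- `σ₀⁻¹` on `L`
  have hσ₀inv : ∀ x : L, σ₀⁻¹ (x : Qb) = ((s.symm x : L) : Qb) := by
    intro x
    have h1 := hσ₀ (s.symm x)
    rw [s.apply_symm_apply] at h1
    rw [← h1]
    show σ₀.symm (σ₀ _) = _
    simp
  -- Step 1: a lift stabilising the centre
  have hunder : (σ₀ • centre A).under (intL L) = (centre A).under (intL L) := by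
    ext a
    rw [Ideal.mem_comap, Ideal.mem_comap, Ideal.mem_pointwise_smul_iff_inv_smul_mem]
    have ha' : σ₀⁻¹ • (a : Zb) ∈ intL L := by
      rw [mem_intL_iff]
      show σ₀⁻¹ ((a : Zb) : Qb) ∈ L
      have := hσ₀inv ⟨((a : Zb) : Qb), a.2⟩
      rw [this]
      exact (s.symm _).2
    have h := ub_smul_sub_mem_centre L A s hs σ₀ hσ₀ _ ha'
    rw [smul_inv_smul] at h
    constructor
    · intro h1
      have := (centre A).add_mem h h1
      simpa using this
    · intro h1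
      have := (centre A).sub_mem h1 h
      simpa using this
  obtain ⟨ρ, hρ⟩ := Algebra.IsInvariant.exists_smul_of_under_eq_of_profinite
    (A := intL L) (G := L.fixingSubgroup) (σ₀ • centre A) (centre A) hunder
  let σ₁ : GQ := ρ.1 * σ₀
  have hσ₁Q : σ₁ • centre A = centre A := by
    ext x
    rw [Ideal.mem_pointwise_smul_iff_inv_smul_mem]
    have h1 := SetLike.ext_iff.mp hρ x
    rw [Ideal.mem_pointwise_smul_iff_inv_smul_mem,
      Ideal.mem_pointwise_smul_iff_inv_smul_mem] at h1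
    have h2 : σ₁⁻¹ • x = σ₀⁻¹ • ρ⁻¹ • x := by
      change (ρ.1 * σ₀)⁻¹ • x = σ₀⁻¹ • (ρ.1)⁻¹ • x
      rw [mul_inv_rev, mul_smul]
    rw [h2]
    exact h1.symm
  have hσ₁ : ∀ x : L, σ₁ (x : Qb) = ((s x : L) : Qb) := by
    intro x
    show ρ.1 (σ₀ (x : Qb)) = _
    rw [hσ₀]
    exact hfix ρ.1 ρ.2 (s x)
  -- Step 2: correct the lift so that it acts trivially modulo the centre
  let g₁ : MulAction.stabilizer GQ (centre A) := ⟨σ₁, hσ₁Q⟩
  let e₁ : (Zb ⧸ centre A) ≃ₐ[ℤ ⧸ (centre A).under ℤ] (Zb ⧸ centre A) :=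
    Ideal.Quotient.stabilizerHom (centre A) ((centre A).under ℤ) GQ g₁
  let e : (Zb ⧸ centre A) ≃ₐ[intL L ⧸ (centre A).under (intL L)] (Zb ⧸ centre A) :=
    AlgEquiv.ofRingEquiv (f := e₁.toRingEquiv) (by
      intro r
      obtain ⟨a, rfl⟩ := Ideal.Quotient.mk_surjective r
      change Ideal.Quotient.mk (centre A) (σ₁ • (a : Zb)) = Ideal.Quotient.mk (centre A) (a : Zb)
      rw [Ideal.Quotient.eq]
      exact ub_smul_sub_mem_centre L A s hs σ₁ hσ₁ _ a.2)
  obtain ⟨ρ', hρ'⟩ := Ideal.Quotient.stabilizerHom_surjective_of_profinite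
    (G := L.fixingSubgroup) ((centre A).under (intL L)) (centre A) e
  have hρ'b : ∀ b : Zb, σ₁ • b - ρ'.1.1 • b ∈ centre A := by
    intro b
    have h := DFunLike.congr_fun hρ' (Ideal.Quotient.mk (centre A) b)
    have h' : Ideal.Quotient.mk (centre A) (ρ'.1.1 • b) = Ideal.Quotient.mk (centre A) (σ₁ • b) := h
    rw [← Ideal.Quotient.eq]
    exact h'.symm
  have hρ'Q : ∀ b : Zb, (ρ'.1.1)⁻¹ • b ∈ centre A ↔ b ∈ centre A := by
    intro b
    have h := SetLike.ext_iff.mp ρ'.2 b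
    rw [Ideal.mem_pointwise_smul_iff_inv_smul_mem] at h
    exact h
  let σ : GQ := (ρ'.1.1)⁻¹ * σ₁
  have hσQ : σ • centre A = centre A := by
    ext x
    rw [Ideal.mem_pointwise_smul_iff_inv_smul_mem]
    have h2 : σ⁻¹ • x = σ₁⁻¹ • ρ'.1.1 • x := by
      change ((ρ'.1.1)⁻¹ * σ₁)⁻¹ • x = σ₁⁻¹ • ρ'.1.1 • x
      rw [mul_inv_rev, inv_inv, mul_smul]
    rw [h2, ← Ideal.mem_pointwise_smul_iff_inv_smul_mem, hσ₁Q, ← hρ'Q, inv_smul_smul]
  have hσb : ∀ b : Zb, σ • b - b ∈ centre A := by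
    intro b
    have h := (hρ'Q _).mpr (hρ'b b)
    rw [smul_sub, inv_smul_smul] at h
    rw [mul_smul]
    exact h
  refine ⟨σ, mem_inertiaSubgroupIn_of_forall_sub_mem_centre A σ hσQ hσb, fun x => ?_⟩
  show (ρ'.1.1)⁻¹ (σ₁ (x : Qb)) = _
  rw [hσ₁]
  exact hfix _ (L.fixingSubgroup.inv_mem ρ'.1.2) (s x)

end Lift

end Fermat.Agent.F4UB

namespace Fermat.Agent.F4

open Fermat.Agent.F4Rec

variable {S : Finset Nat.Primes}

/-- For `L : OpenS S`, `M = L.field` and any subfield `F` of `M`: `M / F` is unramified at the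
primes of `M` over a rational prime `r ∉ S`. -/
theorem OpenS.unramAt (L : OpenS S) (F : IntermediateField ℚ (AlgebraicClosure ℚ))
    [Algebra F L.field] (r : Nat.Primes) (hr : r ∉ S)
    (Q : Ideal (𝓞 L.field)) (hQ : Q.IsPrime) (hrQ : (((r : ℕ) : ℕ) : 𝓞 L.field) ∈ Q) :
    UnramAt F Q := by
  intro τ hin
  obtain ⟨V, hV, hVQ⟩ := Fermat.Agent.F4RCF.rcf_exists_val L.field r.2 Q hQ hrQ
  let s : L.field ≃ₐ[ℚ] L.field := τ.restrictScalars ℚ
  have hs : ∀ x : L.field, IsIntegral ℤ x →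
      ((s x : L.field) : AlgebraicClosure ℚ) - (x : AlgebraicClosure ℚ) ∈ V.nonunits := by
    intro x hx
    obtain ⟨y, hy, hxy⟩ := hin ⟨x, hx⟩
    rw [← hVQ, Fermat.Agent.KFin.mem_primeBelow_iff] at hy
    have : ((s x : L.field) : AlgebraicClosure ℚ) - (x : AlgebraicClosure ℚ)
        = (((y : 𝓞 L.field) : L.field) : AlgebraicClosure ℚ) :=
      congrArg (fun z : L.field => (z : AlgebraicClosure ℚ)) hxy
    rw [this]
    exact hy
  obtain ⟨σ, hσ, hres⟩ := Fermat.Agent.F4UB.ub_exists_mem_inertia L.field V s hs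
  obtain ⟨F₀, hF₀, -, hle⟩ := L.exists_level
  have hσU : σ ∈ L.U := hle (hF₀.2 r hr V hV hσ)
  apply AlgEquiv.ext
  intro x
  apply Subtype.ext
  have h1 : σ (x : AlgebraicClosure ℚ) = x := (L.mem_field_iff _).1 x.2 σ hσU
  show ((s x : L.field) : AlgebraicClosure ℚ) = (x : AlgebraicClosure ℚ)
  rw [← hres, h1]

/-- **UNR.**  The layers of `G_S` are unramified outside `S` at finite level. -/
theorem LayerS.unramOutside {p : ℕ} (ℓ : LayerS p S) :
    UnramOutside ℓ.bot.field ℓ.top.field ℓ.bot.T := by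
  intro Q hQ hQ0 hQT
  have h1 := Ideal.absNorm_mem Q
  have h2 : ((Ideal.absNorm Q : ℕ) : 𝓞 ℓ.top.field) ∈ Q := by exact_mod_cast h1
  rcases Fermat.Agent.KFin.exists_prime_natCast_mem Q _ h2 with h | ⟨r, hr, hrQ⟩
  · exact absurd (Ideal.absNorm_eq_zero_iff.mp h) hQ0
  · refine OpenS.unramAt ℓ.top ℓ.bot.field ⟨r, hr⟩ ?_ Q hQ hrQ
    intro hrS
    have hrP : ((r : ℕ) : 𝓞 ℓ.bot.field) ∈ Q.under (𝓞 ℓ.bot.field) := by
      rw [Ideal.under_def, Ideal.mem_comap, map_natCast]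
      exact hrQ
    have hP0 : Q.under (𝓞 ℓ.bot.field) ≠ ⊥ := Ideal.under_ne_bot (𝓞 ℓ.bot.field) hQ0
    have hPprime : (Q.under (𝓞 ℓ.bot.field)).IsPrime := Ideal.IsPrime.under (𝓞 ℓ.bot.field) Q
    refine hQT ⟨Q.under (𝓞 ℓ.bot.field), hPprime, hP0⟩ ?_ rfl
    rw [OpenS.mem_T]
    exact ⟨⟨r, hr⟩, hrS, hrP⟩

end Fermat.Agent.F4
end MergeWrap_F4_Dict_Unram

section MergeWrap_F4_Dict_ArtinMain -- from F4/Dict/ArtinMain.lean

/-!
# F4 / Dict / ArtinMain : `dict_first` and `dict_distinct`, unconditional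
(seat ART + DER, helper14)

* `dict_first_pf` : the first inequality for `C = J / E` (`F4/Cf/Dict.lean`, `dict_first`);
* `dict_distinct_pf` : distinct cyclic layers have distinct norm groups (`dict_distinct`).

Inputs: K1 (`kappa_pres`, helper56), K2 (`OpenS.capit`, `Div.lean`, `DivNorm.lean`, helper74/55),
NM (`LayerS.exists_norm_oneMod`, helper90), INERT-DIV (helper31), UNR (helper29), and the
finite-level reciprocity `F4Rec.artin_core` (`ArtinRay`: helper13/48/86/14).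
-/

set_option autoImplicit false
set_option synthInstance.maxHeartbeats 400000
set_option linter.unusedSectionVars false

open CategoryTheory groupCohomology ExtCitation
open NumberField IsDedekindDomain

namespace Fermat.Agent.F4

open Fermat.Agent.F4Cf Fermat.Agent.F4Rec

variable {p : ℕ} [Fact p.Prime] {S : Finset Nat.Primes}

/-- **First inequality** for `C = J / E`. -/
theorem dict_first_pf (hp2 : p ≠ 2) (hpS : pPrime p ∈ S) (U V : Subgroup GQ) (σ : GQ)
    (hV : (levelsS S).IsOpen V) (hc : IsCyc p U V σ) :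
    ∃ a : Crep S, Fix (Crep S) U a ∧ ¬ IsNormFrom (Crep S) p V σ a :=
  dict_first_unr hp2 hpS U V σ hV hc (LayerS.ofCyc hV hc).unramOutside

/-- **Reciprocity**: distinct cyclic layers of degree `p` have distinct norm groups. -/
theorem dict_distinct_pf (hp2 : p ≠ 2) (hpS : pPrime p ∈ S) (U V V' : Subgroup GQ)
    (σ σ' : GQ) (hV : (levelsS S).IsOpen V) (hV' : (levelsS S).IsOpen V')
    (hc : IsCyc p U V σ) (hc' : IsCyc p U V' σ') (hne : V ≠ V') :
    ∃ y : Crep S, Fix (Crep S) V y ∧ ¬ IsNormFrom (Crep S) p V' σ' (cnorm (Crep S) p σ y) :=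
  dict_distinct_unr hp2 hpS U V V' σ σ' hV hV' hc hc' hne (LayerS.ofCyc hV' hc').unramOutside

end Fermat.Agent.F4
end MergeWrap_F4_Dict_ArtinMain
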