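import Fermat.Agent.F4.Loc.Krasner
import Fermat.Agent.MU.F4.Dict.Level

section MergeWrap_F4_Dict_NearRoot -- from F4/Dict/NearRoot.lean

/-!
# F4 / Dict / NearRoot : the canonical `p`-th root near `1` in `PadicAlgCl q`
(seat K3ii of DICT, local part; owner helper49)

`Ω = PadicAlgCl q` (algebraically closed, non-archimedean norm, not complete).  For `p > 0`:

* `exists_rootRadius`   : `c ∈ (0, 1]` with `‖ζ - 1‖ ≥ c` for every `p`-th root of unity `ζ ≠ 1`;
* `exists_nearRoot`     : `‖u - 1‖ < c ^ p  ⇒  ∃ w, w ^ p = u ∧ ‖w - 1‖ < c`;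
* `nearRoot_unique`     : such a `w` is unique;
* `nearRoot_fixed`      : hence fixed by every `ℚ_q`-automorphism fixing `u`, and more generally
  `nearRoot_equivariant`.
No completeness is used: existence comes from `Ω` algebraically closed and
`1 - u = ∏ (1 - w)` over the roots `w` of `X ^ p - u`.
-/

set_option autoImplicit false

open Polynomial

namespace Fermat.Agent.F4

variable {q : ℕ} [Fact q.Prime]

/-- A lower bound for `‖ζ - 1‖`, `ζ ≠ 1` a `p`-th root of unity. -/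
theorem exists_rootRadius (p : ℕ) (hp : 0 < p) :
    ∃ c : ℝ, 0 < c ∧ c ≤ 1 ∧ ∀ ζ : PadicAlgCl q, ζ ^ p = 1 → ζ ≠ 1 → c ≤ ‖ζ - 1‖ := by
  classical
  set s : Finset (PadicAlgCl q) := (nthRootsFinset p (1 : PadicAlgCl q)).erase 1 with hs
  by_cases hne : s.Nonempty
  · obtain ⟨ζ₀, hζ₀, hmin⟩ := Finset.exists_min_image s (fun ζ => ‖ζ - 1‖) hne
    have hζ₀1 : ζ₀ ≠ 1 := (Finset.mem_erase.1 hζ₀).1
    refine ⟨min 1 ‖ζ₀ - 1‖, lt_min one_pos (norm_pos_iff.2 (sub_ne_zero.2 hζ₀1)),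
      min_le_left _ _, fun ζ hζ hζ1 => ?_⟩
    have hmem : ζ ∈ s := by
      rw [hs, Finset.mem_erase]
      exact ⟨hζ1, (mem_nthRootsFinset hp 1).2 hζ⟩
    exact (min_le_right _ _).trans (hmin ζ hmem)
  · refine ⟨1, one_pos, le_rfl, fun ζ hζ hζ1 => ?_⟩
    exfalso
    apply hne
    refine ⟨ζ, ?_⟩
    rw [hs, Finset.mem_erase]
    exact ⟨hζ1, (mem_nthRootsFinset hp 1).2 hζ⟩

/-- A product of `n` numbers `≥ c ≥ 0` is `≥ c ^ n`. -/
lemma pow_card_le_prod_map {α : Type*} (m : Multiset α) (f : α → ℝ) {c : ℝ} (hc : 0 ≤ c)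
    (h : ∀ a ∈ m, c ≤ f a) : c ^ Multiset.card m ≤ (m.map f).prod := by
  induction m using Multiset.induction_on with
  | empty => simp
  | cons a m ih =>
    rw [Multiset.card_cons, Multiset.map_cons, Multiset.prod_cons, pow_succ']
    have h1 : c ≤ f a := h a (Multiset.mem_cons_self a m)
    have h2 : c ^ Multiset.card m ≤ (m.map f).prod :=
      ih fun b hb => h b (Multiset.mem_cons_of_mem hb)
    exact mul_le_mul h1 h2 (pow_nonneg hc _) (hc.trans h1)

/-- **Existence** of a `p`-th root near `1`. -/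
theorem exists_nearRoot {p : ℕ} (hp : 0 < p) {c : ℝ} (hc : 0 < c) {u : PadicAlgCl q}
    (hu : ‖u - 1‖ < c ^ p) : ∃ w : PadicAlgCl q, w ^ p = u ∧ ‖w - 1‖ < c := by
  by_contra hcon
  push Not at hcon
  set f : (PadicAlgCl q)[X] := X ^ p - C u with hf
  have hmon : f.Monic := monic_X_pow_sub_C u hp.ne'
  have hsplit : f.Splits := IsAlgClosed.splits f
  have hdeg : f.natDegree = p := natDegree_X_pow_sub_C
  have hcard : Multiset.card f.roots = p := by rw [← hsplit.natDegree_eq_card_roots, hdeg]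
  have heval : f.eval 1 = (f.roots.map (1 - ·)).prod := hsplit.eval_eq_prod_roots_of_monic hmon 1
  have heval1 : f.eval 1 = 1 - u := by simp [hf]
  have hroot : ∀ w ∈ f.roots, c ≤ ‖1 - w‖ := by
    intro w hw
    have hw' : w ^ p = u := by
      have := (mem_roots hmon.ne_zero).1 hw
      rw [IsRoot.def, hf, eval_sub, eval_pow, eval_X, eval_C, sub_eq_zero] at this
      exact this
    rw [← norm_neg, neg_sub]
    exact hcon w hw'
  have hnorm : ‖(f.roots.map (1 - ·)).prod‖ = (f.roots.map (fun w => ‖1 - w‖)).prod := by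
    rw [← normHom_apply, map_multiset_prod, Multiset.map_map]
    rfl
  have hge : c ^ p ≤ ‖1 - u‖ := by
    rw [← heval1, heval, hnorm, ← hcard]
    exact pow_card_le_prod_map _ _ hc.le hroot
  rw [← norm_neg, neg_sub] at hge
  exact absurd hu (not_lt.2 hge)

/-- **Uniqueness** of the `p`-th root near `1`. -/
theorem nearRoot_unique {p : ℕ} {c : ℝ} (hc1 : c ≤ 1)
    (hc : ∀ ζ : PadicAlgCl q, ζ ^ p = 1 → ζ ≠ 1 → c ≤ ‖ζ - 1‖) {w w' : PadicAlgCl q}
    (hpow : w ^ p = w' ^ p) (hw : ‖w - 1‖ < c) (hw' : ‖w' - 1‖ < c) : w = w' := by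
  have hwn : ‖w‖ = 1 := by
    have e : w = (w - 1) + 1 := by ring
    have h1 : ‖w - 1‖ < ‖(1 : PadicAlgCl q)‖ := by rw [norm_one]; exact hw.trans_le hc1
    rw [e, IsUltrametricDist.norm_add_eq_max_of_norm_ne_norm h1.ne, norm_one]
    exact max_eq_right (by rw [← norm_one (α := PadicAlgCl q)]; exact h1.le)
  have hw0 : w ≠ 0 := by
    intro h
    rw [h, norm_zero] at hwn
    exact zero_ne_one hwn
  by_contra hne
  set ζ : PadicAlgCl q := w' / w with hζ
  have hζp : ζ ^ p = 1 := by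
    rw [hζ, div_pow, ← hpow, div_self (pow_ne_zero p hw0)]
  have hζ1 : ζ ≠ 1 := by
    intro h
    rw [hζ, div_eq_one_iff_eq hw0] at h
    exact hne h.symm
  have h2 : ‖ζ - 1‖ = ‖w' - w‖ := by
    have e : ζ - 1 = (w' - w) / w := by
      rw [hζ]
      field_simp
    rw [e, norm_div, hwn, div_one]
  have h3 : ‖w' - w‖ < c := by
    have e : w' - w = (w' - 1) + (-(w - 1)) := by ring
    rw [e]
    exact (IsUltrametricDist.norm_add_le_max _ _).trans_lt (max_lt hw' (by rw [norm_neg]; exact hw))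
  exact absurd (hc ζ hζp hζ1) (not_le.2 (h2 ▸ h3))

/-- The `p`-th root near `1` of `u` is fixed by the automorphisms fixing `u`; more generally it is
carried to the root near `1` of `σ u`. -/
theorem nearRoot_equivariant {p : ℕ} {c : ℝ} (hc1 : c ≤ 1)
    (hc : ∀ ζ : PadicAlgCl q, ζ ^ p = 1 → ζ ≠ 1 → c ≤ ‖ζ - 1‖)
    (σ : PadicAlgCl q ≃ₐ[ℚ_[q]] PadicAlgCl q) {w w' : PadicAlgCl q}
    (hpow : σ (w ^ p) = w' ^ p) (hw : ‖w - 1‖ < c) (hw' : ‖w' - 1‖ < c) : σ w = w' := by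
  refine nearRoot_unique hc1 hc (by rw [← map_pow]; exact hpow) ?_ hw'
  have e : σ w - 1 = σ (w - 1) := by rw [map_sub, map_one]
  rw [e, Loc.kras_norm_algEquiv q σ]
  exact hw

end Fermat.Agent.F4
end MergeWrap_F4_Dict_NearRoot

section MergeWrap_F4_Dict_JHensel -- from F4/Dict/JHensel.lean

/-!
# F4 / Dict / JHensel : idèles close to `1` are `p`-th powers (seat K3ii of DICT; owner helper49)

* `rootRad q p`, `nearRootFn q p` : the radius and the canonical `p`-th root near `1` in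
  `PadicAlgCl q` (`F4/Dict/NearRoot.lean`);
* `jHensel` : there is `k₀` such that every `x ∈ J` with `NearOne x k₀` is `p • y`, where `y ∈ J`
  is fixed by every `g` fixing `x`;
* `OpenS.exists_smul_of_nearOne` : in particular `J^U_(k₀) ⊆ p • J^U` for every open `U`.
-/

set_option autoImplicit false
set_option synthInstance.maxHeartbeats 400000
set_option linter.style.haveILetI false

open CategoryTheory groupCohomology ExtCitation

namespace Fermat.Agent.F4

/-- `q : Nat.Primes` is prime (local instance of this file). -/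
theorem fact_prime_coe49 (q : Nat.Primes) : Fact (q : ℕ).Prime := ⟨q.2⟩

attribute [local instance] fact_prime_coe49

section Local

variable (q : Nat.Primes) (p : ℕ)

/-- The radius of uniqueness of `p`-th roots near `1` in `PadicAlgCl q`. -/
noncomputable def rootRad : ℝ :=
  if hp : 0 < p then Classical.choose (exists_rootRadius (q := (q : ℕ)) p hp) else 1

variable {p}

lemma rootRad_pos (hp : 0 < p) : 0 < rootRad q p := by
  unfold rootRad
  rw [dif_pos hp]
  exact (Classical.choose_spec (exists_rootRadius (q := (q : ℕ)) p hp)).1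

lemma rootRad_le_one (hp : 0 < p) : rootRad q p ≤ 1 := by
  unfold rootRad
  rw [dif_pos hp]
  exact (Classical.choose_spec (exists_rootRadius (q := (q : ℕ)) p hp)).2.1

lemma rootRad_le (hp : 0 < p) (ζ : PadicAlgCl (q : ℕ)) (hζ : ζ ^ p = 1) (hζ1 : ζ ≠ 1) :
    rootRad q p ≤ ‖ζ - 1‖ := by
  unfold rootRad
  rw [dif_pos hp]
  exact (Classical.choose_spec (exists_rootRadius (q := (q : ℕ)) p hp)).2.2 ζ hζ hζ1

variable (p)

open Classical in
/-- The canonical `p`-th root near `1` (junk value `1` if there is none). -/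
noncomputable def nearRootFn (u : PadicAlgCl (q : ℕ)) : PadicAlgCl (q : ℕ) :=
  if h : ∃ w : PadicAlgCl (q : ℕ), w ^ p = u ∧ ‖w - 1‖ < rootRad q p then
    Classical.choose h else 1

variable {p}

lemma nearRootFn_spec (hp : 0 < p) {u : PadicAlgCl (q : ℕ)}
    (hu : ‖u - 1‖ < rootRad q p ^ p) :
    nearRootFn q p u ^ p = u ∧ ‖nearRootFn q p u - 1‖ < rootRad q p := by
  have h : ∃ w : PadicAlgCl (q : ℕ), w ^ p = u ∧ ‖w - 1‖ < rootRad q p :=
    exists_nearRoot hp (rootRad_pos q hp) hu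
  unfold nearRootFn
  rw [dif_pos h]
  exact Classical.choose_spec h

lemma nearRootFn_ne_zero (hp : 0 < p) {u : PadicAlgCl (q : ℕ)} (hu0 : u ≠ 0)
    (hu : ‖u - 1‖ < rootRad q p ^ p) : nearRootFn q p u ≠ 0 := by
  intro h
  have := (nearRootFn_spec q hp hu).1
  rw [h, zero_pow hp.ne'] at this
  exact hu0 this.symm

/-- The canonical root commutes with the `ℚ_q`-automorphisms. -/
lemma nearRootFn_map (hp : 0 < p)
    (σ : PadicAlgCl (q : ℕ) ≃ₐ[ℚ_[(q : ℕ)]] PadicAlgCl (q : ℕ))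
    {u : PadicAlgCl (q : ℕ)} (hu : ‖u - 1‖ < rootRad q p ^ p) :
    nearRootFn q p (σ u) = σ (nearRootFn q p u) := by
  have hσu : ‖σ u - 1‖ < rootRad q p ^ p := by
    have e : σ u - 1 = σ (u - 1) := by rw [map_sub, map_one]
    rw [e, Loc.kras_norm_algEquiv (q : ℕ) σ]
    exact hu
  have h1 := nearRootFn_spec q hp hu
  have h2 := nearRootFn_spec q hp hσu
  refine (nearRoot_equivariant (rootRad_le_one q hp) (rootRad_le q hp) σ ?_ h1.2 h2.2).symm
  rw [h1.1, h2.1]

end Local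

section Global

variable (S : Finset Nat.Primes) (p : ℕ)

/-- `q ^ (-k) → 0`. -/
lemma exists_zpow_neg_lt (q : Nat.Primes) {ε : ℝ} (hε : 0 < ε) :
    ∃ k : ℕ, ∀ k' : ℕ, k ≤ k' → (((q : ℕ) : ℝ)) ^ (-(k' : ℤ)) < ε := by
  have hq1 : (1 : ℝ) < ((q : ℕ) : ℝ) := by exact_mod_cast q.2.one_lt
  have hq0 : (0 : ℝ) < ((q : ℕ) : ℝ) := zero_lt_one.trans hq1
  have hlt : (((q : ℕ) : ℝ))⁻¹ < 1 := inv_lt_one_of_one_lt₀ hq1
  obtain ⟨k, hk⟩ := exists_pow_lt_of_lt_one hε hlt
  refine ⟨k, fun k' hk' => ?_⟩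
  rw [zpow_neg, zpow_natCast, ← inv_pow]
  exact (pow_le_pow_of_le_one (inv_pos.2 hq0).le hlt.le hk').trans_lt hk

/-- A common threshold for the primes of `S`. -/
lemma exists_threshold (hp : 0 < p) :
    ∃ k₀ : ℕ, ∀ q ∈ S, (((q : ℕ) : ℝ)) ^ (-(k₀ : ℤ)) < rootRad q p ^ p := by
  classical
  have h : ∀ q : Nat.Primes, ∃ k : ℕ, ∀ k' : ℕ, k ≤ k' →
      (((q : ℕ) : ℝ)) ^ (-(k' : ℤ)) < rootRad q p ^ p :=
    fun q => exists_zpow_neg_lt q (pow_pos (rootRad_pos q hp) p)
  choose f hf using h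
  exact ⟨S.sup f, fun q hq => hf q _ (Finset.le_sup hq)⟩

variable {S}

/-- The value of an element of `L_q`. -/
noncomputable def Lval (q : Nat.Primes) (a : LqS S q) : PadicAlgCl (q : ℕ) :=
  ((smUnits.val a : (PadicAlgCl (q : ℕ))ˣ) : PadicAlgCl (q : ℕ))

lemma Lval_ne_zero (q : Nat.Primes) (a : LqS S q) : Lval q a ≠ 0 := Units.ne_zero _

lemma Lval_ρ (q : Nat.Primes) (d : primeLocalGaloisGroup q) (a : LqS S q) :
    Lval q ((LqS S q).ρ d a) =
      (show PadicAlgCl (q : ℕ) ≃ₐ[ℚ_[(q : ℕ)]] PadicAlgCl (q : ℕ) from d) (Lval q a) := rfl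

lemma Lval_injective (q : Nat.Primes) : Function.Injective (Lval (S := S) q) := by
  intro a b h
  apply smUnits.val_injective
  exact Units.ext h

lemma Lval_nsmul (q : Nat.Primes) (n : ℕ) (a : LqS S q) : Lval q (n • a) = Lval q a ^ n := by
  unfold Lval
  rw [smUnits.val_nsmul, Units.val_pow_eq_pow_val]

variable {p}

/-- The canonical root of a smooth unit close to `1` is smooth. -/
lemma nearRoot_mem_smUnitsSub (hp : 0 < p) (q : Nat.Primes) (a : LqS S q)
    (ha : ‖Lval q a - 1‖ < rootRad q p ^ p) :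
    Units.mk0 (nearRootFn q p (Lval q a)) (nearRootFn_ne_zero q hp (Lval_ne_zero q a) ha) ∈
      smUnitsSub (locLevelsS S q) (locAct q) := by
  obtain ⟨V, hV, h⟩ := smUnits.val_mem a
  refine ⟨V, hV, fun v hv => ?_⟩
  rw [Units.val_mk0]
  have h1 := nearRootFn_map q hp
    (show PadicAlgCl (q : ℕ) ≃ₐ[ℚ_[(q : ℕ)]] PadicAlgCl (q : ℕ) from v) ha
  have h2 : (show PadicAlgCl (q : ℕ) ≃ₐ[ℚ_[(q : ℕ)]] PadicAlgCl (q : ℕ) from v) (Lval q a)
      = Lval q a := h v hv
  rw [h2] at h1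
  exact h1.symm

variable (S p)

open Classical in
/-- The canonical `p`-th root on `L_q` (junk value `0` away from `1`). -/
noncomputable def nearRootL (q : Nat.Primes) (a : LqS S q) : LqS S q :=
  if h : 0 < p ∧ ‖Lval q a - 1‖ < rootRad q p ^ p then
    smUnits.mk _ (nearRoot_mem_smUnitsSub h.1 q a h.2)
  else 0

variable {S p}

lemma Lval_nearRootL (hp : 0 < p) (q : Nat.Primes) (a : LqS S q)
    (ha : ‖Lval q a - 1‖ < rootRad q p ^ p) :
    Lval q (nearRootL S p q a) = nearRootFn q p (Lval q a) := by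
  unfold nearRootL
  rw [dif_pos ⟨hp, ha⟩]
  rfl

lemma nsmul_nearRootL (hp : 0 < p) (q : Nat.Primes) (a : LqS S q)
    (ha : ‖Lval q a - 1‖ < rootRad q p ^ p) : p • nearRootL S p q a = a := by
  apply Lval_injective
  rw [Lval_nsmul, Lval_nearRootL hp q a ha]
  exact (nearRootFn_spec q hp ha).1

lemma nearRootL_ρ (hp : 0 < p) (q : Nat.Primes) (d : primeLocalGaloisGroup q) (a : LqS S q)
    (ha : ‖Lval q a - 1‖ < rootRad q p ^ p) :
    nearRootL S p q ((LqS S q).ρ d a) = (LqS S q).ρ d (nearRootL S p q a) := by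
  have ha' : ‖Lval q ((LqS S q).ρ d a) - 1‖ < rootRad q p ^ p := by
    rw [Lval_ρ]
    have e : (show PadicAlgCl (q : ℕ) ≃ₐ[ℚ_[(q : ℕ)]] PadicAlgCl (q : ℕ) from d) (Lval q a) - 1
        = (show PadicAlgCl (q : ℕ) ≃ₐ[ℚ_[(q : ℕ)]] PadicAlgCl (q : ℕ) from d) (Lval q a - 1) := by
      rw [map_sub, map_one]
    rw [e, Loc.kras_norm_algEquiv (q : ℕ)]
    exact ha
  apply Lval_injective
  rw [Lval_nearRootL hp q _ ha', Lval_ρ, Lval_ρ, Lval_nearRootL hp q a ha]
  exact nearRootFn_map q hp _ ha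

variable (S)

/-- **K3ii (Hensel).**  There is `k₀` such that every `x ∈ J` with `x ≡ 1 mod q ^ k₀` at all places
is `p • y`, where `y ∈ J` is fixed by every `g` fixing `x`. -/
theorem jHensel (hp : 0 < p) :
    ∃ k₀ : ℕ, ∀ x : Jrep S, NearOne x k₀ →
      ∃ y : Jrep S, x = p • y ∧ ∀ g : GQ, (Jrep S).ρ g x = x → (Jrep S).ρ g y = y := by
  obtain ⟨k₀, hk₀⟩ := exists_threshold S p hp
  refine ⟨k₀, fun x hx => ?_⟩
  have hgood : ∀ (q : ↥S) (g : GQ),
      ‖Lval q.1 (((x q : ↥(coIndSub (primeLocalToGlobal q.1) (levelsS S) (LqS S q.1))) :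
        GQ → LqS S q.1) g) - 1‖ < rootRad q.1 p ^ p :=
    fun q g => (hx q g).trans (hk₀ q.1 q.2)
  have hY : ∀ q : ↥S, (fun g : GQ => nearRootL S p q.1
      (((x q : ↥(coIndSub (primeLocalToGlobal q.1) (levelsS S) (LqS S q.1))) :
        GQ → LqS S q.1) g)) ∈ coIndSub (primeLocalToGlobal q.1) (levelsS S) (LqS S q.1) := by
    intro q
    refine ⟨fun d g => ?_, ?_⟩
    · show nearRootL S p q.1 (((x q : ↥(coIndSub (primeLocalToGlobal q.1) (levelsS S)
        (LqS S q.1))) : GQ → LqS S q.1) (primeLocalToGlobal q.1 d * g)) = _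
      rw [coIndSub_equivariant]
      exact nearRootL_ρ hp q.1 d _ (hgood q g)
    · exact (coIndSub_isLC (x q)).comp (nearRootL S p q.1)
  refine ⟨fun q => ⟨_, hY q⟩, ?_, fun g hg => ?_⟩
  · funext q
    apply Subtype.ext
    funext g
    exact (nsmul_nearRootL hp q.1 _ (hgood q g)).symm
  · funext q
    apply Subtype.ext
    funext h
    have h1 : ((x q : ↥(coIndSub (primeLocalToGlobal q.1) (levelsS S) (LqS S q.1))) :
        GQ → LqS S q.1) (h * g) = ((x q : ↥(coIndSub (primeLocalToGlobal q.1) (levelsS S)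
          (LqS S q.1))) : GQ → LqS S q.1) h :=
      congrFun (congrArg Subtype.val (congrFun hg q)) h
    show nearRootL S p q.1 (((x q : ↥(coIndSub (primeLocalToGlobal q.1) (levelsS S)
        (LqS S q.1))) : GQ → LqS S q.1) (h * g)) = _
    rw [h1]

/-- **K3ii**: `J^U_(k₀) ⊆ p • J^U`, uniformly in the open subgroup `U`. -/
theorem OpenS.exists_smul_of_nearOne (hp : 0 < p) :
    ∃ k₀ : ℕ, ∀ (L : OpenS S) (x : Jrep S), x ∈ L.JU → NearOne x k₀ →
      ∃ y : Jrep S, y ∈ L.JU ∧ x = p • y := by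
  obtain ⟨k₀, hk₀⟩ := jHensel S hp
  refine ⟨k₀, fun L x hx hnear => ?_⟩
  obtain ⟨y, hxy, hfix⟩ := hk₀ x hnear
  exact ⟨y, fun g hg => hfix g (hx g hg), hxy⟩

end Global

end Fermat.Agent.F4
end MergeWrap_F4_Dict_JHensel
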