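import Fermat.Agent.MU.F4.Dict.Units
import Fermat.Agent.MU.F4.UC.KLevel
import Fermat.Agent.MU.F4.UC.Res
import Fermat.Agent.MU.F4.Dict.SUnits

section MergeWrap_F4_Dict_H90Abs -- from F4/Dict/H90Abs.lean

/-!
# F4 / Dict / H90Abs : Hilbert 90 for the smooth units of a field with a group action

`Γ` acts on a field `Ω` through `act : Γ →* RingAut Ω`, `𝓛` a level structure on `Γ` whose members
are *closed* (`LevelsClosed`: `V` is the full stabiliser of its fixed field).  Then for every open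
subgroup `U` every smooth 1-cocycle of `U` in the smooth units is a coboundary
(`h90_smUnits`).  Proof: Poincaré series `b = ∑_{x ∈ U/V} c(x) · x(a)` and Dedekind's independence
of characters.
-/

set_option autoImplicit false
set_option linter.unusedSectionVars false

open CategoryTheory groupCohomology

namespace Fermat.Agent.F4

section

variable {Γ : Type} [Group Γ] {Ω : Type} [Field Ω] (𝓛 : Levels Γ) (act : Γ →* RingAut Ω)

/-- The members of `𝓛` are closed: `V` is the stabiliser of its fixed field. -/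
def LevelsClosed : Prop :=
  ∀ V ∈ 𝓛.sets, ∀ g : Γ, (∀ a : Ω, (∀ v ∈ V, act v a = a) → act g a = a) → g ∈ V

variable {𝓛 act}

/-- The fixed elements of a subgroup, as a submonoid of `Ω`. -/
def h90FixedSub (act : Γ →* RingAut Ω) (V : Subgroup Γ) : Submonoid Ω where
  carrier := {a | ∀ v ∈ V, act v a = a}
  one_mem' := fun v _ => map_one _
  mul_mem' := fun {a b} ha hb v hv => by rw [map_mul, ha v hv, hb v hv]

lemma h90_mem_fixedSub (V : Subgroup Γ) (a : Ω) :
    a ∈ h90FixedSub act V ↔ ∀ v ∈ V, act v a = a := Iff.rfl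

lemma h90_act_mul_apply (g h : Γ) (a : Ω) : act (g * h) a = act g (act h a) := by
  rw [map_mul]; rfl

lemma h90_act_injective (g : Γ) {a b : Ω} (h : act g a = act g b) : a = b :=
  (act g).injective h

/-- **Hilbert 90** for the smooth units, over every open subgroup. -/
theorem h90_smUnits (hcl : LevelsClosed 𝓛 act) (U : Subgroup Γ) (hU : 𝓛.IsOpen U) :
    UC.H90sm (𝓛.sub U) (Rep.res U.subtype (smUnits 𝓛 act)) := by
  classical
  intro c hc
  have hsm : IsSmooth (𝓛.sub U) (Rep.res U.subtype (smUnits 𝓛 act)) :=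
    UC.isSmooth_res U.subtype smUnits_smooth
  obtain ⟨hcoc, hLC⟩ := (UC.mem_Z1 (𝓛.sub U) (Rep.res U.subtype (smUnits 𝓛 act)) c).1 hc
  obtain ⟨W, ⟨V₁, hV₁, rfl⟩, hinv, hfix⟩ := IsLC₁.exists_level hsm hLC
  obtain ⟨V₀, hV₀, hV₀U⟩ := hU
  obtain ⟨V, hV, hVle⟩ := 𝓛.directed V₁ hV₁ V₀ hV₀
  have hVU : V ≤ U := (hVle.trans inf_le_right).trans hV₀U
  have hVV₁ : V ≤ V₁ := hVle.trans inf_le_left
  have hVn : V.Normal := 𝓛.normal V hV
  -- the values of the cocycle
  let γ : ↥U → Ω := fun g => ((smUnits.val (c g) : Ωˣ) : Ω)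
  have hγ0 : ∀ g, γ g ≠ 0 := fun g => Units.ne_zero _
  have hγmul : ∀ g h : ↥U, γ (g * h) = act (g : Γ) (γ h) * γ g := by
    intro g h
    have h1 := congrFun hcoc (g, h)
    simp only [δ1_apply, Pi.zero_apply] at h1
    rw [sub_add_eq_add_sub, sub_eq_zero] at h1
    have h2 : smUnits.val (c (g * h))
        = smUnits.val ((smUnits 𝓛 act).ρ (g : Γ) (c h)) * smUnits.val (c g) := by
      rw [← smUnits.val_add]
      exact congrArg smUnits.val h1.symm
    have h3 := congrArg (fun u : Ωˣ => (u : Ω)) h2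
    simp only [Units.val_mul] at h3
    rw [smUnits.val_ρ] at h3
    exact h3
  have hγinv : ∀ (g s : ↥U), (s : Γ) ∈ V → γ (g * s) = γ g := by
    intro g s hs
    show ((smUnits.val (c (g * s)) : Ωˣ) : Ω) = ((smUnits.val (c g) : Ωˣ) : Ω)
    rw [hinv g s (hVV₁ hs)]
  have hγfix : ∀ (g : ↥U) (v : Γ), v ∈ V → act v (γ g) = γ g := by
    intro g v hv
    have h1 := hfix g ⟨v, hVU hv⟩ (hVV₁ hv)
    exact (smUnits.ρ_eq_iff v (c g)).1 h1
  -- the quotient `U / (V ∩ U)`
  let W : Subgroup ↥U := V.comap U.subtype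
  have hWmem : W ∈ (𝓛.sub U).sets := ⟨V, hV, rfl⟩
  have hWn : W.Normal := (𝓛.sub U).normal W hWmem
  have hWfi : W.FiniteIndex := (𝓛.sub U).finiteIndex W hWmem
  have : Finite (↥U ⧸ W) := Subgroup.finite_quotient_of_finiteIndex
  let _ : Fintype (↥U ⧸ W) := Fintype.ofFinite _
  have hout : ∀ g : ↥U, ∃ s : ↥U, (s : Γ) ∈ V ∧ (QuotientGroup.mk g : ↥U ⧸ W).out = g * s := by
    intro g
    obtain ⟨s, hs⟩ := QuotientGroup.mk_out_eq_mul W g
    exact ⟨s.1, s.2, hs⟩
  -- the characters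
  let M : Submonoid Ω := h90FixedSub act V
  let χ : ↥U ⧸ W → (↥M →* Ω) := fun x =>
    (((act ((x.out : ↥U) : Γ) : Ω ≃+* Ω) : Ω →+* Ω) : Ω →* Ω).comp M.subtype
  have hχ : ∀ (x : ↥U ⧸ W) (a : ↥M), χ x a = act ((x.out : ↥U) : Γ) (a : Ω) := fun _ _ => rfl
  have hχinj : Function.Injective χ := by
    intro x y hxy
    have h1 : ((x.out : ↥U) : Γ)⁻¹ * ((y.out : ↥U) : Γ) ∈ V := by
      refine hcl V hV _ fun a ha => ?_
      have h2 : χ x ⟨a, ha⟩ = χ y ⟨a, ha⟩ := by rw [hxy]
      rw [hχ, hχ] at h2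
      rw [h90_act_mul_apply]
      apply h90_act_injective (act := act) ((x.out : ↥U) : Γ)
      rw [← h90_act_mul_apply, mul_inv_cancel, map_one]
      exact h2.symm
    have h3 : (x.out)⁻¹ * y.out ∈ W := h1
    have h4 : (QuotientGroup.mk x.out : ↥U ⧸ W) = QuotientGroup.mk y.out :=
      QuotientGroup.eq.2 h3
    rwa [QuotientGroup.out_eq', QuotientGroup.out_eq'] at h4
  have hli : LinearIndependent Ω (fun x : ↥U ⧸ W => (χ x : ↥M → Ω)) :=
    (linearIndependent_monoidHom ↥M Ω).comp χ hχinj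
  -- a point where the Poincaré series does not vanish
  have hne : (∑ x : ↥U ⧸ W, γ x.out • (χ x : ↥M → Ω)) ≠ 0 := by
    intro h0
    have := Fintype.linearIndependent_iff.1 hli (fun x => γ x.out) h0
      (QuotientGroup.mk 1 : ↥U ⧸ W)
    exact hγ0 _ this
  obtain ⟨a, ha⟩ := Function.ne_iff.1 hne
  simp only [Finset.sum_apply, Pi.smul_apply, smul_eq_mul, Pi.zero_apply, hχ] at ha
  -- the function `F g = γ g * g a` is right-invariant
  let F : ↥U → Ω := fun g => γ g * act (g : Γ) (a : Ω)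
  have hFinv : ∀ (g s : ↥U), (s : Γ) ∈ V → F (g * s) = F g := by
    intro g s hs
    show γ (g * s) * act ((g * s : ↥U) : Γ) (a : Ω) = γ g * act (g : Γ) (a : Ω)
    rw [hγinv g s hs, Subgroup.coe_mul, h90_act_mul_apply, a.2 _ hs]
  have hFout : ∀ g : ↥U, F (QuotientGroup.mk g : ↥U ⧸ W).out = F g := by
    intro g
    obtain ⟨s, hs, e⟩ := hout g
    rw [e, hFinv g s hs]
  set b : Ω := ∑ x : ↥U ⧸ W, F x.out with hb
  have hb0 : b ≠ 0 := ha
  -- the key identity
  have hkey : ∀ h : ↥U, γ h * act (h : Γ) b = b := by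
    intro h
    rw [hb, map_sum, Finset.mul_sum]
    have e1 : ∀ x : ↥U ⧸ W, γ h * act (h : Γ) (F x.out)
        = F ((QuotientGroup.mk h : ↥U ⧸ W) * x).out := by
      intro x
      have e2 : (QuotientGroup.mk h : ↥U ⧸ W) * x = QuotientGroup.mk (h * x.out) := by
        rw [QuotientGroup.mk_mul, QuotientGroup.out_eq']
      rw [e2, hFout]
      show γ h * act (h : Γ) (γ x.out * act ((x.out : ↥U) : Γ) (a : Ω))
        = γ (h * x.out) * act ((h * x.out : ↥U) : Γ) (a : Ω)
      rw [map_mul, hγmul h x.out, Subgroup.coe_mul, h90_act_mul_apply]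
      ring
    rw [Finset.sum_congr rfl fun x _ => e1 x]
    exact Equiv.sum_comp (Equiv.mulLeft (QuotientGroup.mk h : ↥U ⧸ W)) (fun x => F x.out)
  -- `b` is a smooth unit
  have hbfix : ∀ v ∈ V, act v b = b := by
    intro v hv
    rw [hb, map_sum]
    refine Finset.sum_congr rfl fun x _ => ?_
    show act v (γ x.out * act ((x.out : ↥U) : Γ) (a : Ω))
      = γ x.out * act ((x.out : ↥U) : Γ) (a : Ω)
    rw [map_mul, hγfix x.out v hv, ← h90_act_mul_apply]
    have hc : ((x.out : ↥U) : Γ)⁻¹ * v * ((x.out : ↥U) : Γ) ∈ V := by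
      have := hVn.conj_mem v hv ((x.out : ↥U) : Γ)⁻¹
      simpa using this
    have e : v * ((x.out : ↥U) : Γ)
        = ((x.out : ↥U) : Γ) * (((x.out : ↥U) : Γ)⁻¹ * v * ((x.out : ↥U) : Γ)) := by group
    rw [e, h90_act_mul_apply, a.2 _ hc]
  have hbmem : Units.mk0 b hb0 ∈ smUnitsSub 𝓛 act := ⟨V, hV, hbfix⟩
  -- conclusion
  refine (UC.mem_B1 (Rep.res U.subtype (smUnits 𝓛 act)) c).2
    ⟨-smUnits.mk (Units.mk0 b hb0) hbmem, funext fun h => ?_⟩
  apply smUnits.val_injective
  apply Units.ext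
  have h1 : ((smUnits.val (c h) : Ωˣ) : Ω) = b * (act (h : Γ) b)⁻¹ := by
    have hk := hkey h
    have hne' : act (h : Γ) b ≠ 0 := by
      intro h0
      rw [h0, mul_zero] at hk
      exact hb0 hk.symm
    show γ h = _
    field_simp
    exact hk
  rw [h1]
  show ((smUnits.val ((smUnits 𝓛 act).ρ (h : Γ) (-smUnits.mk (Units.mk0 b hb0) hbmem)
    - (-smUnits.mk (Units.mk0 b hb0) hbmem)) : Ωˣ) : Ω) = _
  rw [sub_eq_add_neg, smUnits.val_add, Units.val_mul, smUnits.val_ρ, neg_neg, smUnits.val_neg,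
    smUnits.val_mk, Units.val_inv_eq_inv_val, Units.val_mk0, map_inv₀]
  ring

end

end Fermat.Agent.F4
end MergeWrap_F4_Dict_H90Abs

section MergeWrap_F4_Dict_H90 -- from F4/Dict/H90.lean

/-!
# F4 / Dict / H90 : Hilbert 90 for `(ℚ_S)ˣ` (seat DK2, helper9)

Every smooth 1-cocycle of an open subgroup `U` of `G_S` with values in `(ℚ_S)ˣ` is a coboundary:
the cocycle is inflated from a finite Galois layer `F'/F` (`F` the fixed field of `U`), where it
is Hilbert's Theorem 90.  Proof: `h90_smUnits` (`F4/Dict/H90Abs.lean`, Poincaré series and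
Dedekind's independence of characters); the levels of `G_S` are closed (`levelsClosed_levelsS`).
-/

set_option autoImplicit false

open CategoryTheory groupCohomology ExtCitation

namespace Fermat.Agent.F4

variable (S : Finset Nat.Primes)

/-- The levels of `G_S` are fixing subgroups, hence closed. -/
theorem levelsClosed_levelsS : LevelsClosed (levelsS S) galAct := by
  rintro _ ⟨F, _, _, rfl⟩ g hg
  rw [IntermediateField.mem_fixingSubgroup_iff]
  intro a ha
  exact hg a fun v hv => (IntermediateField.mem_fixingSubgroup_iff F v).1 hv a ha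

/-- All levels of `G_ℚ` are fixing subgroups, hence closed. -/
theorem levelsClosed_levelsAll : LevelsClosed levelsAll galAct := by
  rintro _ ⟨F, _, _, rfl⟩ g hg
  rw [IntermediateField.mem_fixingSubgroup_iff]
  intro a ha
  exact hg a fun v hv => (IntermediateField.mem_fixingSubgroup_iff F v).1 hv a ha

/-- **Hilbert 90** for `(ℚ_S)ˣ` over every open subgroup (seat DK2). -/
theorem h90_QSx (U : Subgroup GQ) (hU : (levelsS S).IsOpen U) :
    UC.H90sm ((levelsS S).sub U) (Rep.res U.subtype (QSx S)) :=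
  h90_smUnits (levelsClosed_levelsS S) U hU

end Fermat.Agent.F4
end MergeWrap_F4_Dict_H90
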