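import Fermat.Agent.MU.F4.Dict.Formation
import Fermat.Agent.MU.F4.Dict.H90
import Fermat.Agent.MU.F4.Dict.KappaAbs

section MergeWrap_F4_Dict_KappaPres -- from F4/Dict/KappaPres.lean

/-!
# F4 / Dict / KappaPres : the presentation of `(J / E)^U`, concrete form (seat K1, helper56)

`kfS S hS : KForm GQ` is the presented formation `Q = (ℚ_S)ˣ = QSx S`, `E = sUnitsAdd S`,
`J = Jrep S`, `d = diagJ S`, `C = Crep S`, `pr = CMk S` (`S ≠ ∅`).  All the abstract results of
`KappaAbs.lean` apply to it; the elaboration problems of the concrete types (`rw` fails on terms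
of type `Jrep S`) are avoided by working with `K = kfS S hS`:

    (kfS S hS).Q = QSx S,  (kfS S hS).J = Jrep S,  (kfS S hS).C = Crep S     (all `rfl`).

* `kappa_pres` : **K1**, every `c ∈ (Crep S)^U` is `CMk (x + diagJ t)`, `x ∈ J^U`, `t ∈ T_U`
                 (`U` open; input `h90_QSx`);
* `kappa_fix`, `kappa_ker` : the converse and the kernel.
-/

set_option autoImplicit false
set_option synthInstance.maxHeartbeats 400000

open CategoryTheory groupCohomology ExtCitation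

namespace Fermat.Agent.F4

open Fermat.Agent.F4Cf

variable (S : Finset Nat.Primes)

/-- `diagJ` is injective (`S ≠ ∅`). -/
lemma diagJ_injective (hS : S.Nonempty) : Function.Injective (diagJ S) := by
  intro x y h
  obtain ⟨q, hq⟩ := hS
  have h1 := congrFun h ⟨q, hq⟩
  have h2 : ((diagJ S x ⟨q, hq⟩ : ↥(coIndSub (primeLocalToGlobal q) (levelsS S) (LqS S q))) :
      GQ → LqS S q) 1 = ((diagJ S y ⟨q, hq⟩ : ↥(coIndSub (primeLocalToGlobal q) (levelsS S)
        (LqS S q))) : GQ → LqS S q) 1 := by rw [h1]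
  rw [diagJ_apply, diagJ_apply, map_one] at h2
  exact locUnit_injective S q h2

/-- **The presented formation of `G_S`**: `Q = (ℚ_S)ˣ`, `E` the `S`-units, `J` the `S`-idèles,
`C = J / E`. -/
noncomputable def kfS (hS : S.Nonempty) : KForm GQ where
  Q := QSx S
  J := Jrep S
  C := Crep S
  E := sUnitsAdd S
  d := diagJ S
  pr := CMk S
  E_stable := sUnitsAdd_stable S
  d_add := (diagJ S).map_add
  d_comm := diagJ_comm S
  d_inj := diagJ_injective S hS
  pr_add := (CMk S).map_add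
  pr_comm := CMk_comm S
  pr_surj := CMk_surjective S
  pr_ker := fun x => (CMk_eq_zero_iff S x).trans AddSubgroup.mem_map

variable {S} in
@[simp] lemma kfS_Q (hS : S.Nonempty) : (kfS S hS).Q = QSx S := rfl
variable {S} in
@[simp] lemma kfS_J (hS : S.Nonempty) : (kfS S hS).J = Jrep S := rfl
variable {S} in
@[simp] lemma kfS_C (hS : S.Nonempty) : (kfS S hS).C = Crep S := rfl
variable {S} in
lemma kfS_E (hS : S.Nonempty) : (kfS S hS).E = sUnitsAdd S := rfl
variable {S} in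
lemma kfS_d (hS : S.Nonempty) (t : QSx S) : (kfS S hS).d t = diagJ S t := rfl
variable {S} in
lemma kfS_pr (hS : S.Nonempty) (x : Jrep S) : (kfS S hS).pr x = CMk S x := rfl

/-- `J^U`. -/
noncomputable abbrev kpJU (hS : S.Nonempty) (U : Subgroup GQ) : AddSubgroup (Jrep S) :=
  (kfS S hS).JU U

/-- `T_U`: the elements of `(ℚ_S)ˣ` whose `S`-ideal is `U`-invariant. -/
noncomputable abbrev kpTU (hS : S.Nonempty) (U : Subgroup GQ) : AddSubgroup (QSx S) :=
  (kfS S hS).TU U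

/-- `((ℚ_S)ˣ)^U = Fˣ`. -/
noncomputable abbrev kpQU (hS : S.Nonempty) (U : Subgroup GQ) : AddSubgroup (QSx S) :=
  (kfS S hS).QU U

lemma mem_kpJU (hS : S.Nonempty) (U : Subgroup GQ) (x : Jrep S) :
    x ∈ kpJU S hS U ↔ ∀ g ∈ U, (Jrep S).ρ g x = x := Iff.rfl

lemma mem_kpTU (hS : S.Nonempty) (U : Subgroup GQ) (t : QSx S) :
    t ∈ kpTU S hS U ↔ ∀ g ∈ U, (QSx S).ρ g t - t ∈ sUnitsAdd S := Iff.rfl

lemma mem_kpQU (hS : S.Nonempty) (U : Subgroup GQ) (t : QSx S) :
    t ∈ kpQU S hS U ↔ ∀ g ∈ U, (QSx S).ρ g t = t := Iff.rfl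

/-- The elements `CMk (x + diagJ t)`, `x ∈ J^U`, `t ∈ T_U`, are fixed by `U`. -/
theorem kappa_fix (hS : S.Nonempty) (U : Subgroup GQ) {x : Jrep S} (hx : x ∈ kpJU S hS U)
    {t : QSx S} (ht : t ∈ kpTU S hS U) : Fix (Crep S) U (CMk S (x + diagJ S t)) :=
  (kfS S hS).fix hx ht

/-- **K1 (presentation).**  Every element of `C^U` is `CMk (x + diagJ t)` with `x ∈ J^U`,
`t ∈ T_U`. -/
theorem kappa_pres (hS : S.Nonempty) (U : Subgroup GQ) (hU : (levelsS S).IsOpen U)
    (c : Crep S) (hc : Fix (Crep S) U c) :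
    ∃ x ∈ kpJU S hS U, ∃ t ∈ kpTU S hS U, c = CMk S (x + diagJ S t) :=
  (kfS S hS).pres (levelsS S) (Jrep_smooth S) U (h90_QSx S U hU) c hc

/-- **K1 (kernel).**  `CMk (x + diagJ t) = 0` with `x ∈ J^U` iff `x = diagJ f`, `t = ε - f` with
`f` fixed by `U` and `ε ∈ E`. -/
theorem kappa_ker (hS : S.Nonempty) (U : Subgroup GQ) {x : Jrep S} (hx : x ∈ kpJU S hS U)
    {t : QSx S} (h0 : CMk S (x + diagJ S t) = 0) :
    ∃ f ε : QSx S, f ∈ kpQU S hS U ∧ ε ∈ sUnitsAdd S ∧ x = diagJ S f ∧ t = ε - f :=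
  (kfS S hS).ker hx h0

end Fermat.Agent.F4
end MergeWrap_F4_Dict_KappaPres
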