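import Fermat.Agent.MU.F4.Dict.ExistAbs
import Fermat.Agent.MU.F4.Dict.KappaPres
import Fermat.Agent.MU.F4.Dict.JHensel
import Fermat.Agent.MU.F4.Dict.PlacesWire

section MergeWrap_F4_Dict_Exist -- from F4/Dict/Exist.lean

/-!
# F4 / Dict / Exist : the existence axiom of `PCF` for `C = J / E` (derivation `dict_exist`;
helper91)

`dict_exist_of` : the statement of the stub `dict_exist` of `F4/Cf/Dict.lean` for the open subgroup
`U`, from

* **K1** (`kappa_pres`, landed), **K3ii** (`OpenS.exists_smul_of_nearOne`, landed);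
* `JApproxAt S L` : **K3i**, weak approximation `J^U = diagJ (Fˣ) + J^U_(k)` (helper86's
  `jApprox`);
* `(kfS S hS).ExistFinAt (levelsS S) p U` : the existence theorem at finite level (helper95's
  `EX-FIN`).

The abstract derivation is `KForm.exist_of` (`F4/Dict/ExistAbs.lean`).
-/

set_option autoImplicit false
set_option synthInstance.maxHeartbeats 400000

open CategoryTheory groupCohomology ExtCitation

namespace Fermat.Agent.F4

open Fermat.Agent.F4Cf

variable (S : Finset Nat.Primes)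

/-- **K3i** (weak approximation) for the level `L`: `J^U = diagJ (Fˣ) + J^U_(k)` for all `k`. -/
def JApproxAt (L : OpenS S) : Prop :=
  ∀ x ∈ L.JU, ∀ k : ℕ, ∃ f : (L.field)ˣ, ∃ u ∈ L.JU, NearOne u k ∧ x = diagJ S (L.toQS f) + u

variable {S}

/-- `J^U = d (Q^U) + p J^U` from weak approximation and Hensel. -/
theorem approxAt_of_jApproxAt (hS : S.Nonempty) {p : ℕ} (hp : 0 < p) (L : OpenS S)
    (h : JApproxAt S L) : (kfS S hS).ApproxAt p L.U := by
  obtain ⟨k₀, hk₀⟩ := OpenS.exists_smul_of_nearOne (p := p) S hp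
  intro x hx
  obtain ⟨f, u, hu, hnear, hxu⟩ := h x hx k₀
  obtain ⟨y, hy, huy⟩ := hk₀ L u hu hnear
  refine ⟨L.toQS f, fun g hg => L.toQS_fixed f g hg, y, hy, ?_⟩
  rw [hxu, huy]
  rfl

/-- **`dict_exist`**, from weak approximation (K3i) and the existence theorem at finite level. -/
theorem dict_exist_of {p : ℕ} [Fact p.Prime] (hS : S.Nonempty) (U : Subgroup GQ)
    (hU : (levelsS S).IsOpen U) (happ : JApproxAt S ⟨U, hU⟩)
    (hex : (kfS S hS).ExistFinAt (levelsS S) p U) (a : Crep S) (ha : Fix (Crep S) U a)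
    (hall : ∀ (V : Subgroup GQ) (σ : GQ), (levelsS S).IsOpen V → IsCyc p U V σ →
      IsNormFrom (Crep S) p V σ a) :
    ∃ (m : ℕ) (b : Crep S), ¬ p ∣ m ∧ Fix (Crep S) U b ∧ m • a = p • b :=
  (kfS S hS).exist_of (levelsS S) (fun c hc => kappa_pres S hS U hU c hc)
    (fun V _ hV _ c hc => kappa_pres S hS V hV c hc)
    (approxAt_of_jApproxAt hS (Fact.out : p.Prime).pos ⟨U, hU⟩ happ) hex a ha hall

/-- **`dict_exist`**, from the existence theorem at finite level alone (K3i is
`OpenS.jApprox`). -/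
theorem dict_exist_of_existFin {p : ℕ} [Fact p.Prime] (hS : S.Nonempty) (U : Subgroup GQ)
    (hU : (levelsS S).IsOpen U) (hex : (kfS S hS).ExistFinAt (levelsS S) p U) (a : Crep S)
    (ha : Fix (Crep S) U a)
    (hall : ∀ (V : Subgroup GQ) (σ : GQ), (levelsS S).IsOpen V → IsCyc p U V σ →
      IsNormFrom (Crep S) p V σ a) :
    ∃ (m : ℕ) (b : Crep S), ¬ p ∣ m ∧ Fix (Crep S) U b ∧ m • a = p • b :=
  dict_exist_of hS U hU (fun _ hx k => OpenS.jApprox ⟨U, hU⟩ hx k) hex a ha hall

end Fermat.Agent.F4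
end MergeWrap_F4_Dict_Exist
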