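import Fermat.Agent.MU.F4.Dict.TwoNT
import Fermat.Agent.MU.F4.Dict.CapitLevel
import Fermat.Agent.MU.S14.SI.ThetaCount

section MergeWrap_F4_Dict_ExistKummer -- from F4/Dict/ExistKummer.lean

/-!
# F4 / Dict / ExistKummer : the Kummer layer of a general `x ∈ Fˣ` (seat EX-3 of `dict_exist`)
(helper71; statement of helper95's note)

`F = L.field ⊇ ℚ(μ_p)`, `x ∈ Fˣ` with `p ∣ ord_v x` for all `v` outside `S`, `x ∉ F^p`.  Then
`V = {g ∈ U | g α = α}`, `α ^ p = x`, is a cyclic layer of degree `p` of `U`, open in `G_S`.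

Proof: `two_isCyc` (`F4/Dict/TwoKummer.lean`), `root_mem_QS` with `k = 1`
(`F4/Dict/Kummer.lean`), and `OpenS.capit_isDivS_toQS` for the orders outside `S`.
-/

set_option autoImplicit false
set_option linter.style.haveILetI false

open CategoryTheory groupCohomology ExtCitation
open NumberField IsDedekindDomain

namespace Fermat.Agent.F4

variable {p : ℕ} [Fact p.Prime] {S : Finset Nat.Primes}

/-- The prime of `F` below a valuation subring over `q ∉ S` is not in `T`. -/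
theorem OpenS.primeBelow_not_mem_T (L : OpenS S) (q : Nat.Primes) (hq : q ∉ S)
    (A : ValuationSubring (AlgebraicClosure ℚ)) (hA : A.LiesOverPrime (q : ℕ))
    (v : HeightOneSpectrum (𝓞 L.field))
    (hv : v.asIdeal = Fermat.Agent.KFin.primeBelow L.field A) : v ∉ L.T := by
  intro hvT
  obtain ⟨q', hq', hq'v⟩ := (L.mem_T v).1 hvT
  have hqv : (((q : ℕ) : ℕ) : 𝓞 L.field) ∈ v.asIdeal := by
    rw [hv]
    exact Fermat.Agent.KFin.natCast_mem_primeBelow L.field A q hA
  have hne : (q' : ℕ) ≠ (q : ℕ) := by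
    intro h
    apply hq
    have : q' = q := Subtype.ext h
    rwa [← this]
  have hcop : IsCoprime ((q' : ℕ) : ℤ) ((q : ℕ) : ℤ) := by
    rw [Int.isCoprime_iff_gcd_eq_one]
    exact (Nat.coprime_primes q'.2 q.2).2 hne
  obtain ⟨a, b, hab⟩ := hcop
  have h1 : (1 : 𝓞 L.field) ∈ v.asIdeal := by
    have e : (1 : 𝓞 L.field) = (a : 𝓞 L.field) * (((q' : ℕ) : ℕ) : 𝓞 L.field)
        + (b : 𝓞 L.field) * (((q : ℕ) : ℕ) : 𝓞 L.field) := by
      have := congrArg (fun z : ℤ => (z : 𝓞 L.field)) hab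
      simp only [Int.cast_add, Int.cast_mul, Int.cast_natCast, Int.cast_one] at this
      exact this.symm
    rw [e]
    exact v.asIdeal.add_mem (v.asIdeal.mul_mem_left _ hq'v) (v.asIdeal.mul_mem_left _ hqv)
  exact v.isPrime.ne_top ((Ideal.eq_top_iff_one _).2 h1)

/-- **EX-3.**  The Kummer layer of `x ∈ Fˣ`, `p ∣ ord_v x` outside `S`, `x ∉ F^p`. -/
theorem exists_kummer_layer (hpS : pPrime p ∈ S) (L : OpenS S)
    (hU0 : L.U ≤ MonoidHom.ker (cycloChar p))
    (x : (L.field)ˣ) (hx : ∀ v ∉ L.T, (p : ℤ) ∣ S14SI.thetaOrd v x)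
    (hxp : ∀ b : L.field, b ^ p ≠ (x : L.field)) :
    ∃ (V : Subgroup GQ) (σ : GQ) (α : AlgebraicClosure ℚ), (levelsS S).IsOpen V ∧
      F4Cf.IsCyc p L.U V σ ∧ α ^ p = ((x : L.field) : AlgebraicClosure ℚ) ∧
      ∀ g ∈ V, g α = α := by
  have hp : p.Prime := Fact.out
  obtain ⟨α, hα⟩ := IsAlgClosed.exists_pow_nat_eq ((x : L.field) : AlgebraicClosure ℚ) hp.pos
  have hx0 : ((x : L.field) : AlgebraicClosure ℚ) ≠ 0 := by
    intro h0
    exact x.ne_zero (Subtype.ext h0)
  have hα0 : α ≠ 0 := by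
    rintro rfl
    rw [zero_pow hp.ne_zero] at hα
    exact hx0 hα.symm
  have hμ := F4Cf.two_fix_mu (p := p) (U := L.U) hU0
  have hxfix : ∀ g ∈ L.U, g (α ^ p) = α ^ p := fun g hg => by
    rw [hα]
    exact (L.mem_field_iff _).1 (x : L.field).2 g hg
  -- `α` is moved by `U`
  obtain ⟨σ, hσU, hσ⟩ : ∃ σ ∈ L.U, σ α ≠ α := by
    by_contra hcon
    push Not at hcon
    have hmem : α ∈ L.field := (L.mem_field_iff α).2 hcon
    exact hxp ⟨α, hmem⟩ (Subtype.ext hα)
  -- openness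
  have hopen : (levelsS S).IsOpen (F4Cf.two_stab L.U α) := by
    obtain ⟨W, hW, hle⟩ := L.isOpen
    have hw : (Units.mk0 α hα0) ^ p ^ 1 = smUnits.val (L.toQS x) := by
      apply Units.ext
      rw [pow_one, Units.val_pow_eq_pow_val]
      exact hα
    obtain ⟨V', hV', hfix⟩ := root_mem_QS S hpS 1 (smUnits.val (L.toQS x)) (Units.mk0 α hα0)
      (smUnits.val_mem _) hw (fun q hq A hA => by
        have hprime : Fermat.Agent.KFin.primeBelow L.field A ≠ ⊥ := by
          intro h0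
          have hqP := Fermat.Agent.KFin.natCast_mem_primeBelow L.field A q hA
          rw [h0, Ideal.mem_bot] at hqP
          exact q.2.ne_zero (by exact_mod_cast hqP)
        set v : HeightOneSpectrum (𝓞 L.field) :=
          ⟨Fermat.Agent.KFin.primeBelow L.field A, inferInstance, hprime⟩ with hv
        have hvT : v ∉ L.T := L.primeBelow_not_mem_T q hq A hA v rfl
        obtain ⟨n, hn⟩ := hx v hvT
        have h1 := L.capit_isDivS_toQS x q hq A hA v rfl
        have h2 : -(WithZero.log (v.valuation L.field (x : L.field))) = (p : ℤ) ^ 1 * (-n) := by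
          rw [S14SI.thetaOrd_valuation, WithZero.log_exp, hn, pow_one]
          ring
        exact ⟨-n, h2 ▸ h1⟩)
    obtain ⟨X, hX, hXle⟩ := (levelsS S).directed W hW V' hV'
    exact ⟨X, hX, fun g hg => ⟨hle (hXle hg).1, hfix g (hXle hg).2⟩⟩
  exact ⟨F4Cf.two_stab L.U α, σ, α, hopen, F4Cf.two_isCyc hp hμ hα0 hxfix hσU hσ, hα,
    fun g hg => hg.2⟩

end Fermat.Agent.F4
end MergeWrap_F4_Dict_ExistKummer
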