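import Fermat.Agent.MU.F4.Dict.KappaAbs
import Fermat.Agent.MU.F4.Cf.Lines

section MergeWrap_F4_Dict_HasseAbs -- from F4/Dict/HasseAbs.lean

/-!
# F4 / Dict / HasseAbs : the Hasse norm axiom of `PCF` for a presented formation
(derivation `dict_hasse`, abstract assembly; helper56)

`K : KForm G` (`Q`, `E`, `J`, `d`, `C = J / d(E)`), `(U, V, σ)` a cyclic layer of degree `p`,
`N = cnorm · p σ`.  Inputs:

* `hpres` (**K1** for `V`)            : `C^V = pr (J^V + d T_V)`;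
* `hH` (**Hasse norm theorem**)       : `f ∈ Q^U` with `d f ∈ N(J^V)` (a local norm at the places
                                        of `J`) and `f ∈ E + N(T_V)` (its ideal is a norm) is a
                                        global norm, `f = N η`, `η ∈ Q^V`;
* `h90` (**K3v**, semi-local H90)     : `x ∈ J^V`, `N x = 0` ⟹ `x = σ z - z`, `z ∈ J^V`;
* `hid` (**ideals**: `Ĥ⁻¹ = 0` + capitulation) : `t ∈ T_V`, `N t ∈ E` ⟹ `m t ≡ σ s - s mod E`
                                        with `p ∤ m`, `s ∈ T_V`.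

Output: `y ∈ C^V`, `N y = 0` ⟹ `m y = σ z - z` with `p ∤ m`, `z ∈ C^V` (`KForm.hasse_of`).
-/

set_option autoImplicit false

open CategoryTheory groupCohomology

namespace Fermat.Agent.F4

open Fermat.Agent.F4Cf

namespace KForm

variable {G : Type} [Group G] (K : KForm G)

/-- The Hasse norm theorem for the layer `(U, V, σ)`, formation form. -/
def HasseNormAt (p : ℕ) (U V : Subgroup G) (σ : G) : Prop :=
  ∀ f ∈ K.QU U, (∃ x ∈ K.JU V, cnorm K.J p σ x = K.d f) →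
    (∃ t ∈ K.TU V, f + cnorm K.Q p σ t ∈ K.E) → ∃ η ∈ K.QU V, cnorm K.Q p σ η = f

/-- Semi-local Hilbert 90 for the layer `(U, V, σ)` (`Ĥ⁻¹(U/V, J^V) = 0`). -/
def JH90At (p : ℕ) (V : Subgroup G) (σ : G) : Prop :=
  ∀ x ∈ K.JU V, cnorm K.J p σ x = 0 → ∃ z ∈ K.JU V, x = K.J.ρ σ z - z

/-- `Ĥ⁻¹` of the invariant ideals vanishes up to prime-to-`p` capitulation. -/
def IdealH90At (p : ℕ) (V : Subgroup G) (σ : G) : Prop :=
  ∀ t ∈ K.TU V, cnorm K.Q p σ t ∈ K.E →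
    ∃ (m : ℕ) (s : K.Q), ¬ p ∣ m ∧ s ∈ K.TU V ∧ m • t - (K.Q.ρ σ s - s) ∈ K.E

/-- The presentation `C^V = pr (J^V + d T_V)`. -/
def PresAt (V : Subgroup G) : Prop :=
  ∀ c : K.C, Fix K.C V c → ∃ x ∈ K.JU V, ∃ t ∈ K.TU V, c = K.pr (x + K.d t)

variable {p : ℕ} [Fact p.Prime] {U V : Subgroup G} {σ : G}

/-- **The Hasse norm axiom** for a presented formation. -/
theorem hasse_of (hc : IsCyc p U V σ) (hpres : K.PresAt V) (hH : K.HasseNormAt p U V σ)
    (h90 : K.JH90At p V σ) (hid : K.IdealH90At p V σ) (y : K.C) (hy : Fix K.C V y)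
    (hN : cnorm K.C p σ y = 0) :
    ∃ (m : ℕ) (z : K.C), ¬ p ∣ m ∧ Fix K.C V z ∧ m • y = K.C.ρ σ z - z := by
  obtain ⟨x, hx, t, ht, rfl⟩ := hpres y hy
  -- `N x = d f`, `f = ε - N t`
  have h1 : K.pr (cnorm K.J p σ x + K.d (cnorm K.Q p σ t)) = 0 := by
    rw [← K.cnorm_d, ← cnorm_add, ← K.cnorm_pr]
    exact hN
  obtain ⟨ε, hε, hεe⟩ := (K.pr_ker _).1 h1
  have hNx : cnorm K.J p σ x = K.d (ε - cnorm K.Q p σ t) := by
    rw [K.d_sub, hεe]
    abel
  have hfU : ε - cnorm K.Q p σ t ∈ K.QU U := by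
    rw [← K.d_mem_JU_iff, ← hNx]
    exact acf3_fix_cnorm hc hx
  -- Hasse: `f = N η`
  obtain ⟨η, hη, hNη⟩ := hH _ hfU ⟨x, hx, hNx⟩ ⟨t, ht, by
    rw [sub_add_cancel]; exact hε⟩
  -- the new representative
  have hx1 : x - K.d η ∈ K.JU V := (K.JU V).sub_mem hx (K.d_mem_JU hη)
  have ht1 : t + η ∈ K.TU V := (K.TU V).add_mem ht (K.QU_le_TU V hη)
  have hNx1 : cnorm K.J p σ (x - K.d η) = 0 := by
    rw [cnorm_sub, K.cnorm_d, hNη, hNx, sub_self]
  have hNt1 : cnorm K.Q p σ (t + η) ∈ K.E := by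
    rw [cnorm_add, hNη]
    have : cnorm K.Q p σ t + (ε - cnorm K.Q p σ t) = ε := by abel
    rw [this]
    exact hε
  obtain ⟨z1, hz1, hxz⟩ := h90 _ hx1 hNx1
  obtain ⟨m, s, hm, hs, hms⟩ := hid _ ht1 hNt1
  refine ⟨m, K.pr (m • z1 + K.d s), hm, K.fix ((K.JU V).nsmul_mem hz1 m) hs, ?_⟩
  -- `x + d t = (x - d η) + d (t + η)`
  have e0 : x + K.d t = (x - K.d η) + K.d (t + η) := by
    rw [K.d_add]; abel
  have e1 : m • (x + K.d t) =
      (K.J.ρ σ (m • z1 + K.d s) - (m • z1 + K.d s)) + K.d (m • (t + η) - (K.Q.ρ σ s - s)) := by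
    rw [e0, hxz, K.d_sub, K.d_sub, K.d_nsmul, K.d_comm, map_add, map_nsmul, smul_add, smul_sub]
    abel
  rw [← K.pr_nsmul, e1, K.pr_add, K.pr_d_of_mem hms, add_zero, K.pr_sub, K.pr_comm]

end KForm

end Fermat.Agent.F4
end MergeWrap_F4_Dict_HasseAbs
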