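import Fermat.Agent.MU.F4.Dict.H90
import Fermat.Agent.MU.F4.Dict.Formation

section MergeWrap_F4_Dict_JH90 -- from F4/Dict/JH90.lean

/-!
# F4 / Dict / JH90 : semi-local Hilbert 90 (seat K3v, helper89)

`H¹(U, J) = 0` for every open subgroup `U` of `G_S`, `J = ∏_{q ∈ S} coInd_{D_q → G} L_q`.

* `h90sm_coInd` (generic): if every open subgroup of `D` satisfies Hilbert 90 for `L`, every open
  subgroup `U` of `G` satisfies Hilbert 90 for `coInd_r L`.
  Proof: `G = ⊔ r(D) x U`; for a representative `x`, `e ↦ c(x⁻¹ r(e) x)(x)` is a 1-cocycle of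
  `D_x = r⁻¹(x U x⁻¹)` with values in `L`, hence `= e α_x - α_x`; put
  `a(r(d) x u) = d (α_x + c(u)(x))`.
* `h90sm_pi` (generic): products.
* `levelsClosed_locLevelsS`, `h90_LqS` : local Hilbert 90 for `L_q` (helper9's `h90_smUnits`).
* `h90_Jrep` : the statement for `Jrep S`.
-/

set_option autoImplicit false
set_option linter.unusedSectionVars false

open CategoryTheory groupCohomology ExtCitation

namespace Fermat.Agent.F4

/-! ### double cosets `r(D) \ G / U` -/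

section DC

variable {D G : Type} [Group D] [Group G]

/-- Representatives of the double cosets `r(D) x U`, with a decomposition of every element. -/
theorem jh90_exists_decomp (r : D →* G) (U : Subgroup G) :
    ∃ (t : G → G) (d₀ : G → D) (u₀ : G → U), (∀ x, x = r (d₀ x) * t x * (u₀ x : G)) ∧
      ∀ (d : D) (x : G) (u : U), t (r d * x * (u : G)) = t x := by
  classical
  let t : G → G := fun x => (DoubleCoset.mk r.range U x).out
  have ht : ∀ x, ∃ d : D, ∃ u : U, x = r d * t x * (u : G) := by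
    intro x
    obtain ⟨h, k, hh, hk, hout⟩ := DoubleCoset.mk_out_eq_mul r.range U x
    obtain ⟨d, rfl⟩ := hh
    refine ⟨d⁻¹, ⟨k⁻¹, U.inv_mem hk⟩, ?_⟩
    show x = r d⁻¹ * (DoubleCoset.mk r.range U x).out * k⁻¹
    rw [hout, map_inv]
    group
  choose d₀ u₀ h₀ using ht
  refine ⟨t, d₀, u₀, h₀, fun d x u => ?_⟩
  show (DoubleCoset.mk r.range U (r d * x * (u : G))).out = (DoubleCoset.mk r.range U x).out
  congr 1
  exact ((DoubleCoset.eq r.range U x (r d * x * (u : G))).2 ⟨r d, ⟨d, rfl⟩, u, u.2, rfl⟩).symm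

end DC

/-! ### Hilbert 90 for a coinduced module -/

section RhoMul

variable {k D : Type} [CommRing k] [Group D]

lemma jh90_ρ_mul {A : Rep.{0} k D} (d e : D) (a : A) : A.ρ (d * e) a = A.ρ d (A.ρ e a) := by
  rw [map_mul, Module.End.mul_apply]

end RhoMul

section CoInd

variable {D G : Type} [Group D] [Group G] (r : D →* G) (𝓤 : Levels G) (L : Rep.{0} ℤ D)

/-- The subgroup `D_x = r⁻¹(x U x⁻¹)` of `D`. -/
def jh90Stab (U : Subgroup G) (x : G) : Subgroup D where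
  carrier := {e | x⁻¹ * r e * x ∈ U}
  one_mem' := by
    show x⁻¹ * r 1 * x ∈ U
    rw [map_one, mul_one, inv_mul_cancel]
    exact U.one_mem
  mul_mem' := by
    intro a b ha hb
    show x⁻¹ * r (a * b) * x ∈ U
    have e : x⁻¹ * r (a * b) * x = (x⁻¹ * r a * x) * (x⁻¹ * r b * x) := by
      rw [map_mul]; group
    rw [e]
    exact U.mul_mem ha hb
  inv_mem' := by
    intro a ha
    show x⁻¹ * r a⁻¹ * x ∈ U
    have e : x⁻¹ * r a⁻¹ * x = (x⁻¹ * r a * x)⁻¹ := by
      rw [map_inv]; group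
    rw [e]
    exact U.inv_mem ha

/-- The homomorphism `D_x → U`, `e ↦ x⁻¹ r(e) x`. -/
def jh90Theta (U : Subgroup G) (x : G) : ↥(jh90Stab r U x) →* ↥U where
  toFun e := ⟨x⁻¹ * r (e : D) * x, e.2⟩
  map_one' := Subtype.ext (by
    show x⁻¹ * r ((1 : ↥(jh90Stab r U x)) : D) * x = 1
    rw [Subgroup.coe_one, map_one, mul_one, inv_mul_cancel])
  map_mul' a b := Subtype.ext (by
    show x⁻¹ * r ((a * b : ↥(jh90Stab r U x)) : D) * x =
      (x⁻¹ * r (a : D) * x) * (x⁻¹ * r (b : D) * x)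
    rw [Subgroup.coe_mul, map_mul]; group)

lemma jh90Theta_coe (U : Subgroup G) (x : G) (e : ↥(jh90Stab r U x)) :
    ((jh90Theta r U x e : ↥U) : G) = x⁻¹ * r (e : D) * x := rfl

variable {r 𝓤 L}

/-- The subgroup `D_x` is open. -/
lemma jh90Stab_isOpen {U : Subgroup G} (hU : 𝓤.IsOpen U) (x : G) :
    (𝓤.comap r).IsOpen (jh90Stab r U x) := by
  obtain ⟨V, hV, hVU⟩ := hU
  refine ⟨V.comap r, ⟨V, hV, rfl⟩, fun e he => hVU ?_⟩
  exact 𝓤.coind_conj_mem' hV he x

/-- Step A: the local solution at a point `x`. -/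
theorem jh90_exists_local
    (hL : ∀ D' : Subgroup D, (𝓤.comap r).IsOpen D' →
      UC.H90sm ((𝓤.comap r).sub D') (Rep.res D'.subtype L))
    {U : Subgroup G} (hU : 𝓤.IsOpen U) (cf : U → G → L)
    (hcoc : ∀ (u u' : U) (x : G), cf (u * u') x = cf u' (x * (u : G)) + cf u x)
    (heq : ∀ (u : U) (d : D) (x : G), cf u (r d * x) = L.ρ d (cf u x))
    (hlev : ∃ V ∈ 𝓤.sets, ∀ u v : U, (v : G) ∈ V → cf (u * v) = cf u)
    (x : G) :
    ∃ α : L, ∀ (e : D) (v : U), r e * x = x * (v : G) → L.ρ e α - α = cf v x := by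
  obtain ⟨V, hV, hlevV⟩ := hlev
  have hz : (fun e : ↥(jh90Stab r U x) => cf (jh90Theta r U x e) x) ∈
      Z1 ((𝓤.comap r).sub (jh90Stab r U x)) (Rep.res (jh90Stab r U x).subtype L) := by
    refine ⟨(mem_cocycles₁_iff _).2 fun g h => ?_, ?_⟩
    · show cf (jh90Theta r U x (g * h)) x =
        L.ρ (g : D) (cf (jh90Theta r U x h) x) + cf (jh90Theta r U x g) x
      rw [map_mul, hcoc, ← heq]
      congr 2
      rw [jh90Theta_coe]
      group
    · refine ⟨(V.comap r).comap (jh90Stab r U x).subtype, ⟨V.comap r, ⟨V, hV, rfl⟩, rfl⟩,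
        fun g s hs => ?_⟩
      show cf (jh90Theta r U x (g * s)) x = cf (jh90Theta r U x g) x
      rw [map_mul, hlevV]
      rw [jh90Theta_coe]
      exact 𝓤.coind_conj_mem' hV hs x
  obtain ⟨α, hα⟩ := hL _ (jh90Stab_isOpen hU x) _ hz
  refine ⟨α, fun e v hev => ?_⟩
  have he : x⁻¹ * r e * x = (v : G) := by
    rw [mul_assoc, hev, inv_mul_cancel_left]
  have hmem : e ∈ jh90Stab r U x := by
    show x⁻¹ * r e * x ∈ U
    rw [he]
    exact v.2
  have h1 := congrFun hα ⟨e, hmem⟩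
  have h2 : jh90Theta r U x ⟨e, hmem⟩ = v := Subtype.ext he
  rw [h2] at h1
  exact h1

/-- Step B: the value `d (α + c(u)(x))` depends only on `r(d) x u`. -/
theorem jh90_wd {U : Subgroup G} (cf : U → G → L)
    (hcoc : ∀ (u u' : U) (x : G), cf (u * u') x = cf u' (x * (u : G)) + cf u x)
    (heq : ∀ (u : U) (d : D) (x : G), cf u (r d * x) = L.ρ d (cf u x))
    (x : G) (α : L)
    (hα : ∀ (e : D) (v : U), r e * x = x * (v : G) → L.ρ e α - α = cf v x)
    (d d' : D) (u u' : U) (h : r d * x * (u : G) = r d' * x * (u' : G)) :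
    L.ρ d (α + cf u x) = L.ρ d' (α + cf u' x) := by
  have hev : r (d'⁻¹ * d) * x = x * ((u' * u⁻¹ : U) : G) := by
    rw [map_mul, map_inv, Subgroup.coe_mul, Subgroup.coe_inv]
    have h1 : r d * x = r d' * x * (u' : G) * (u : G)⁻¹ := by
      rw [← h]; group
    rw [mul_assoc, h1]
    group
  have h1 := hα _ _ hev
  have h2 : cf u' x = L.ρ (d'⁻¹ * d) (cf u x) + cf (u' * u⁻¹) x := by
    have h3 := hcoc (u' * u⁻¹) u x
    rw [inv_mul_cancel_right] at h3
    rw [h3, ← hev, heq]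
  have h4 : L.ρ (d'⁻¹ * d) (α + cf u x) = α + cf u' x := by
    rw [map_add, h2]
    have h5 : L.ρ (d'⁻¹ * d) α = α + cf (u' * u⁻¹) x := by
      rw [← h1]; abel
    rw [h5]; abel
  have h5 : L.ρ d (α + cf u x) = L.ρ d' (L.ρ (d'⁻¹ * d) (α + cf u x)) := by
    rw [← jh90_ρ_mul, mul_inv_cancel_left]
  rw [h5, h4]

/-- **Hilbert 90 for a coinduced module**: if every open subgroup of `D` satisfies Hilbert 90
for `L`, every open subgroup of `G` satisfies Hilbert 90 for `coInd_r L`. -/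
theorem h90sm_coInd
    (hL : ∀ D' : Subgroup D, (𝓤.comap r).IsOpen D' →
      UC.H90sm ((𝓤.comap r).sub D') (Rep.res D'.subtype L))
    (U : Subgroup G) (hU : 𝓤.IsOpen U) :
    UC.H90sm (𝓤.sub U) (Rep.res U.subtype (coInd r 𝓤 L)) := by
  classical
  intro c hc
  obtain ⟨hcoc0, hLC⟩ := hc
  have hcoc1 := (mem_cocycles₁_iff c).1 hcoc0
  have hcoc : ∀ (u u' : U) (x : G),
      ((c (u * u') : ↥(coIndSub r 𝓤 L)) : G → L) x =
        ((c u' : ↥(coIndSub r 𝓤 L)) : G → L) (x * (u : G)) +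
          ((c u : ↥(coIndSub r 𝓤 L)) : G → L) x := by
    intro u u' x
    exact congrArg (fun φ : ↥(coIndSub r 𝓤 L) => (φ : G → L) x) (hcoc1 u u')
  have heq : ∀ (u : U) (d : D) (x : G),
      ((c u : ↥(coIndSub r 𝓤 L)) : G → L) (r d * x) =
        L.ρ d (((c u : ↥(coIndSub r 𝓤 L)) : G → L) x) :=
    fun u d x => coIndSub_equivariant (show ↥(coIndSub r 𝓤 L) from c u) d x
  obtain ⟨_, ⟨V₁, hV₁, rfl⟩, hV₁c⟩ := hLC
  have hlevV : ∀ u v : U, (v : G) ∈ V₁ →
      (fun x => ((c (u * v) : ↥(coIndSub r 𝓤 L)) : G → L) x) =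
        fun x => ((c u : ↥(coIndSub r 𝓤 L)) : G → L) x := by
    intro u v hv
    funext x
    exact congrArg (fun φ : ↥(coIndSub r 𝓤 L) => (φ : G → L) x) (hV₁c u v hv)
  have hc1 : ∀ x, ((c 1 : ↥(coIndSub r 𝓤 L)) : G → L) x = 0 := by
    intro x
    have h1 := hcoc 1 1 x
    rw [mul_one, Subgroup.coe_one, mul_one] at h1
    exact left_eq_add.1 h1
  have hcv : ∀ (v : U), (v : G) ∈ V₁ → ∀ x, ((c v : ↥(coIndSub r 𝓤 L)) : G → L) x = 0 := by
    intro v hv x
    have h1 := congrFun (hlevV 1 v hv) x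
    rw [one_mul] at h1
    rw [h1, hc1]
  choose α hα using jh90_exists_local hL hU
    (fun u x => ((c u : ↥(coIndSub r 𝓤 L)) : G → L) x) hcoc heq ⟨V₁, hV₁, hlevV⟩
  obtain ⟨t, d₀, u₀, hdec, htinv⟩ := jh90_exists_decomp r U
  have hkey : ∀ (d : D) (x : G) (u : U),
      L.ρ (d₀ (r d * t x * (u : G))) (α (t (r d * t x * (u : G))) +
        ((c (u₀ (r d * t x * (u : G))) : ↥(coIndSub r 𝓤 L)) : G → L) (t (r d * t x * (u : G))))
        = L.ρ d (α (t x) + ((c u : ↥(coIndSub r 𝓤 L)) : G → L) (t x)) := by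
    intro d x u
    have ht' : t (r d * t x * (u : G)) = t x := by
      have h1 := htinv d (t x) u
      have h2 := htinv (d₀ x) (t x) (u₀ x)
      rw [← hdec x] at h2
      rw [h1, ← h2]
    have h3 := hdec (r d * t x * (u : G))
    rw [ht'] at h3 ⊢
    exact jh90_wd (fun u x => ((c u : ↥(coIndSub r 𝓤 L)) : G → L) x) hcoc heq (t x) (α (t x))
      (hα (t x)) _ _ _ _ h3.symm
  -- the cochain `a`
  have hD1 : ∀ (d : D) (x : G),
      L.ρ (d₀ (r d * x)) (α (t (r d * x)) +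
        ((c (u₀ (r d * x)) : ↥(coIndSub r 𝓤 L)) : G → L) (t (r d * x))) =
      L.ρ d (L.ρ (d₀ x) (α (t x) + ((c (u₀ x) : ↥(coIndSub r 𝓤 L)) : G → L) (t x))) := by
    intro d x
    have e1 : r d * x = r (d * d₀ x) * t x * (u₀ x : G) := by
      conv_lhs => rw [hdec x]
      rw [map_mul]; group
    rw [e1, hkey, jh90_ρ_mul]
  have hD2 : ∀ (x : G) (u : U),
      L.ρ (d₀ (x * (u : G))) (α (t (x * (u : G))) +
        ((c (u₀ (x * (u : G))) : ↥(coIndSub r 𝓤 L)) : G → L) (t (x * (u : G)))) =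
      L.ρ (d₀ x) (α (t x) + ((c (u₀ x) : ↥(coIndSub r 𝓤 L)) : G → L) (t x)) +
        ((c u : ↥(coIndSub r 𝓤 L)) : G → L) x := by
    intro x u
    have e1 : x * (u : G) = r (d₀ x) * t x * ((u₀ x * u : U) : G) := by
      conv_lhs => rw [hdec x]
      rw [Subgroup.coe_mul]; group
    have e2 : ((c u : ↥(coIndSub r 𝓤 L)) : G → L) x =
        L.ρ (d₀ x) (((c u : ↥(coIndSub r 𝓤 L)) : G → L) (t x * (u₀ x : G))) := by
      conv_lhs => rw [hdec x]
      rw [mul_assoc, heq]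
    rw [e1, hkey, hcoc, e2, map_add, map_add, map_add]
    abel
  obtain ⟨V₀, hV₀, hV₀U⟩ := hU
  obtain ⟨W, hW, hWle⟩ := 𝓤.directed V₁ hV₁ V₀ hV₀
  refine ⟨⟨fun x => L.ρ (d₀ x) (α (t x) + ((c (u₀ x) : ↥(coIndSub r 𝓤 L)) : G → L) (t x)),
    fun d x => hD1 d x, ⟨W, hW, fun g s hs => ?_⟩⟩, ?_⟩
  · have h1 := hD2 g ⟨s, hV₀U (hWle hs).2⟩
    rw [hcv ⟨s, hV₀U (hWle hs).2⟩ (hWle hs).1, add_zero] at h1
    exact h1
  · funext u
    refine Subtype.ext (funext fun x => ?_)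
    have h1 := hD2 x u
    show L.ρ (d₀ (x * (u : G))) (α (t (x * (u : G))) +
        ((c (u₀ (x * (u : G))) : ↥(coIndSub r 𝓤 L)) : G → L) (t (x * (u : G)))) -
      L.ρ (d₀ x) (α (t x) + ((c (u₀ x) : ↥(coIndSub r 𝓤 L)) : G → L) (t x)) = _
    rw [h1, add_sub_cancel_left]

end CoInd

/-! ### Hilbert 90 for a product -/

section Pi

variable {G : Type} [Group G] {ι : Type} (𝓤 : Levels G) (A : ι → Rep.{0} ℤ G)

/-- **Hilbert 90 for a product**, over a subgroup. -/
theorem h90sm_pi (U : Subgroup G)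
    (hA : ∀ i, UC.H90sm (𝓤.sub U) (Rep.res U.subtype (A i))) :
    UC.H90sm (𝓤.sub U) (Rep.res U.subtype (cxPiRep A)) := by
  intro c hc
  obtain ⟨hcoc0, hLC⟩ := hc
  have hcoc1 := (mem_cocycles₁_iff c).1 hcoc0
  obtain ⟨W, hW, hWc⟩ := hLC
  have hz : ∀ i, (fun u : ↥U => (c u : ∀ i, A i) i) ∈
      Z1 (𝓤.sub U) (Rep.res U.subtype (A i)) := by
    intro i
    refine ⟨(mem_cocycles₁_iff _).2 fun g h => ?_, ⟨W, hW, fun g s hs => ?_⟩⟩
    · exact congrFun (hcoc1 g h) i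
    · exact congrFun (hWc g s hs) i
  choose a ha using fun i => hA i _ (hz i)
  refine ⟨fun i => a i, ?_⟩
  funext u
  funext i
  exact congrFun (ha i) u

end Pi

/-! ### The local modules `L_q` and the semi-local module `J` -/

section Local

variable (S : Finset Nat.Primes) (q : Nat.Primes)

/-- The levels of the local group at `q` induced by `G_S` are closed. -/
theorem levelsClosed_locLevelsS : LevelsClosed (locLevelsS S q) (locAct q) := by
  rintro _ ⟨V, hV, rfl⟩ g hg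
  show primeLocalToGlobal q g ∈ V
  refine levelsClosed_levelsS S V hV _ fun a ha => ?_
  apply locEmb_injective q
  have h1 := hg (locEmb q a) fun v hv => by
    rw [← locEmb_primeLocalToGlobal]
    exact congrArg (locEmb q) (ha _ hv)
  rw [← locEmb_primeLocalToGlobal] at h1
  exact h1

/-- **Hilbert 90** for `L_q = ((ℚ_S)_q)ˣ` over every open subgroup of the local group. -/
theorem h90_LqS (D' : Subgroup (primeLocalGaloisGroup q)) (hD' : (locLevelsS S q).IsOpen D') :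
    UC.H90sm ((locLevelsS S q).sub D') (Rep.res D'.subtype (LqS S q)) :=
  h90_smUnits (levelsClosed_locLevelsS S q) D' hD'

/-- **Semi-local Hilbert 90**: `H¹(U, J) = 0` for every open subgroup `U` of `G_S`. -/
theorem h90_Jrep (U : Subgroup GQ) (hU : (levelsS S).IsOpen U) :
    UC.H90sm ((levelsS S).sub U) (Rep.res U.subtype (Jrep S)) :=
  h90sm_pi (levelsS S) _ U fun q' =>
    h90sm_coInd (fun D' hD' => h90_LqS S q'.1 D' hD') U hU

end Local

end Fermat.Agent.F4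
end MergeWrap_F4_Dict_JH90
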