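import Fermat.Agent.MU.F4.Dict.SUnits
import Fermat.Agent.MU.F4.BR.Smooth

section MergeWrap_F4_Dict_Kummer -- from F4/Dict/Kummer.lean

/-!
# F4 / Dict / Kummer : roots of elements of `ℚ_S` (seat DK1)

`p ∈ S`.  If `x ∈ (ℚ_S)ˣ` has order divisible by `p ^ k` at every place outside `S`, every
`p ^ k`-th root of `x` lies in `ℚ_S` (`root_mem_QS`).

Proof: `x ∈ F`, `F/ℚ` finite Galois unramified outside `S`.  Let `K` be the pointwise stabiliser of
the `G_ℚ`-orbit of `w`: a normal subgroup, containing the fixing subgroup of the splitting field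
of the minimal polynomial of `w`.  An inertia element `τ` at `A` over `q ∉ S` fixes `F`; for a
conjugate `w' = σ w`, `w' ^ p ^ k = σ x = q ^ (p ^ k * n) * u`, `u` a unit of `A`:
`w'' = w' / q ^ n` is a unit of `A`, `τ w'' / w''` is a `p^k`-th root of unity congruent to `1`
modulo the maximal ideal of `A`, hence `= 1` (`Lib/Cyclo`: `root_eq_of_sub_mem_nonunits`).
So `K` contains all inertia groups outside `S` and is a level (`br_smooth_mem_levelsS`).

Consequences: `E` (the `S`-units of `ℚ_S`) is `p`-divisible (`EsRep_div`), `E[p] = μ_p`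
(`exists_rootMap`).
-/

set_option autoImplicit false

open CategoryTheory groupCohomology ExtCitation
open scoped Pointwise

namespace Fermat.Agent.F4

/-! ### Valuation subrings are integrally closed -/

/-- If `z ^ m` lies in a valuation subring (`m ≠ 0`), so does `z`. -/
lemma dk1_mem_of_pow_mem (A : ValuationSubring (AlgebraicClosure ℚ)) {z : AlgebraicClosure ℚ}
    {m : ℕ} (hm : m ≠ 0) (hz : z ^ m ∈ A) : z ∈ A := by
  rcases A.mem_or_inv_mem z with h1 | h1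
  · exact h1
  · by_cases hz0 : z = 0
    · rw [hz0]; exact A.zero_mem
    have e : z = z ^ m * z⁻¹ ^ (m - 1) := by
      obtain ⟨j, rfl⟩ := Nat.exists_eq_succ_of_ne_zero hm
      rw [Nat.succ_sub_one, pow_succ, inv_pow]
      field_simp
    rw [e]
    exact A.mul_mem _ _ hz (pow_mem h1 _)

/-- If `y ^ m` is a unit of `A` (`m ≠ 0`), so is `y`. -/
lemma dk1_isUnitAt_of_pow {A : ValuationSubring (AlgebraicClosure ℚ)} {y : AlgebraicClosure ℚ}
    {m : ℕ} (hm : m ≠ 0) (h : IsUnitAt A (y ^ m)) : IsUnitAt A y := by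
  refine ⟨dk1_mem_of_pow_mem A hm h.1, dk1_mem_of_pow_mem A hm ?_⟩
  rw [inv_pow]; exact h.2

/-- A non-unit times an element of `A` is a non-unit. -/
lemma dk1_mul_mem_nonunits (A : ValuationSubring (AlgebraicClosure ℚ)) {a b : AlgebraicClosure ℚ}
    (ha : a ∈ A.nonunits) (hb : b ∈ A) : a * b ∈ A.nonunits := by
  rw [ValuationSubring.mem_nonunits_iff] at ha ⊢
  rw [map_mul]
  have hb' : A.valuation b ≤ 1 := (A.valuation_le_one_iff b).2 hb
  calc A.valuation a * A.valuation b ≤ A.valuation a * 1 := by gcongr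
    _ < 1 := by rwa [mul_one]

variable {p : ℕ} [Fact p.Prime] (S : Finset Nat.Primes)

/-- Inertia outside `S` fixes every conjugate of a `p ^ k`-th root of `x`. -/
lemma dk1_inertia_fix (hpS : pPrime p ∈ S) (k : ℕ) (x w : AlgebraicClosure ℚ) (hx0 : x ≠ 0)
    (F : IntermediateField ℚ (AlgebraicClosure ℚ)) (hF : F.IsUnramifiedOutside S)
    (hst : IsStableField F) (hxF : x ∈ F) (hw : w ^ p ^ k = x)
    (hord : ∀ q : Nat.Primes, q ∉ S → ∀ A : ValuationSubring (AlgebraicClosure ℚ),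
      A.LiesOverPrime (q : ℕ) → ∃ n : ℤ, HasOrdAt A q x ((p : ℤ) ^ k * n))
    (q : Nat.Primes) (hq : q ∉ S) (A : ValuationSubring (AlgebraicClosure ℚ))
    (hA : A.LiesOverPrime (q : ℕ)) (τ : GQ) (hτ : τ ∈ A.inertiaSubgroupIn ℚ) (σ : GQ) :
    τ (σ w) = σ w := by
  have hp : p.Prime := Fact.out
  have hpk : p ^ k ≠ 0 := pow_ne_zero _ hp.ne_zero
  have : NeZero (p ^ k) := ⟨hpk⟩
  have hq0 : ((q : ℕ) : AlgebraicClosure ℚ) ≠ 0 := Nat.cast_ne_zero.2 q.2.ne_zero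
  -- the order of `σ x` at `A`
  obtain ⟨n, hn⟩ := hord q hq (σ⁻¹ • A) (liesOverPrime_smul A σ⁻¹ q hA)
  have hu : IsUnitAt A (σ x * ((q : ℕ) : AlgebraicClosure ℚ) ^ (-((p : ℤ) ^ k * n))) := by
    have h1 := (isUnitAt_map_iff A σ _).2 hn
    rwa [map_mul, map_zpow₀, map_natCast] at h1
  -- `w'' = σ w / q ^ n`
  have hpow : (σ w * ((q : ℕ) : AlgebraicClosure ℚ) ^ (-n)) ^ (p ^ k) =
      σ x * ((q : ℕ) : AlgebraicClosure ℚ) ^ (-((p : ℤ) ^ k * n)) := by
    rw [mul_pow, ← map_pow, hw, ← zpow_natCast (((q : ℕ) : AlgebraicClosure ℚ) ^ (-n)),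
      ← zpow_mul]
    congr 2
    push_cast
    ring
  have hw'' : IsUnitAt A (σ w * ((q : ℕ) : AlgebraicClosure ℚ) ^ (-n)) :=
    dk1_isUnitAt_of_pow hpk (by rw [hpow]; exact hu)
  have hw0 : σ w * ((q : ℕ) : AlgebraicClosure ℚ) ^ (-n) ≠ 0 := by
    intro h0
    have hx' : σ x = 0 := by
      have := hpow
      rw [h0, zero_pow hpk] at this
      rcases mul_eq_zero.1 this.symm with h | h
      · exact h
      · exact absurd h (zpow_ne_zero _ hq0)
    exact hx0 ((map_eq_zero σ).1 hx')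
  -- `τ` fixes `u`
  have hτF : τ ∈ F.fixingSubgroup := hF.2 q hq A hA hτ
  have hτx : τ (σ x) = σ x :=
    (IntermediateField.mem_fixingSubgroup_iff F τ).1 hτF _ (hst σ x hxF)
  have hτu : τ (σ x * ((q : ℕ) : AlgebraicClosure ℚ) ^ (-((p : ℤ) ^ k * n))) =
      σ x * ((q : ℕ) : AlgebraicClosure ℚ) ^ (-((p : ℤ) ^ k * n)) := by
    rw [map_mul, map_zpow₀, map_natCast, hτx]
  -- the root of unity
  have hζ : (τ (σ w * ((q : ℕ) : AlgebraicClosure ℚ) ^ (-n)) *
      (σ w * ((q : ℕ) : AlgebraicClosure ℚ) ^ (-n))⁻¹) ^ (p ^ k) = 1 := by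
    rw [mul_pow, ← map_pow, inv_pow, hpow, hτu]
    exact mul_inv_cancel₀ (by rw [← hpow]; exact pow_ne_zero _ hw0)
  have hsub : τ (σ w * ((q : ℕ) : AlgebraicClosure ℚ) ^ (-n)) *
      (σ w * ((q : ℕ) : AlgebraicClosure ℚ) ^ (-n))⁻¹ - 1 ∈ A.nonunits := by
    have h1 := Fermat.Agent.Cyclo.inertia_sub_mem_nonunits A hτ hw''.1
    have h2 := dk1_mul_mem_nonunits A h1 hw''.2
    have e : (τ (σ w * ((q : ℕ) : AlgebraicClosure ℚ) ^ (-n)) -
        σ w * ((q : ℕ) : AlgebraicClosure ℚ) ^ (-n)) *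
        (σ w * ((q : ℕ) : AlgebraicClosure ℚ) ^ (-n))⁻¹ =
        τ (σ w * ((q : ℕ) : AlgebraicClosure ℚ) ^ (-n)) *
        (σ w * ((q : ℕ) : AlgebraicClosure ℚ) ^ (-n))⁻¹ - 1 := by
      rw [sub_mul, mul_inv_cancel₀ hw0]
    rwa [e] at h2
  have hqp : ¬ (q : ℕ) ∣ p ^ k := by
    intro hd
    have h1 : (q : ℕ) ∣ p := q.2.dvd_of_dvd_pow hd
    have h2 : (q : ℕ) = p := (Nat.prime_dvd_prime_iff_eq q.2 hp).1 h1
    have h3 : q = pPrime p := Subtype.ext h2
    exact hq (h3 ▸ hpS)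
  have hone := Fermat.Agent.Cyclo.root_eq_of_sub_mem_nonunits (p ^ k) A q.2 hA hqp hζ
    (one_pow _) hsub
  have hfix : τ (σ w * ((q : ℕ) : AlgebraicClosure ℚ) ^ (-n)) =
      σ w * ((q : ℕ) : AlgebraicClosure ℚ) ^ (-n) := by
    exact (mul_inv_eq_one₀ hw0).1 hone
  rw [map_mul, map_zpow₀, map_natCast] at hfix
  exact mul_right_cancel₀ (zpow_ne_zero _ hq0) hfix

/-- **Kummer** (seat DK1), field form. -/
theorem dk1_root_level (hpS : pPrime p ∈ S) (k : ℕ) (x w : AlgebraicClosure ℚ) (hx0 : x ≠ 0)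
    (F : IntermediateField ℚ (AlgebraicClosure ℚ)) (hF : F.IsUnramifiedOutside S)
    (hst : IsStableField F) (hxF : x ∈ F) (hw : w ^ p ^ k = x)
    (hord : ∀ q : Nat.Primes, q ∉ S → ∀ A : ValuationSubring (AlgebraicClosure ℚ),
      A.LiesOverPrime (q : ℕ) → ∃ n : ℤ, HasOrdAt A q x ((p : ℤ) ^ k * n)) :
    ∃ V ∈ (levelsS S).sets, ∀ v ∈ V, v w = w := by
  -- the pointwise stabiliser of the orbit of `w`
  let K : Subgroup GQ :=
    { carrier := {τ | ∀ σ : GQ, τ (σ w) = σ w}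
      one_mem' := fun σ => rfl
      mul_mem' := fun {a b} ha hb σ => by
        show a (b (σ w)) = σ w
        rw [hb σ, ha σ]
      inv_mem' := fun {a} ha σ => by
        show a.symm (σ w) = σ w
        rw [AlgEquiv.symm_apply_eq]
        exact (ha σ).symm }
  have hKn : K.Normal := by
    refine ⟨fun τ hτ g σ => ?_⟩
    show g (τ (g⁻¹ (σ w))) = σ w
    have h1 : τ ((g⁻¹ * σ) w) = (g⁻¹ * σ) w := hτ (g⁻¹ * σ)
    have h2 : (g⁻¹ * σ) w = g⁻¹ (σ w) := rfl
    rw [h2] at h1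
    rw [h1]
    show g (g.symm (σ w)) = σ w
    simp
  -- a finite extension whose fixing subgroup lies in `K`
  have hint : Algebra.IsIntegral ℚ (AlgebraicClosure ℚ) :=
    (AlgebraicClosure.isAlgebraic ℚ).isIntegral
  have hwint : IsIntegral ℚ w := Algebra.IsIntegral.isIntegral (R := ℚ) w
  let T : Set (AlgebraicClosure ℚ) := (minpoly ℚ w).rootSet (AlgebraicClosure ℚ)
  have hTfin : T.Finite := Polynomial.rootSet_finite _ _
  have : Finite T := hTfin
  let F₀ : IntermediateField ℚ (AlgebraicClosure ℚ) := IntermediateField.adjoin ℚ T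
  have hF₀ : FiniteDimensional ℚ F₀ :=
    IntermediateField.finiteDimensional_adjoin
      (fun y _ => Algebra.IsIntegral.isIntegral (R := ℚ) y)
  have hmem : ∀ σ : GQ, σ w ∈ F₀ := by
    intro σ
    apply IntermediateField.subset_adjoin
    show σ w ∈ (minpoly ℚ w).rootSet (AlgebraicClosure ℚ)
    rw [Polynomial.mem_rootSet]
    refine ⟨minpoly.ne_zero hwint, ?_⟩
    rw [Polynomial.aeval_algHom_apply, minpoly.aeval, map_zero]
  have hle : F₀.fixingSubgroup ≤ K := by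
    intro τ hτ σ
    exact (IntermediateField.mem_fixingSubgroup_iff F₀ τ).1 hτ _ (hmem σ)
  have hK : K ∈ (levelsS S).sets := by
    refine br_smooth_mem_levelsS S K F₀ hle (fun q hq A hA τ hτ σ => ?_)
    exact dk1_inertia_fix S hpS k x w hx0 F hF hst hxF hw hord q hq A hA τ hτ σ
  refine ⟨K, hK, fun v hv => ?_⟩
  exact hv 1

/-- **Kummer** (seat DK1). -/
theorem root_mem_QS (hpS : pPrime p ∈ S) (k : ℕ) (x w : (AlgebraicClosure ℚ)ˣ)
    (hx : x ∈ smUnitsSub (levelsS S) galAct) (hw : w ^ p ^ k = x)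
    (hord : ∀ q : Nat.Primes, q ∉ S → ∀ A : ValuationSubring (AlgebraicClosure ℚ),
      A.LiesOverPrime (q : ℕ) →
        ∃ n : ℤ, HasOrdAt A q (x : AlgebraicClosure ℚ) ((p : ℤ) ^ k * n)) :
    w ∈ smUnitsSub (levelsS S) galAct := by
  obtain ⟨F, hF, hst, hxF⟩ := (mem_smUnitsSub_levelsS_iff S x).1 hx
  have hw' : (w : AlgebraicClosure ℚ) ^ p ^ k = (x : AlgebraicClosure ℚ) := by
    rw [← Units.val_pow_eq_pow_val, hw]
  obtain ⟨V, hV, h⟩ := dk1_root_level S hpS k (x : AlgebraicClosure ℚ) (w : AlgebraicClosure ℚ)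
    x.ne_zero F hF hst hxF hw' hord
  exact ⟨V, hV, fun v hv => h v hv⟩

/-- A `p`-th root of an `S`-unit of `ℚ_S` is an `S`-unit of `ℚ_S`. -/
lemma dk1_root_sUnit (hpS : pPrime p ∈ S) (u w : (AlgebraicClosure ℚ)ˣ)
    (hu : u ∈ smUnitsSub (levelsS S) galAct) (huS : IsSUnit S (u : AlgebraicClosure ℚ))
    (hw : w ^ p = u) :
    w ∈ smUnitsSub (levelsS S) galAct ∧ IsSUnit S (w : AlgebraicClosure ℚ) := by
  have hp : p.Prime := Fact.out
  refine ⟨root_mem_QS S hpS 1 u w hu (by rw [pow_one]; exact hw) (fun q hq A hA => ⟨0, ?_⟩),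
    fun q hq A hA => dk1_isUnitAt_of_pow hp.ne_zero ?_⟩
  · show IsUnitAt A ((u : AlgebraicClosure ℚ) * ((q : ℕ) : AlgebraicClosure ℚ) ^ (-((p : ℤ) ^ 1 * 0)))
    rw [mul_zero, neg_zero, zpow_zero, mul_one]
    exact huS q hq A hA
  · rw [← Units.val_pow_eq_pow_val, hw]
    exact huS q hq A hA

/-- `E` is `p`-divisible (seat DK1; from `root_mem_QS` with `k = 1`, `n = 0`). -/
theorem EsRep_div (hpS : pPrime p ∈ S) (x : EsRep S) : ∃ y : EsRep S, (p : ℤ) • y = x := by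
  have hp : p.Prime := Fact.out
  obtain ⟨w0, hw0⟩ := IsAlgClosed.exists_pow_nat_eq
    ((smUnits.val (x.1 : QSx S) : (AlgebraicClosure ℚ)ˣ) : AlgebraicClosure ℚ) hp.pos
  have hw0ne : w0 ≠ 0 := by
    rintro rfl
    rw [zero_pow hp.ne_zero] at hw0
    exact (smUnits.val (x.1 : QSx S)).ne_zero hw0.symm
  have hw : (Units.mk0 w0 hw0ne) ^ p = smUnits.val (x.1 : QSx S) := by
    apply Units.ext
    rw [Units.val_pow_eq_pow_val]
    exact hw0
  obtain ⟨h1, h2⟩ := dk1_root_sUnit S hpS _ _ (smUnits.val_mem _) x.2 hw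
  refine ⟨⟨smUnits.mk _ h1, h2⟩, ?_⟩
  apply Subtype.ext
  apply smUnits.val_injective
  show smUnits.val ((p : ℤ) • (smUnits.mk _ h1 : QSx S)) = _
  rw [smUnits.val_zsmul, smUnits.val_mk, zpow_natCast]
  exact hw

/-- `μ_p = E[p]`, equivariantly (seat DK1): `a ↦ ζ ^ a` for a primitive `p`-th root of
unity `ζ`; equivariance is the definition of `cycloChar`. -/
theorem exists_rootMap (hpS : pPrime p ∈ S) :
    ∃ φ : Fp1 p →+ EsRep S, Function.Injective φ ∧
      (∀ (g : GQ) (x : Fp1 p), φ ((Fp1 p).ρ g x) = (EsRep S).ρ g (φ x)) ∧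
      ∀ y : EsRep S, (p : ℤ) • y = 0 → ∃ x : Fp1 p, φ x = y := by
  have hp : p.Prime := Fact.out
  have : NeZero p := ⟨hp.ne_zero⟩
  obtain ⟨ζ, hζ⟩ : ∃ ζ : AlgebraicClosure ℚ, IsPrimitiveRoot ζ p :=
    HasEnoughRootsOfUnity.exists_primitiveRoot _ _
  have hζ0 : ζ ≠ 0 := hζ.ne_zero hp.ne_zero
  have hzp : (Units.mk0 ζ hζ0) ^ p = 1 := by
    apply Units.ext
    rw [Units.val_pow_eq_pow_val, Units.val_one]
    exact hζ.pow_eq_one
  obtain ⟨h1, h2⟩ := dk1_root_sUnit S hpS 1 (Units.mk0 ζ hζ0) (one_mem _)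
    (by rw [Units.val_one]; exact IsSUnit.one) hzp
  obtain ⟨y, hy⟩ : ∃ y : EsRep S, y = ⟨smUnits.mk _ h1, h2⟩ := ⟨_, rfl⟩
  have hval : ∀ m : ℤ, ((smUnits.val ((m • y : EsRep S).1 : QSx S) : (AlgebraicClosure ℚ)ˣ) :
      AlgebraicClosure ℚ) = ζ ^ m := by
    intro m
    rw [hy]
    show ((smUnits.val (m • (smUnits.mk _ h1 : QSx S)) : (AlgebraicClosure ℚ)ˣ) :
      AlgebraicClosure ℚ) = ζ ^ m
    rw [smUnits.val_zsmul, smUnits.val_mk, Units.val_zpow_eq_zpow_val]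
    rfl
  have hext : ∀ a b : EsRep S,
      ((smUnits.val (a.1 : QSx S) : (AlgebraicClosure ℚ)ˣ) : AlgebraicClosure ℚ) =
        ((smUnits.val (b.1 : QSx S) : (AlgebraicClosure ℚ)ˣ) : AlgebraicClosure ℚ) → a = b := by
    intro a b h
    exact Subtype.ext (smUnits.val_injective (Units.ext h))
  have hpy : (p : ℤ) • y = 0 := by
    apply hext
    rw [hval]
    show ζ ^ ((p : ℕ) : ℤ) = 1
    rw [zpow_natCast]
    exact hζ.pow_eq_one
  let φ : ZMod p →+ EsRep S :=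
    ZMod.lift p ⟨zmultiplesHom (EsRep S) y, by simpa using hpy⟩
  have hφ : ∀ m : ℤ, φ (m : ZMod p) = m • y := by
    intro m
    show ZMod.lift p _ (m : ZMod p) = _
    rw [ZMod.lift_coe]
    rfl
  refine ⟨φ, ?_, ?_, ?_⟩
  · show Function.Injective (ZMod.lift p _)
    rw [ZMod.lift_injective]
    intro m hm
    have h3 : m • y = 0 := hm
    have h4 := hval m
    rw [h3] at h4
    have h5 : ζ ^ m = 1 := h4.symm
    rw [hζ.zpow_eq_one_iff_dvd] at h5
    exact (ZMod.intCast_zmod_eq_zero_iff_dvd m p).2 h5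
  · intro g x
    obtain ⟨m, rfl⟩ : ∃ m : ℤ, ((m : ZMod p) : Fp1 p) = x := ⟨ZMod.cast (x : ZMod p), by
      exact ZMod.intCast_zmod_cast (x : ZMod p)⟩
    rw [br_smooth_Fp1_ρ]
    have e1 : ((cycloChar p g : (ZMod p)ˣ) : ZMod p) • ((m : ZMod p) : Fp1 p) =
        (((((cycloChar p g : (ZMod p)ˣ) : ZMod p).val : ℤ) * m : ℤ) : ZMod p) := by
      show ((cycloChar p g : (ZMod p)ˣ) : ZMod p) * (m : ZMod p) = _
      push_cast
      rw [ZMod.natCast_zmod_val]
    rw [e1]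
    have e2 : φ ((m : ZMod p) : Fp1 p) = m • y := hφ m
    have e3 : φ (((((cycloChar p g : (ZMod p)ˣ) : ZMod p).val : ℤ) * m : ℤ) : ZMod p) =
        ((((cycloChar p g : (ZMod p)ˣ) : ZMod p).val : ℤ) * m) • y := hφ _
    rw [e2]
    refine e3.trans ?_
    apply hext
    rw [hval]
    show _ = g ((smUnits.val ((m • y : EsRep S).1 : QSx S) : (AlgebraicClosure ℚ)ˣ) :
      AlgebraicClosure ℚ)
    rw [hval, map_zpow₀]
    have hspec : g ζ = ζ ^ ((cycloChar p g : (ZMod p)ˣ) : ZMod p).val := by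
      have h := modularCyclotomicCharacter.spec (AlgebraicClosure ℚ)
        (card_rootsOfUnity_eq_self p) (g : AlgebraicClosure ℚ ≃+* AlgebraicClosure ℚ)
        (t := Units.mk0 ζ hζ0) ((mem_rootsOfUnity p _).2 hzp)
      exact h
    rw [hspec, zpow_mul, zpow_natCast]
  · intro y' hy'
    have h3 : ((smUnits.val ((((p : ℤ) • y' : EsRep S)).1 : QSx S) : (AlgebraicClosure ℚ)ˣ) :
        AlgebraicClosure ℚ) = 1 := by
      rw [hy']
      rfl
    have h4 : ((smUnits.val (y'.1 : QSx S) : (AlgebraicClosure ℚ)ˣ) : AlgebraicClosure ℚ) ^ p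
        = 1 := by
      rw [← h3]
      show _ = ((smUnits.val ((p : ℤ) • (y'.1 : QSx S)) : (AlgebraicClosure ℚ)ˣ) :
        AlgebraicClosure ℚ)
      rw [smUnits.val_zsmul, zpow_natCast, Units.val_pow_eq_pow_val]
    obtain ⟨i, -, hi⟩ := hζ.eq_pow_of_pow_eq_one h4
    refine ⟨((i : ℤ) : ZMod p), ?_⟩
    refine (hφ (i : ℤ)).trans ?_
    apply hext
    rw [hval, zpow_natCast]
    exact hi

end Fermat.Agent.F4
end MergeWrap_F4_Dict_Kummer
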