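import Fermat.Agent.MU.F4.Cf.Defs
import Fermat.Agent.MU.F4.Datum
import Fermat.Agent.MU.F4.Dict.Kummer
import Fermat.Agent.MU.S17.W.Final

section MergeWrap_F4_Dict_TwoKummer -- from F4/Dict/TwoKummer.lean

/-!
# F4 / Dict / TwoKummer : the cyclic layer cut out by a `p`-th root (seat TWO, algebra part)

`U ≤ G_ℚ` a subgroup fixing the `p`-th roots of unity, `α ∈ ℚ̄ˣ` with `α ^ p` fixed by `U`.
Then `two_stab U α = {g ∈ U | g α = α}` is either `U` or a cyclic layer of degree `p` of `U`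
(`two_isCyc`), and two such layers coincide only if `α₂ = α₁ ^ b * β` with `β` fixed by `U`
(`two_eq_of_stab_eq`).
-/

set_option autoImplicit false

open CategoryTheory groupCohomology

namespace Fermat.Agent.F4Cf

open Fermat.Agent.F4

/-- The subgroup of `U` fixing `α`. -/
def two_stab (U : Subgroup GQ) (α : AlgebraicClosure ℚ) : Subgroup GQ where
  carrier := {g | g ∈ U ∧ g α = α}
  one_mem' := ⟨U.one_mem, rfl⟩
  mul_mem' := fun {a b} ha hb => ⟨U.mul_mem ha.1 hb.1, by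
    show a (b α) = α
    rw [hb.2, ha.2]⟩
  inv_mem' := fun {a} ha => ⟨U.inv_mem ha.1, by
    show a.symm α = α
    rw [AlgEquiv.symm_apply_eq]
    exact ha.2.symm⟩

lemma two_mem_stab {U : Subgroup GQ} {α : AlgebraicClosure ℚ} {g : GQ} :
    g ∈ two_stab U α ↔ g ∈ U ∧ g α = α := Iff.rfl

lemma two_stab_le (U : Subgroup GQ) (α : AlgebraicClosure ℚ) : two_stab U α ≤ U :=
  fun _ hg => hg.1

section Layer

variable {p : ℕ} {U : Subgroup GQ} {α : AlgebraicClosure ℚ}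

/-- `g α = ω α` with `ω ^ p = 1`. -/
lemma two_exists_root (hα : α ≠ 0) {g : GQ} (hg : g (α ^ p) = α ^ p) :
    ∃ ω : AlgebraicClosure ℚ, ω ^ p = 1 ∧ g α = ω * α := by
  refine ⟨g α * α⁻¹, ?_, ?_⟩
  · rw [mul_pow, ← map_pow, hg, inv_pow]
    exact mul_inv_cancel₀ (pow_ne_zero _ hα)
  · rw [mul_assoc, inv_mul_cancel₀ hα, mul_one]

/-- `σ ^ i α = ω ^ i α` if `σ` fixes `ω`. -/
lemma two_pow_apply {σ : GQ} {ω : AlgebraicClosure ℚ} (hω : σ ω = ω) (hσ : σ α = ω * α)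
    (i : ℕ) : (σ ^ i) α = ω ^ i * α := by
  induction i with
  | zero => simp
  | succ i ih =>
    rw [pow_succ]
    show (σ ^ i) (σ α) = _
    rw [hσ, map_mul, ih]
    have h1 : (σ ^ i) ω = ω := by
      clear ih
      induction i with
      | zero => rfl
      | succ j ihj =>
        rw [pow_succ]
        show (σ ^ j) (σ ω) = ω
        rw [hω, ihj]
    rw [h1, pow_succ]
    ring

/-- A nontrivial `p`-th root of unity generates all of them (`p` prime). -/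
lemma two_exists_pow (hp : p.Prime) {ω₀ ω : AlgebraicClosure ℚ} (h₀ : ω₀ ^ p = 1)
    (hne : ω₀ ≠ 1) (hω : ω ^ p = 1) : ∃ i : ℕ, i < p ∧ ω = ω₀ ^ i := by
  have : Fact p.Prime := ⟨hp⟩
  have hord : orderOf ω₀ = p := orderOf_eq_prime h₀ hne
  have hprim : IsPrimitiveRoot ω₀ p := by
    have := IsPrimitiveRoot.orderOf ω₀
    rwa [hord] at this
  obtain ⟨i, hi, h⟩ := hprim.eq_pow_of_pow_eq_one hω
  exact ⟨i, hi, h.symm⟩

variable (hp : p.Prime) (hμ : ∀ g ∈ U, ∀ t : AlgebraicClosure ℚ, t ^ p = 1 → g t = t)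
  (hα : α ≠ 0) (hx : ∀ g ∈ U, g (α ^ p) = α ^ p)

include hp hμ hα hx

/-- **The Kummer layer.**  If `σ ∈ U` moves `α`, then `{g ∈ U | g α = α}` is a cyclic layer of
degree `p` of `U`, generated by `σ`. -/
theorem two_isCyc {σ : GQ} (hσU : σ ∈ U) (hσ : σ α ≠ α) : IsCyc p U (two_stab U α) σ := by
  obtain ⟨ω₀, hω₀, hσα⟩ := two_exists_root hα (hx σ hσU)
  have hω₀ne : ω₀ ≠ 1 := by
    rintro rfl
    rw [one_mul] at hσα
    exact hσ hσα
  have hσω₀ : σ ω₀ = ω₀ := hμ σ hσU ω₀ hω₀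
  refine ⟨two_stab_le U α, ?_, hσU, fun h => hσ h.2, ?_, ?_⟩
  · intro u hu v hv
    refine ⟨U.mul_mem (U.mul_mem hu hv.1) (U.inv_mem hu), ?_⟩
    obtain ⟨ω, hω, huα⟩ := two_exists_root hα (hx u⁻¹ (U.inv_mem hu))
    show u (v (u⁻¹ α)) = α
    rw [huα, map_mul, hμ v hv.1 ω hω, hv.2, ← huα]
    exact u.apply_symm_apply α
  · refine ⟨U.pow_mem hσU p, ?_⟩
    rw [two_pow_apply hσω₀ hσα, hω₀, one_mul]
  · intro u hu
    obtain ⟨ω, hω, huα⟩ := two_exists_root hα (hx u hu)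
    obtain ⟨i, hi, hωi⟩ := two_exists_pow hp hω₀ hω₀ne hω
    refine ⟨i, hi, U.mul_mem (U.inv_mem (U.pow_mem hσU i)) hu, ?_⟩
    show (σ ^ i)⁻¹ (u α) = α
    rw [huα, hωi, ← two_pow_apply hσω₀ hσα]
    exact (σ ^ i).symm_apply_apply α

omit hx in
/-- **Distinct Kummer classes give distinct layers.**  If the layers of `α₁` and `α₂` coincide,
then `α₂ = α₁ ^ b * β` with `β` fixed by `U`. -/
theorem two_eq_of_stab_eq {α₂ : AlgebraicClosure ℚ} (hx₁ : ∀ g ∈ U, g (α ^ p) = α ^ p)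
    (hα₂ : α₂ ≠ 0) (hx₂ : ∀ g ∈ U, g (α₂ ^ p) = α₂ ^ p)
    (heq : two_stab U α = two_stab U α₂) {σ : GQ} (hσU : σ ∈ U) (hσ : σ α ≠ α) :
    ∃ (b : ℕ) (β : AlgebraicClosure ℚ), (∀ g ∈ U, g β = β) ∧ α₂ = α ^ b * β := by
  have hcyc := two_isCyc hp hμ hα hx₁ hσU hσ
  obtain ⟨ω₁, hω₁, hσα₁⟩ := two_exists_root hα (hx₁ σ hσU)
  obtain ⟨ω₂, hω₂, hσα₂⟩ := two_exists_root hα₂ (hx₂ σ hσU)
  have hω₁ne : ω₁ ≠ 1 := by
    rintro rfl
    rw [one_mul] at hσα₁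
    exact hσ hσα₁
  obtain ⟨b, -, hb⟩ := two_exists_pow hp hω₁ hω₁ne hω₂
  have hαb : α ^ b ≠ 0 := pow_ne_zero _ hα
  refine ⟨b, α₂ * (α ^ b)⁻¹, ?_, ?_⟩
  · -- `σ` fixes `β`
    have hσβ : σ (α₂ * (α ^ b)⁻¹) = α₂ * (α ^ b)⁻¹ := by
      rw [map_mul, map_inv₀, map_pow, hσα₁, hσα₂, hb, mul_pow]
      have hω₁b : ω₁ ^ b ≠ 0 := by
        apply pow_ne_zero
        intro h0
        rw [h0, zero_pow hp.ne_zero] at hω₁
        exact zero_ne_one hω₁
      field_simp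
    have hσiβ : ∀ i : ℕ, (σ ^ i) (α₂ * (α ^ b)⁻¹) = α₂ * (α ^ b)⁻¹ := by
      intro i
      induction i with
      | zero => rfl
      | succ j ihj =>
        rw [pow_succ]
        show (σ ^ j) (σ (α₂ * (α ^ b)⁻¹)) = _
        rw [hσβ, ihj]
    intro u hu
    obtain ⟨i, -, hmem⟩ := hcyc.gen u hu
    have hv₁ : ((σ ^ i)⁻¹ * u) α = α := hmem.2
    have hv₂ : ((σ ^ i)⁻¹ * u) α₂ = α₂ := by
      have : (σ ^ i)⁻¹ * u ∈ two_stab U α₂ := heq ▸ hmem
      exact this.2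
    have hvβ : ((σ ^ i)⁻¹ * u) (α₂ * (α ^ b)⁻¹) = α₂ * (α ^ b)⁻¹ := by
      rw [map_mul, map_inv₀, map_pow, hv₁, hv₂]
    have hu' : u = σ ^ i * ((σ ^ i)⁻¹ * u) := by group
    rw [hu']
    show (σ ^ i) (((σ ^ i)⁻¹ * u) (α₂ * (α ^ b)⁻¹)) = _
    rw [hvβ, hσiβ]
  · field_simp

end Layer

end Fermat.Agent.F4Cf
end MergeWrap_F4_Dict_TwoKummer

section MergeWrap_F4_Dict_TwoNT -- from F4/Dict/TwoNT.lean

/-!
# F4 / Dict / TwoNT : two independent Kummer classes over a number field `F ⊇ ℚ(μ_p)`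
(seat TWO, number theory part)

`U ≤ G_ℚ` open, fixing `μ_p`; `F = ℚ̄^U ⊆ L₀`, `L₀/ℚ` finite.

* `two_fix_mu` : `U ≤ ker (cycloChar p)` fixes the `p`-th roots of unity;
* `two_exists_zeta` : a `p`-power root of unity `ζ ∈ F` which is not a `p`-th power in `F`
  (`F` contains only finitely many roots of unity: degree of the cyclotomic polynomial);
* `two_exists_y` : `y ∈ F` with `y ^ p ^ n = p / ω`, `ω` a `p`-power root of unity, and
  `y ∉ μ_{p^∞}(F) · F^p` (`p` is not infinitely `p`-divisible modulo roots of unity: norm to `ℚ`).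
-/

set_option autoImplicit false

open CategoryTheory groupCohomology ExtCitation

namespace Fermat.Agent.F4Cf

open Fermat.Agent.F4

variable {p : ℕ} [Fact p.Prime]

/-- The kernel of the mod `p` cyclotomic character fixes the `p`-th roots of unity. -/
lemma two_fix_mu {U : Subgroup GQ} (hU0 : U ≤ MonoidHom.ker (cycloChar p)) :
    ∀ g ∈ U, ∀ t : AlgebraicClosure ℚ, t ^ p = 1 → g t = t := by
  intro g hg t ht
  have hp : p.Prime := Fact.out
  have : NeZero p := ⟨hp.ne_zero⟩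
  have : Fact (1 < p) := ⟨hp.one_lt⟩
  have hχ : cycloChar p g = 1 := MonoidHom.mem_ker.1 (hU0 hg)
  have ht0 : t ≠ 0 := by
    rintro rfl
    rw [zero_pow hp.ne_zero] at ht
    exact zero_ne_one ht
  have hmem : Units.mk0 t ht0 ∈ rootsOfUnity p (AlgebraicClosure ℚ) := by
    rw [mem_rootsOfUnity]
    apply Units.ext
    rw [Units.val_pow_eq_pow_val, Units.val_mk0, ht, Units.val_one]
  have h := modularCyclotomicCharacter.spec (AlgebraicClosure ℚ) (card_rootsOfUnity_eq_self p)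
    (g : AlgebraicClosure ℚ ≃+* AlgebraicClosure ℚ) hmem
  have hχ' : modularCyclotomicCharacter (AlgebraicClosure ℚ) (card_rootsOfUnity_eq_self p)
      (g : AlgebraicClosure ℚ ≃+* AlgebraicClosure ℚ) = 1 := hχ
  rw [hχ', Units.val_one, ZMod.val_one, pow_one] at h
  exact h

/-- Elements fixed by `U` lie in `L₀` if `Gal(ℚ̄/L₀) ≤ U`. -/
lemma two_mem_of_fixed {U : Subgroup GQ} {L₀ : IntermediateField ℚ (AlgebraicClosure ℚ)}
    (hle : L₀.fixingSubgroup ≤ U) {x : AlgebraicClosure ℚ} (hx : ∀ g ∈ U, g x = x) : x ∈ L₀ := by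
  apply Fermat.Agent.KFin.kf_fixedField_le U L₀ hle
  intro g
  exact hx g.1 g.2

/-- Degree bound: a primitive `n`-th root of unity in `L₀` forces `φ(n) ≤ [L₀ : ℚ]`. -/
lemma two_totient_le (L₀ : IntermediateField ℚ (AlgebraicClosure ℚ)) [FiniteDimensional ℚ L₀]
    {n : ℕ} (hn : 0 < n) {ζ : AlgebraicClosure ℚ} (hζ : IsPrimitiveRoot ζ n) (hmem : ζ ∈ L₀) :
    n.totient ≤ Module.finrank ℚ L₀ := by
  have hζ' : IsPrimitiveRoot (⟨ζ, hmem⟩ : L₀) n :=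
    IsPrimitiveRoot.of_map_of_injective (f := algebraMap L₀ (AlgebraicClosure ℚ)) hζ
      (algebraMap L₀ (AlgebraicClosure ℚ)).injective
  have h1 := Polynomial.cyclotomic_eq_minpoly_rat hζ' hn
  have h2 : (minpoly ℚ (⟨ζ, hmem⟩ : L₀)).natDegree ≤ Module.finrank ℚ L₀ := minpoly.natDegree_le _
  rw [← h1, Polynomial.natDegree_cyclotomic] at h2
  exact h2

/-- A `p`-th root of a primitive `p ^ (m + 1)`-th root of unity is a primitive
`p ^ (m + 2)`-th root of unity. -/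
lemma two_isPrimitiveRoot_root {m : ℕ} {ζ β : AlgebraicClosure ℚ}
    (hζ : IsPrimitiveRoot ζ (p ^ (m + 1))) (hβ : β ^ p = ζ) :
    IsPrimitiveRoot β (p ^ (m + 2)) := by
  have hp : p.Prime := Fact.out
  have h1 : β ^ p ^ (m + 2) = 1 := by
    rw [pow_succ' p (m + 1), pow_mul, hβ]
    exact hζ.pow_eq_one
  have h2 : ¬ β ^ p ^ (m + 1) = 1 := by
    intro h
    rw [pow_succ' p m, pow_mul, hβ] at h
    have hdvd := hζ.dvd_of_pow_eq_one _ h
    have hlt : p ^ m < p ^ (m + 1) := Nat.pow_lt_pow_right hp.one_lt (Nat.lt_succ_self m)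
    exact absurd (Nat.le_of_dvd (pow_pos hp.pos m) hdvd) (not_le.2 hlt)
  have hord : orderOf β = p ^ (m + 2) := orderOf_eq_prime_pow h2 h1
  have := IsPrimitiveRoot.orderOf β
  rwa [hord] at this

section Exists

variable (L₀ : IntermediateField ℚ (AlgebraicClosure ℚ)) [FiniteDimensional ℚ L₀]
  {U : Subgroup GQ} (hle : L₀.fixingSubgroup ≤ U)
  (hμ : ∀ g ∈ U, ∀ t : AlgebraicClosure ℚ, t ^ p = 1 → g t = t)

include hle hμ

/-- **First class.**  There is a `p`-power root of unity in `F = ℚ̄^U` which is not a `p`-th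
power in `F`. -/
theorem two_exists_zeta :
    ∃ (ζ : AlgebraicClosure ℚ) (m : ℕ), ζ ^ p ^ m = 1 ∧ (∀ g ∈ U, g ζ = ζ) ∧
      ∀ β : AlgebraicClosure ℚ, (∀ g ∈ U, g β = β) → β ^ p ≠ ζ := by
  have hp : p.Prime := Fact.out
  have : NeZero p := ⟨hp.ne_zero⟩
  by_contra H
  push Not at H
  -- primitive roots of all `p`-power orders are fixed by `U`
  have key : ∀ m : ℕ, ∃ ζ : AlgebraicClosure ℚ, IsPrimitiveRoot ζ (p ^ (m + 1)) ∧
      ∀ g ∈ U, g ζ = ζ := by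
    intro m
    induction m with
    | zero =>
      obtain ⟨ζ, hζ⟩ := HasEnoughRootsOfUnity.exists_primitiveRoot (AlgebraicClosure ℚ) p
      refine ⟨ζ, by rwa [zero_add, pow_one], fun g hg => hμ g hg ζ hζ.pow_eq_one⟩
    | succ m ih =>
      obtain ⟨ζ, hζ, hfix⟩ := ih
      obtain ⟨β, hβfix, hβ⟩ := H ζ (m + 1) hζ.pow_eq_one hfix
      exact ⟨β, two_isPrimitiveRoot_root hζ hβ, hβfix⟩
  obtain ⟨ζ, hζ, hfix⟩ := key (Module.finrank ℚ L₀)
  have h1 := two_totient_le L₀ (pow_pos hp.pos _) hζ (two_mem_of_fixed hle hfix)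
  rw [Nat.totient_prime_pow_succ hp] at h1
  have h2 : Module.finrank ℚ L₀ < p ^ Module.finrank ℚ L₀ := Nat.lt_pow_self hp.one_lt
  have h3 : p ^ Module.finrank ℚ L₀ ≤ p ^ Module.finrank ℚ L₀ * (p - 1) :=
    Nat.le_mul_of_pos_right _ (Nat.sub_pos_of_lt hp.one_lt)
  omega

omit hμ in
/-- Norm bound: if `p = ω y ^ p ^ n` with `ω` a root of unity and `ω, y ∈ F`, then
`n < [L₀ : ℚ]`. -/
lemma two_norm_bound {n m : ℕ} {ω y : AlgebraicClosure ℚ} (hω : ∀ g ∈ U, g ω = ω)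
    (hy : ∀ g ∈ U, g y = y) (hωm : ω ^ p ^ m = 1)
    (h : (p : AlgebraicClosure ℚ) = ω * y ^ p ^ n) : n < Module.finrank ℚ L₀ := by
  have hp : p.Prime := Fact.out
  have hωL : ω ∈ L₀ := two_mem_of_fixed hle hω
  have hyL : y ∈ L₀ := two_mem_of_fixed hle hy
  have h' : algebraMap ℚ L₀ (p : ℚ) = (⟨ω, hωL⟩ : L₀) * (⟨y, hyL⟩ : L₀) ^ p ^ n := by
    apply Subtype.ext
    simpa using h
  have hN := congrArg (Algebra.norm ℚ) h'
  rw [Algebra.norm_algebraMap, map_mul, map_pow] at hN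
  have hω1 : (Algebra.norm ℚ (⟨ω, hωL⟩ : L₀)) ^ p ^ m = 1 := by
    rw [← map_pow]
    have : (⟨ω, hωL⟩ : L₀) ^ p ^ m = 1 := Subtype.ext (by simpa using hωm)
    rw [this, map_one]
  have hpm : p ^ m ≠ 0 := pow_ne_zero _ hp.ne_zero
  have hω2 : |Algebra.norm ℚ (⟨ω, hωL⟩ : L₀)| = 1 := by
    have := congrArg abs hω1
    rw [abs_pow, abs_one] at this
    exact (pow_eq_one_iff_of_nonneg (abs_nonneg _) hpm).1 this
  have hN2 := congrArg abs hN
  rw [abs_mul, hω2, one_mul, abs_pow, abs_pow] at hN2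
  have hpabs : |(p : ℚ)| = p := abs_of_nonneg (Nat.cast_nonneg p)
  rw [hpabs] at hN2
  set z : ℚ := |Algebra.norm ℚ (⟨y, hyL⟩ : L₀)| with hz
  have hd : 0 < Module.finrank ℚ L₀ := Module.finrank_pos
  have hz0 : z ≠ 0 := by
    intro h0
    rw [h0, zero_pow (pow_ne_zero _ hp.ne_zero)] at hN2
    exact pow_ne_zero _ (Nat.cast_ne_zero.2 hp.ne_zero) hN2
  have hv := congrArg (padicValRat p) hN2
  rw [padicValRat.pow, padicValRat.pow, padicValRat.self hp.one_lt, mul_one] at hv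
  -- `d = p ^ n * v`
  have hdvd : ((p ^ n : ℕ) : ℤ) ∣ (Module.finrank ℚ L₀ : ℤ) := ⟨padicValRat p z, by
    rw [hv]⟩
  have hdvd' : p ^ n ∣ Module.finrank ℚ L₀ := Int.natCast_dvd_natCast.1 hdvd
  have h1 := Nat.le_of_dvd hd hdvd'
  have h2 : n < p ^ n := Nat.lt_pow_self hp.one_lt
  omega

omit hμ in
/-- **Second class.**  There are `n`, a `p`-power root of unity `ω ∈ F` and `y ∈ F` with
`p = ω y ^ p ^ n`, such that `y` is not in `μ_{p^∞}(F) · F^p`. -/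
theorem two_exists_y :
    ∃ (y ω : AlgebraicClosure ℚ) (n m : ℕ), (∀ g ∈ U, g y = y) ∧ (∀ g ∈ U, g ω = ω) ∧
      ω ^ p ^ m = 1 ∧ (p : AlgebraicClosure ℚ) = ω * y ^ p ^ n ∧
      ∀ (ω' β : AlgebraicClosure ℚ) (m' : ℕ), (∀ g ∈ U, g ω' = ω') → ω' ^ p ^ m' = 1 →
        (∀ g ∈ U, g β = β) → y ≠ ω' * β ^ p := by
  classical
  have hp : p.Prime := Fact.out
  let P : ℕ → Prop := fun n => ∃ (y ω : AlgebraicClosure ℚ) (m : ℕ), (∀ g ∈ U, g y = y) ∧
    (∀ g ∈ U, g ω = ω) ∧ ω ^ p ^ m = 1 ∧ (p : AlgebraicClosure ℚ) = ω * y ^ p ^ n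
  have hP0 : P 0 := by
    refine ⟨p, 1, 0, fun g _ => map_natCast g p, fun g _ => map_one g, one_pow _, ?_⟩
    rw [pow_zero, pow_one, one_mul]
  have hbound : ∀ n, P n → n < Module.finrank ℚ L₀ := by
    rintro n ⟨y, ω, m, hy, hω, hωm, h⟩
    exact two_norm_bound L₀ hle hω hy hωm h
  -- a maximal `n`
  have hmax : ∃ n, P n ∧ ¬ P (n + 1) := by
    by_contra hcon
    push Not at hcon
    have hall : ∀ n, P n := by
      intro n
      induction n with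
      | zero => exact hP0
      | succ k ih => exact hcon k ih
    exact absurd (hbound _ (hall (Module.finrank ℚ L₀))) (lt_irrefl _)
  obtain ⟨n, ⟨y, ω, m, hy, hω, hωm, h⟩, hn⟩ := hmax
  refine ⟨y, ω, n, m, hy, hω, hωm, h, fun ω' β m' hω' hω'm hβ hyβ => hn ?_⟩
  refine ⟨β, ω * ω' ^ p ^ n, m + m', hβ, fun g hg => ?_, ?_, ?_⟩
  · rw [map_mul, map_pow, hω g hg, hω' g hg]
  · rw [mul_pow, ← pow_mul, pow_add]
    have e1 : ω ^ (p ^ m * p ^ m') = 1 := by rw [pow_mul, hωm, one_pow]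
    have e2 : ω' ^ (p ^ n * (p ^ m * p ^ m')) = 1 := by
      rw [show p ^ n * (p ^ m * p ^ m') = p ^ m' * (p ^ n * p ^ m) by ring, pow_mul, hω'm,
        one_pow]
    rw [e1, e2, one_mul]
  · rw [h, hyβ, mul_pow, ← pow_mul, pow_succ' p n, mul_assoc]

end Exists

end Fermat.Agent.F4Cf
end MergeWrap_F4_Dict_TwoNT
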