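import Fermat.Agent.MU.F4.Dict.HasseAbs

section MergeWrap_F4_Dict_ExistAbs -- from F4/Dict/ExistAbs.lean

/-!
# F4 / Dict / ExistAbs : the existence axiom of `PCF` for a presented formation
(derivation `dict_exist`, abstract assembly; helper91)

`K : KForm G` (`Q`, `E`, `J`, `d`, `C = J / d(E)`), `U` a level, `N = cnorm · p σ` for the cyclic
layers `(U, V, σ)` of degree `p`.  Inputs:

* `hpres` (**K1** for `U` and for the layers `V`) : `C^V = pr (J^V + d T_V)`;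
* `happ` (**K3 i + ii**, weak approximation and Hensel) : `J^U = d (Q^U) + p J^U`;
* `hex` (**existence theorem at finite level**, `KForm.ExistFinAt`) : if the ideal of `t ∈ T_U` is,
  for every layer, a norm up to a principal ideal `(f)`, `f` a local norm at the places of `J`,
  then `m t ≡ a + p s` modulo `E` with `p ∤ m`, `a ∈ Q^U` a local `p`-th power (`d a ∈ p J^U`),
  `s ∈ T_U`.

Output: `a ∈ C^U`, a norm from every layer ⟹ `m a = p b` with `p ∤ m`, `b ∈ C^U`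
(`KForm.exist_of`).
-/

set_option autoImplicit false

open CategoryTheory groupCohomology

namespace Fermat.Agent.F4

open Fermat.Agent.F4Cf

namespace KForm

variable {G : Type} [Group G] (K : KForm G)

/-- Weak approximation and Hensel: `J^U = d (Q^U) + p J^U`. -/
def ApproxAt (p : ℕ) (U : Subgroup G) : Prop :=
  ∀ x ∈ K.JU U, ∃ f ∈ K.QU U, ∃ z ∈ K.JU U, x = K.d f + p • z

/-- `t ∈ T_U` is a norm from the layer `(U, V, σ)` up to a principal part which is a local norm: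
`t ≡ N t' + f` modulo `E`, `t' ∈ T_V`, `f ∈ Q^U`, `d f ∈ N (J^V)`. -/
def IsNormIdealAt (p : ℕ) (U V : Subgroup G) (σ : G) (t : K.Q) : Prop :=
  ∃ t' ∈ K.TU V, ∃ f ∈ K.QU U, (∃ x ∈ K.JU V, cnorm K.J p σ x = K.d f) ∧
    t - cnorm K.Q p σ t' - f ∈ K.E

/-- The existence theorem for exponent `p` at the level `U`, formation form. -/
def ExistFinAt (𝓤 : Levels G) (p : ℕ) (U : Subgroup G) : Prop :=
  ∀ t ∈ K.TU U,
    (∀ (V : Subgroup G) (σ : G), 𝓤.IsOpen V → IsCyc p U V σ → K.IsNormIdealAt p U V σ t) →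
    ∃ m : ℕ, ¬ p ∣ m ∧ ∃ a ∈ K.QU U, ∃ s ∈ K.TU U, (∃ z ∈ K.JU U, K.d a = p • z) ∧
      m • t - a - p • s ∈ K.E

variable {p : ℕ} {U : Subgroup G}

/-- `pr z ∈ C^U` for `z ∈ J^U`. -/
lemma fix_pr {z : K.J} (hz : z ∈ K.JU U) : Fix K.C U (K.pr z) := fun g hg => by
  rw [← K.pr_comm, hz g hg]

/-- On `A^U` the norm of a layer `(U, V, σ)` is multiplication by `p`. -/
lemma cnorm_of_fix (A : Rep.{0} ℤ G) {σ : G} (hσ : σ ∈ U) {c : A}
    (hc : Fix A U c) : cnorm A p σ c = p • c := by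
  unfold cnorm
  rw [Finset.sum_congr rfl fun i _ => hc _ (U.pow_mem hσ i)]
  simp

variable [Fact p.Prime]

/-- **Norm analysis.**  If `pr (d t) + p • pr z` (`t ∈ T_U`, `z ∈ J^U`) is a norm from the layer
`(U, V, σ)`, then `t` is a norm ideal up to a local norm. -/
theorem isNormIdealAt_of_isNormFrom {V : Subgroup G} {σ : G} (hc : IsCyc p U V σ)
    (hpres : K.PresAt V) {t : K.Q} {z : K.J} (hz : z ∈ K.JU U)
    (hN : IsNormFrom K.C p V σ (K.pr (p • z + K.d t))) : K.IsNormIdealAt p U V σ t := by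
  obtain ⟨y, hy, hNy⟩ := hN
  obtain ⟨x', hx', t', ht', rfl⟩ := hpres y hy
  have hzV : z ∈ K.JU V := K.JU_anti hc.le hz
  have hNz : cnorm K.J p σ z = p • z := cnorm_of_fix K.J hc.mem hz
  -- `pr (N (x' - z) + d (N t' - t)) = 0`
  have h0 : K.pr (cnorm K.J p σ (x' - z) + K.d (cnorm K.Q p σ t' - t)) = 0 := by
    have e : cnorm K.J p σ (x' - z) + K.d (cnorm K.Q p σ t' - t) =
        cnorm K.J p σ (x' + K.d t') - (p • z + K.d t) := by
      rw [cnorm_sub, cnorm_add, K.cnorm_d, K.d_sub, hNz]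
      abel
    rw [e, K.pr_sub, ← K.cnorm_pr, ← hNy, sub_self]
  have hx1 : x' - z ∈ K.JU V := (K.JU V).sub_mem hx' hzV
  obtain ⟨f, ε, hf, hε, hxf, htf⟩ := K.ker (U := U) (acf3_fix_cnorm hc hx1) h0
  refine ⟨t', ht', f, hf, ⟨x' - z, hx1, hxf⟩, ?_⟩
  have e : t - cnorm K.Q p σ t' - f = -ε := by
    have : t = cnorm K.Q p σ t' - (ε - f) := by rw [← htf]; abel
    rw [this]; abel
  rw [e]
  exact K.E.neg_mem hε

/-- **The existence axiom** for a presented formation. -/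
theorem exist_of (𝓤 : Levels G) (hpresU : K.PresAt U)
    (hpresV : ∀ (V : Subgroup G) (σ : G), 𝓤.IsOpen V → IsCyc p U V σ → K.PresAt V)
    (happ : K.ApproxAt p U) (hex : K.ExistFinAt 𝓤 p U) (a : K.C) (ha : Fix K.C U a)
    (hall : ∀ (V : Subgroup G) (σ : G), 𝓤.IsOpen V → IsCyc p U V σ → IsNormFrom K.C p V σ a) :
    ∃ (m : ℕ) (b : K.C), ¬ p ∣ m ∧ Fix K.C U b ∧ m • a = p • b := by
  obtain ⟨x, hx, t, ht, rfl⟩ := hpresU a ha
  obtain ⟨f, hf, z, hz, rfl⟩ := happ x hx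
  have ht1 : t + f ∈ K.TU U := (K.TU U).add_mem ht (K.QU_le_TU U hf)
  have e0 : K.d f + p • z + K.d t = p • z + K.d (t + f) := by
    rw [K.d_add]; abel
  rw [e0] at hall ⊢
  obtain ⟨m, hm, a0, ha0, s, hs, ⟨z0, hz0, hdz0⟩, hE⟩ := hex (t + f) ht1
    fun V σ hV hc => K.isNormIdealAt_of_isNormFrom hc (hpresV V σ hV hc) hz (hall V σ hV hc)
  refine ⟨m, K.pr ((m • z + z0) + K.d s), hm,
    K.fix ((K.JU U).add_mem ((K.JU U).nsmul_mem hz m) hz0) hs, ?_⟩
  have e1 : m • (p • z + K.d (t + f)) =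
      p • ((m • z + z0) + K.d s) + K.d (m • (t + f) - a0 - p • s) := by
    rw [K.d_sub, K.d_sub, K.d_nsmul, K.d_nsmul, hdz0, smul_add, smul_add, smul_add,
      smul_comm m p z]
    abel
  rw [← K.pr_nsmul, e1, K.pr_add, K.pr_d_of_mem hE, add_zero, K.pr_nsmul]

end KForm

end Fermat.Agent.F4
end MergeWrap_F4_Dict_ExistAbs
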