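import Fermat.Agent.MU.F4.Glob.Compl.Bridge
import Fermat.Agent.MU.F4.Loc.Base
import Fermat.Agent.F4.Loc.KummerFin
import Fermat.Agent.MU.F4.Dict.JHensel
import Fermat.Agent.MU.S17.W.Final
import Fermat.Agent.MU.F4.Dict.ExistAbs
import Fermat.Agent.MU.F4.Dict.KappaPres
import Fermat.Agent.MU.F4.Dict.DivFin
import Fermat.Agent.MU.S14.SI.TameH1
import Fermat.Agent.MU.S14.SI.ThetaCount

section MergeWrap_F4_Glob_Compl_Pow -- from F4/Glob/Compl/Pow.lean

/-!
# F4 / GLOB / Compl : `p`-th powers in the completion (D4-ii)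

`j : F →+* PadicAlgCl q`, `v = primeOf j`, `F_v = complOf j = ℚ_q(j(F))`.

* `finiteDimensional_complOf` : `F_v` is finite over `ℚ_q` (so it is a local field:
  `F4.Loc.padicVal_isLocalVal`);
* `complPow j p` : the subgroup `(F_vˣ)^p` of `(PadicAlgCl q)ˣ`;
* `map_mem_complPow_iff` : for `k` with `‖j π‖ ^ k ≤ ‖p‖ ^ 2`,
  `j a ∈ (F_vˣ)^p ↔ a ∈ (Fˣ)^p · U_v^{(k+1)}`.
-/

set_option autoImplicit false
set_option linter.unusedSectionVars false

open NumberField IsDedekindDomain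
open scoped NNReal

namespace Fermat.Agent.F4G

variable {q : ℕ} [Fact q.Prime] {F : Type*} [Field F] [NumberField F] (j : F →+* PadicAlgCl q)

/-- The completion is generated by the image of a primitive element. -/
theorem complOf_eq_adjoin_singleton {θ : F} (hθ : IntermediateField.adjoin ℚ {θ} = ⊤) :
    complOf j = IntermediateField.adjoin ℚ_[q] {j θ} := by
  apply le_antisymm
  · rw [IntermediateField.adjoin_le_iff]
    rintro _ ⟨a, rfl⟩
    let K' : IntermediateField ℚ F :=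
      Subfield.toIntermediateField
        ((IntermediateField.adjoin ℚ_[q] {j θ}).toSubfield.comap j)
        (fun x => by
          show j (algebraMap ℚ F x) ∈ (IntermediateField.adjoin ℚ_[q] {j θ}).toSubfield
          rw [eq_ratCast, map_ratCast]
          exact SubfieldClass.ratCast_mem _ x)
    have hθK : θ ∈ K' := by
      show j θ ∈ IntermediateField.adjoin ℚ_[q] {j θ}
      exact IntermediateField.mem_adjoin_simple_self _ _
    have htop : (⊤ : IntermediateField ℚ F) ≤ K' := by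
      rw [← hθ, IntermediateField.adjoin_le_iff]
      rintro x hx
      rw [Set.mem_singleton_iff] at hx
      rw [hx]
      exact hθK
    have ha : a ∈ K' := htop IntermediateField.mem_top
    exact ha
  · apply IntermediateField.adjoin.mono
    rintro x hx
    rw [Set.mem_singleton_iff] at hx
    exact ⟨θ, hx.symm⟩

/-- The completion is finite over `ℚ_q`. -/
theorem finiteDimensional_complOf : FiniteDimensional ℚ_[q] ↥(complOf j) := by
  obtain ⟨θ, hθ⟩ := Field.exists_primitive_element ℚ F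
  rw [complOf_eq_adjoin_singleton j hθ]
  exact IntermediateField.adjoin.finiteDimensional (Algebra.IsIntegral.isIntegral _)

/-- The `p`-th powers of the nonzero elements of the completion. -/
def complPow (p : ℕ) : Subgroup (PadicAlgCl q)ˣ where
  carrier := {y | ∃ z : (PadicAlgCl q)ˣ, (z : PadicAlgCl q) ∈ complOf j ∧ z ^ p = y}
  one_mem' := ⟨1, by simp, one_pow p⟩
  mul_mem' := by
    rintro _ _ ⟨z, hz, rfl⟩ ⟨z', hz', rfl⟩
    exact ⟨z * z', by rw [Units.val_mul]; exact mul_mem hz hz', mul_pow z z' p⟩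
  inv_mem' := by
    rintro _ ⟨z, hz, rfl⟩
    exact ⟨z⁻¹, by rw [Units.val_inv_eq_inv_val]; exact inv_mem hz, inv_pow z p⟩

lemma mem_complPow {p : ℕ} {y : (PadicAlgCl q)ˣ} :
    y ∈ complPow j p ↔ ∃ z : (PadicAlgCl q)ˣ, (z : PadicAlgCl q) ∈ complOf j ∧ z ^ p = y :=
  Iff.rfl

/-- Openness: an element of the completion close to `1` is a `p`-th power. -/
theorem exists_pow_eq_of_norm_lt {p : ℕ} (hp : p.Prime) {u : PadicAlgCl q}
    (hu : u ∈ complOf j) (h : ‖u - 1‖ < ‖(p : PadicAlgCl q)‖ ^ 2) :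
    ∃ z : PadicAlgCl q, z ∈ complOf j ∧ z ^ p = u := by
  have hfd := finiteDimensional_complOf j
  have hloc := Fermat.Agent.F4.Loc.padicVal_isLocalVal q (complOf j)
  have hclose : Fermat.Agent.F4.Loc.resVal (complOf j) (Fermat.Agent.F4.Loc.padicVal q)
      ((⟨u, hu⟩ : complOf j) - 1) <
      Fermat.Agent.F4.Loc.resVal (complOf j) (Fermat.Agent.F4.Loc.padicVal q)
        ((p : ℕ) : complOf j) ^ 2 := by
    rw [Fermat.Agent.F4.Loc.resVal_apply, Fermat.Agent.F4.Loc.resVal_apply,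
      Fermat.Agent.F4.Loc.padicVal_apply, Fermat.Agent.F4.Loc.padicVal_apply]
    have e1 : algebraMap (complOf j) (PadicAlgCl q) ((⟨u, hu⟩ : complOf j) - 1) = u - 1 := by
      rw [map_sub, map_one]; rfl
    have e2 : algebraMap (complOf j) (PadicAlgCl q) ((p : ℕ) : complOf j) = (p : PadicAlgCl q) :=
      map_natCast _ p
    rw [e1, e2]
    exact_mod_cast h
  obtain ⟨x, hx⟩ := Fermat.Agent.F4.Loc.exists_pow_eq_of_close _ hloc p hp _ hclose
  refine ⟨(x : PadicAlgCl q), x.2, ?_⟩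
  have := congrArg (fun t : complOf j => (t : PadicAlgCl q)) hx
  simpa using this

omit [NumberField F] in
/-- `‖t ^ n - 1‖ ≤ ‖t - 1‖` for `t` close to `1`. -/
lemma norm_pow_sub_one_le {t : PadicAlgCl q} (h : ‖t - 1‖ ≤ 1) (n : ℕ) :
    ‖t ^ n - 1‖ ≤ ‖t - 1‖ := by
  have ht : ‖t‖ ≤ 1 := by
    have e : t = (t - 1) + 1 := by ring
    rw [e]
    exact (IsUltrametricDist.norm_add_le_max _ _).trans (max_le h (by rw [norm_one]))
  induction n with
  | zero => simp
  | succ n ih =>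
    have e : t ^ (n + 1) - 1 = t ^ n * (t - 1) + (t ^ n - 1) := by ring
    rw [e]
    refine (IsUltrametricDist.norm_add_le_max _ _).trans (max_le ?_ ih)
    rw [norm_mul, norm_pow]
    exact mul_le_of_le_one_left (norm_nonneg _) (pow_le_one₀ (norm_nonneg _) ht)

/-- **(D4-ii)** `j a` is a `p`-th power in the completion iff `a ∈ (Fˣ)^p · U_v^{(k+1)}`, for
`k` large (`‖j π‖ ^ k ≤ ‖p‖ ^ 2`). -/
theorem map_mem_complPow_iff {p : ℕ} (hp : p.Prime) {π : F}
    (hπ : (primeOf j).valuation F π = WithZero.exp (-1 : ℤ)) (k : ℕ)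
    (hk : ‖j π‖ ^ k ≤ ‖(p : PadicAlgCl q)‖ ^ 2) (a : Fˣ) :
    Units.map (j : F →* PadicAlgCl q) a ∈ complPow j p ↔
      a ∈ (powMonoidHom p : Fˣ →* Fˣ).range ⊔ oneModSubgroup F (primeOf j) k := by
  refine mem_preimage_iff j hπ (complPow j p) _ k ?_ ?_ ?_ a
  · intro a' ha'
    obtain ⟨z, hz, hzp⟩ := exists_pow_eq_of_norm_lt j hp (map_mem_complOf j (a' : F))
      (lt_of_lt_of_le ha' hk)
    have hz0 : z ≠ 0 := by
      rintro rfl
      rw [zero_pow hp.ne_zero] at hzp
      exact (map_ne_zero j).mpr a'.ne_zero hzp.symm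
    refine ⟨Units.mk0 z hz0, hz, ?_⟩
    apply Units.ext
    rw [Units.val_pow_eq_pow_val, Units.val_mk0, hzp]
    rfl
  · rintro _ ⟨c, rfl⟩
    refine ⟨Units.map (j : F →* PadicAlgCl q) c, map_mem_complOf j (c : F), ?_⟩
    rw [powMonoidHom_apply, map_pow]
  · rintro _ ⟨z, hz, rfl⟩ - ε hε
    have hε' : 0 < min ε 1 := lt_min hε one_pos
    obtain ⟨c, hc⟩ := exists_unit_approx j hz z.ne_zero hε'
    refine ⟨c ^ p, ⟨c, rfl⟩, ?_⟩
    have e : ((z ^ p : (PadicAlgCl q)ˣ) : PadicAlgCl q) / j ((c ^ p : Fˣ) : F) =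
        ((z : PadicAlgCl q) / j (c : F)) ^ p := by
      rw [Units.val_pow_eq_pow_val, Units.val_pow_eq_pow_val, map_pow, div_pow]
    rw [e]
    have h1 : ‖(z : PadicAlgCl q) / j (c : F) - 1‖ ≤ 1 := (hc.trans_le (min_le_right _ _)).le
    exact (norm_pow_sub_one_le h1 p).trans_lt (hc.trans_le (min_le_left _ _))

/-- **(D4-ii)**, existence form: for `k` large, `j a ∈ (F_vˣ)^p ↔ a ∈ (Fˣ)^p · U_v^{(k+1)}`. -/
theorem exists_forall_map_mem_complPow_iff {p : ℕ} (hp : p.Prime) :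
    ∃ k₀ : ℕ, ∀ k : ℕ, k₀ ≤ k → ∀ a : Fˣ,
      (Units.map (j : F →* PadicAlgCl q) a ∈ complPow j p ↔
        a ∈ (powMonoidHom p : Fˣ →* Fˣ).range ⊔ oneModSubgroup F (primeOf j) k) := by
  obtain ⟨π, hπ⟩ := (primeOf j).valuation_exists_uniformizer F
  have hpos := norm_unif_pos j hπ
  have hlt := norm_unif_lt_one j hπ
  have hp0 : 0 < ‖(p : PadicAlgCl q)‖ ^ 2 := by
    apply pow_pos
    rw [norm_pos_iff]
    exact_mod_cast hp.ne_zero
  obtain ⟨k₀, hk₀⟩ := exists_pow_lt_of_lt_one hp0 hlt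
  refine ⟨k₀, fun k hk a => map_mem_complPow_iff j hp hπ k ?_ a⟩
  exact (pow_le_pow_of_le_one hpos.le hlt.le hk).trans hk₀.le

end Fermat.Agent.F4G
end MergeWrap_F4_Glob_Compl_Pow

section MergeWrap_F4_Dict_JHenselPow -- from F4/Dict/JHenselPow.lean

/-!
# F4 / Dict / JHenselPow : local `p`-th powers are `p`-th powers in `J^U`
(seat K3ii of DICT, second half; owner helper49)

`L : OpenS S`, `F = L.field`, `ζ ∈ F` a primitive `p`-th root of unity, `f ∈ Fˣ` a local `p`-th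
power at every prime of `F` over `S` (`S14SI.IsLocalPow`: `v (f y ^ p - 1) < v (ζ - 1) ^ p`).
Then `diagJ f ∈ p • J^U` (`OpenS.diagJ_mem_smul_of_isLocalPow`).

The `p`-th root at `(q, g)` is `w / j y`, `j = L.emb q g`, `w` the unique `p`-th root of
`j (f y ^ p)` with `‖w - 1‖ < ‖ζ' - 1‖` (`ζ'` any nontrivial `p`-th root of unity of
`PadicAlgCl q`: the sharp radius); uniqueness makes the family equivariant.
-/

set_option autoImplicit false
set_option synthInstance.maxHeartbeats 400000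
set_option linter.style.haveILetI false

open CategoryTheory groupCohomology ExtCitation
open NumberField IsDedekindDomain

namespace Fermat.Agent.F4

attribute [local instance] fact_prime_coe49

/-! ### The sharp radius -/

section Sharp

variable {q : ℕ} [Fact q.Prime]

/-- A root of unity has norm `1`. -/
lemma norm_eq_one_of_pow_eq_one {p : ℕ} (hp : 0 < p) {ζ : PadicAlgCl q} (hζ : ζ ^ p = 1) :
    ‖ζ‖ = 1 := by
  have h := congrArg norm hζ
  rw [norm_pow, norm_one] at h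
  exact (pow_eq_one_iff_of_nonneg (norm_nonneg ζ) hp.ne').1 h

lemma norm_root_sub_one_le_one {p : ℕ} (hp : 0 < p) {ζ : PadicAlgCl q} (hζ : ζ ^ p = 1) :
    ‖ζ - 1‖ ≤ 1 := by
  have e : ζ - 1 = ζ + (-1) := by ring
  rw [e]
  refine (IsUltrametricDist.norm_add_le_max _ _).trans (max_le ?_ ?_)
  · exact (norm_eq_one_of_pow_eq_one hp hζ).le
  · rw [norm_neg, norm_one]

/-- For `p` prime, all nontrivial `p`-th roots of unity are at the same distance from `1`. -/
lemma norm_root_sub_one_le {p : ℕ} (hp : p.Prime) {ζ ζ' : PadicAlgCl q} (hζ : ζ ^ p = 1)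
    (hζ1 : ζ ≠ 1) (hζ' : ζ' ^ p = 1) : ‖ζ' - 1‖ ≤ ‖ζ - 1‖ := by
  have hprim : IsPrimitiveRoot ζ p := by
    rw [IsPrimitiveRoot.iff_orderOf]
    have hdvd : orderOf ζ ∣ p := orderOf_dvd_of_pow_eq_one hζ
    rcases (Nat.dvd_prime hp).1 hdvd with h1 | h1
    · exact absurd (orderOf_eq_one_iff.1 h1) hζ1
    · exact h1
  haveI : NeZero p := ⟨hp.ne_zero⟩
  obtain ⟨i, -, hi⟩ := hprim.eq_pow_of_pow_eq_one hζ'
  rw [← hi]
  exact F4G.norm_pow_sub_one_le (norm_root_sub_one_le_one hp.pos hζ) i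

lemma norm_root_sub_one_eq {p : ℕ} (hp : p.Prime) {ζ ζ' : PadicAlgCl q} (hζ : ζ ^ p = 1)
    (hζ1 : ζ ≠ 1) (hζ' : ζ' ^ p = 1) (hζ'1 : ζ' ≠ 1) : ‖ζ' - 1‖ = ‖ζ - 1‖ :=
  le_antisymm (norm_root_sub_one_le hp hζ hζ1 hζ') (norm_root_sub_one_le hp hζ' hζ'1 hζ)

end Sharp

/-! ### Comparison of valuations and norms -/

section Compare

variable {q : ℕ} [Fact q.Prime] {F : Type*} [Field F] [NumberField F] (j : F →+* PadicAlgCl q)

/-- `v x < v y ^ n  ⇒  ‖j x‖ < ‖j y‖ ^ n` for `v = primeOf j`. -/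
lemma norm_lt_pow_of_valuation_lt {x y : F} (hy : y ≠ 0) (n : ℕ)
    (h : (F4G.primeOf j).valuation F x < (F4G.primeOf j).valuation F y ^ n) :
    ‖j x‖ < ‖j y‖ ^ n := by
  obtain ⟨π, hπ⟩ := (F4G.primeOf j).valuation_exists_uniformizer F
  have hvy : (F4G.primeOf j).valuation F y ≠ 0 := (Valuation.ne_zero_iff _).mpr hy
  set m : ℤ := -WithZero.log ((F4G.primeOf j).valuation F y) with hm
  have hym : (F4G.primeOf j).valuation F y = WithZero.exp (-m) := by
    rw [hm, neg_neg, WithZero.exp_log hvy]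
  have h1 : ‖j y‖ ^ n = ‖j π‖ ^ ((n : ℤ) * m) := by
    rw [F4G.norm_eq_zpow j hπ hym, ← zpow_natCast, ← zpow_mul, mul_comm]
  rw [h1, F4G.norm_lt_zpow_iff j hπ]
  have h2 : (F4G.primeOf j).valuation F y ^ n = WithZero.exp (-((n : ℤ) * m)) := by
    rw [hym, ← WithZero.exp_nsmul]
    congr 1
    simp only [nsmul_eq_mul]
    ring
  rw [← h2]
  exact h

end Compare

/-! ### The root with the sharp radius -/

section SharpRoot

variable (q : Nat.Primes) (p : ℕ)

open Classical in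
/-- The distance to `1` of the nontrivial `p`-th roots of unity of `PadicAlgCl q`
(`p` prime; junk value `1` if there is none). -/
noncomputable def sharpRad : ℝ :=
  if h : ∃ ζ : PadicAlgCl (q : ℕ), ζ ^ p = 1 ∧ ζ ≠ 1 then ‖Classical.choose h - 1‖ else 1

variable {p}

lemma sharpRad_eq (hp : p.Prime) {ζ : PadicAlgCl (q : ℕ)} (hζ : ζ ^ p = 1) (hζ1 : ζ ≠ 1) :
    sharpRad q p = ‖ζ - 1‖ := by
  have h : ∃ ζ : PadicAlgCl (q : ℕ), ζ ^ p = 1 ∧ ζ ≠ 1 := ⟨ζ, hζ, hζ1⟩
  unfold sharpRad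
  rw [dif_pos h]
  exact norm_root_sub_one_eq hp hζ hζ1 (Classical.choose_spec h).1 (Classical.choose_spec h).2

lemma sharpRad_pos (_hp : p.Prime) : 0 < sharpRad q p := by
  unfold sharpRad
  split_ifs with h
  · exact norm_pos_iff.2 (sub_ne_zero.2 (Classical.choose_spec h).2)
  · exact one_pos

lemma sharpRad_le_one (hp : p.Prime) : sharpRad q p ≤ 1 := by
  unfold sharpRad
  split_ifs with h
  · exact norm_root_sub_one_le_one hp.pos (Classical.choose_spec h).1
  · exact le_rfl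

lemma sharpRad_le (hp : p.Prime) (ζ : PadicAlgCl (q : ℕ)) (hζ : ζ ^ p = 1) (hζ1 : ζ ≠ 1) :
    sharpRad q p ≤ ‖ζ - 1‖ := (sharpRad_eq q hp hζ hζ1).le

variable (p)

open Classical in
/-- The `p`-th root near `1`, with the sharp radius (junk value `1` if there is none). -/
noncomputable def sharpRoot (u : PadicAlgCl (q : ℕ)) : PadicAlgCl (q : ℕ) :=
  if h : ∃ w : PadicAlgCl (q : ℕ), w ^ p = u ∧ ‖w - 1‖ < sharpRad q p then
    Classical.choose h else 1

variable {p}

lemma sharpRoot_spec (hp : p.Prime) {u : PadicAlgCl (q : ℕ)}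
    (hu : ‖u - 1‖ < sharpRad q p ^ p) :
    sharpRoot q p u ^ p = u ∧ ‖sharpRoot q p u - 1‖ < sharpRad q p := by
  have h : ∃ w : PadicAlgCl (q : ℕ), w ^ p = u ∧ ‖w - 1‖ < sharpRad q p :=
    exists_nearRoot hp.pos (sharpRad_pos q hp) hu
  unfold sharpRoot
  rw [dif_pos h]
  exact Classical.choose_spec h

lemma sharpRoot_map (hp : p.Prime)
    (σ : PadicAlgCl (q : ℕ) ≃ₐ[ℚ_[(q : ℕ)]] PadicAlgCl (q : ℕ))
    {u : PadicAlgCl (q : ℕ)} (hu : ‖u - 1‖ < sharpRad q p ^ p) :
    sharpRoot q p (σ u) = σ (sharpRoot q p u) := by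
  have hσu : ‖σ u - 1‖ < sharpRad q p ^ p := by
    have e : σ u - 1 = σ (u - 1) := by rw [map_sub, map_one]
    rw [e, Loc.kras_norm_algEquiv (q : ℕ) σ]
    exact hu
  have h1 := sharpRoot_spec q hp hu
  have h2 := sharpRoot_spec q hp hσu
  refine (nearRoot_equivariant (sharpRad_le_one q hp) (sharpRad_le q hp) σ ?_ h1.2 h2.2).symm
  rw [h1.1, h2.1]

end SharpRoot

/-! ### The embeddings `L.emb q g` -/

namespace OpenS

variable {S : Finset Nat.Primes} (L : OpenS S)

lemma emb_mul_left (q : Nat.Primes) (d : primeLocalGaloisGroup q) (g : GQ) (a : L.field) :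
    L.emb q (primeLocalToGlobal q d * g) a = locAct q d (L.emb q g a) := by
  rw [emb_apply, emb_apply, ← locEmb_primeLocalToGlobal]
  rfl

lemma emb_mul_right (q : Nat.Primes) (g u : GQ) (hu : u ∈ L.U) :
    L.emb q (g * u) = L.emb q g := by
  refine RingHom.ext fun a => ?_
  rw [emb_apply, emb_apply]
  have h : u (a : AlgebraicClosure ℚ) = a := (L.mem_field_iff _).1 a.2 u hu
  show locEmb q (g (u (a : AlgebraicClosure ℚ))) = _
  rw [h]

lemma primeOf_emb_mul_left (q : Nat.Primes) (d : primeLocalGaloisGroup q) (g : GQ) :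
    F4G.primeOf (L.emb q (primeLocalToGlobal q d * g)) = F4G.primeOf (L.emb q g) := by
  apply HeightOneSpectrum.ext
  apply Ideal.ext
  intro x
  rw [F4G.mem_primeOf, F4G.mem_primeOf, emb_mul_left]
  have e : ‖locAct q d (L.emb q g (x : L.field))‖ = ‖L.emb q g (x : L.field)‖ :=
    Loc.kras_norm_algEquiv (q : ℕ)
      (show PadicAlgCl (q : ℕ) ≃ₐ[ℚ_[(q : ℕ)]] PadicAlgCl (q : ℕ) from d) _
  rw [e]

lemma primeOf_emb_mem_T (q : ↥S) (g : GQ) : F4G.primeOf (L.emb q.1 g) ∈ L.T := by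
  rw [mem_T]
  exact ⟨q.1, q.2, F4G.natCast_mem_primeOf _⟩

end OpenS

/-! ### The family of roots -/

section Main

variable {S : Finset Nat.Primes} (L : OpenS S) (p : ℕ)

/-- The hypotheses: `ζ` a nontrivial `p`-th root of unity of `F`, `y v ≠ 0` with
`v (f (y v) ^ p - 1) < v (ζ - 1) ^ p` for the primes `v` of `F` over `S`. -/
structure PowHyp (ζ f : L.field) (y : HeightOneSpectrum (𝓞 L.field) → L.field) : Prop where
  prime : p.Prime
  root : ζ ^ p = 1
  ne_one : ζ ≠ 1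
  y_ne : ∀ v ∈ L.T, y v ≠ 0
  close : ∀ v ∈ L.T,
    v.valuation L.field (f * y v ^ p - 1) < v.valuation L.field (ζ - 1) ^ p

/-- The candidate `p`-th root of `ι (g f)` at `(q, g)`. -/
noncomputable def powRoot (f : L.field) (y : HeightOneSpectrum (𝓞 L.field) → L.field)
    (q : Nat.Primes) (g : GQ) : PadicAlgCl (q : ℕ) :=
  sharpRoot q p (L.emb q g (f * y (F4G.primeOf (L.emb q g)) ^ p)) /
    L.emb q g (y (F4G.primeOf (L.emb q g)))

variable {L p} {ζ f : L.field} {y : HeightOneSpectrum (𝓞 L.field) → L.field}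

lemma PowHyp.norm_lt (H : PowHyp L p ζ f y) (q : ↥S) (g : GQ) :
    ‖L.emb q.1 g (f * y (F4G.primeOf (L.emb q.1 g)) ^ p) - 1‖ < sharpRad q.1 p ^ p := by
  have hv := L.primeOf_emb_mem_T q g
  have hζ0 : ζ - 1 ≠ 0 := sub_ne_zero.2 H.ne_one
  have h1 := norm_lt_pow_of_valuation_lt (L.emb q.1 g) hζ0 p (H.close _ hv)
  rw [map_sub, map_one, map_sub, map_one] at h1
  have h2 : (L.emb q.1 g ζ) ^ p = 1 := by rw [← map_pow, H.root, map_one]
  have h3 : L.emb q.1 g ζ ≠ 1 := by
    intro h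
    apply H.ne_one
    apply (L.emb q.1 g).injective
    rw [h, map_one]
  rw [sharpRad_eq q.1 H.prime h2 h3]
  exact h1

lemma PowHyp.emb_y_ne_zero (H : PowHyp L p ζ f y) (q : ↥S) (g : GQ) :
    L.emb q.1 g (y (F4G.primeOf (L.emb q.1 g))) ≠ 0 :=
  (map_ne_zero _).2 (H.y_ne _ (L.primeOf_emb_mem_T q g))

/-- (W3) the candidate is a `p`-th root of `ι (g f)`. -/
lemma PowHyp.powRoot_pow (H : PowHyp L p ζ f y) (q : ↥S) (g : GQ) :
    powRoot L p f y q.1 g ^ p = L.emb q.1 g f := by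
  unfold powRoot
  rw [div_pow, (sharpRoot_spec q.1 H.prime (H.norm_lt q g)).1, map_mul, map_pow]
  exact mul_div_cancel_right₀ _ (pow_ne_zero p (H.emb_y_ne_zero q g))

lemma PowHyp.powRoot_ne_zero (H : PowHyp L p ζ f y) (hf : f ≠ 0) (q : ↥S) (g : GQ) :
    powRoot L p f y q.1 g ≠ 0 := by
  intro h
  have h1 := H.powRoot_pow q g
  rw [h, zero_pow H.prime.ne_zero] at h1
  exact (map_ne_zero (L.emb q.1 g)).2 hf h1.symm

/-- (W1) equivariance under the local group. -/
lemma PowHyp.powRoot_mul_left (H : PowHyp L p ζ f y) (q : ↥S) (d : primeLocalGaloisGroup q.1)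
    (g : GQ) :
    powRoot L p f y q.1 (primeLocalToGlobal q.1 d * g) = locAct q.1 d (powRoot L p f y q.1 g) := by
  unfold powRoot
  rw [L.primeOf_emb_mul_left, L.emb_mul_left, L.emb_mul_left]
  have h1 := sharpRoot_map q.1 H.prime
    (show PadicAlgCl (q.1 : ℕ) ≃ₐ[ℚ_[(q.1 : ℕ)]] PadicAlgCl (q.1 : ℕ) from d) (H.norm_lt q g)
  have h2 : locAct q.1 d (sharpRoot q.1 p (L.emb q.1 g (f * y (F4G.primeOf (L.emb q.1 g)) ^ p)) /
      L.emb q.1 g (y (F4G.primeOf (L.emb q.1 g))))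
      = locAct q.1 d (sharpRoot q.1 p (L.emb q.1 g (f * y (F4G.primeOf (L.emb q.1 g)) ^ p))) /
        locAct q.1 d (L.emb q.1 g (y (F4G.primeOf (L.emb q.1 g)))) := map_div₀ _ _ _
  rw [h2]
  congr 1

/-- (W2) invariance under right translation by `U`. -/
lemma powRoot_mul_right (q : Nat.Primes) (g u : GQ) (hu : u ∈ L.U) :
    powRoot L p f y q (g * u) = powRoot L p f y q g := by
  unfold powRoot
  rw [L.emb_mul_right q g u hu]

/-- The candidate is fixed by a level of the local group. -/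
lemma PowHyp.powRoot_mem (H : PowHyp L p ζ f y) (hf : f ≠ 0) (q : ↥S) (g : GQ) :
    Units.mk0 (powRoot L p f y q.1 g) (H.powRoot_ne_zero hf q g) ∈
      smUnitsSub (locLevelsS S q.1) (locAct q.1) := by
  obtain ⟨V, hV, hVU⟩ := L.isOpen
  have hVn := (levelsS S).normal V hV
  refine ⟨V.comap (primeLocalToGlobal q.1), ⟨V, hV, rfl⟩, fun d hd => ?_⟩
  rw [Units.val_mk0, ← H.powRoot_mul_left q d g]
  have e : primeLocalToGlobal q.1 d * g = g * (g⁻¹ * primeLocalToGlobal q.1 d * g) := by group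
  rw [e]
  refine powRoot_mul_right q.1 g _ (hVU ?_)
  have := hVn.conj_mem _ hd g⁻¹
  simpa using this

/-- The root as an element of `L_q`. -/
noncomputable def PowHyp.rootL (H : PowHyp L p ζ f y) (hf : f ≠ 0) (q : ↥S) (g : GQ) :
    LqS S q.1 :=
  smUnits.mk _ (H.powRoot_mem hf q g)

lemma PowHyp.Lval_rootL (H : PowHyp L p ζ f y) (hf : f ≠ 0) (q : ↥S) (g : GQ) :
    Lval q.1 (H.rootL hf q g) = powRoot L p f y q.1 g := rfl

lemma PowHyp.rootL_mem (H : PowHyp L p ζ f y) (hf : f ≠ 0) (q : ↥S) :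
    (fun g : GQ => H.rootL hf q g) ∈
      coIndSub (primeLocalToGlobal q.1) (levelsS S) (LqS S q.1) := by
  refine ⟨fun d g => ?_, ?_⟩
  · apply Lval_injective
    rw [Lval_ρ]
    exact H.powRoot_mul_left q d g
  · obtain ⟨V, hV, hVU⟩ := L.isOpen
    refine ⟨V, hV, fun g s hs => ?_⟩
    apply Lval_injective
    exact powRoot_mul_right q.1 g s (hVU hs)

/-- The family of roots, an element of `J`. -/
noncomputable def PowHyp.rootJ (H : PowHyp L p ζ f y) (hf : f ≠ 0) : Jrep S :=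
  fun q => ⟨_, H.rootL_mem hf q⟩

lemma PowHyp.rootJ_mem_JU (H : PowHyp L p ζ f y) (hf : f ≠ 0) : H.rootJ hf ∈ L.JU := by
  intro u hu
  funext q
  apply Subtype.ext
  funext g
  apply Lval_injective
  exact powRoot_mul_right q.1 g u hu

end Main

/-- **K3ii, second half.**  An element of `Fˣ` which is a local `p`-th power at all primes of `F`
over `S` is a `p`-th power in `J^U`. -/
theorem OpenS.diagJ_mem_smul_of_isLocalPow {S : Finset Nat.Primes} (L : OpenS S) {p : ℕ}
    (hp : p.Prime) {ζ : L.field} (hζ : ζ ^ p = 1) (hζ1 : ζ ≠ 1) (f : (L.field)ˣ)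
    (h : ∀ v ∈ L.T, S14SI.IsLocalPow L.field v p ζ (f : L.field)) :
    ∃ Y : Jrep S, Y ∈ L.JU ∧ diagJ S (L.toQS f) = p • Y := by
  classical
  set y : HeightOneSpectrum (𝓞 L.field) → L.field := fun v =>
    if hv : v ∈ L.T then Classical.choose (h v hv) else 1 with hy
  have H : PowHyp L p ζ (f : L.field) y :=
    { prime := hp
      root := hζ
      ne_one := hζ1
      y_ne := fun v hv => by
        simp only [hy, dif_pos hv]
        exact (Classical.choose_spec (h v hv)).1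
      close := fun v hv => by
        simp only [hy, dif_pos hv]
        exact (Classical.choose_spec (h v hv)).2 }
  refine ⟨H.rootJ f.ne_zero, H.rootJ_mem_JU f.ne_zero, ?_⟩
  funext q
  apply Subtype.ext
  funext g
  apply Lval_injective
  show Jval (diagJ S (L.toQS f)) q g = Lval q.1 (p • H.rootL f.ne_zero q g)
  rw [L.Jval_diagJ_toQS, Lval_nsmul, H.Lval_rootL, H.powRoot_pow]

end Fermat.Agent.F4
end MergeWrap_F4_Dict_JHenselPow

section MergeWrap_F4_Dict_ExistEnd -- from F4/Dict/ExistEnd.lean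

/-!
# F4 / Dict / ExistEnd : the tail of the existence theorem at finite level (EX-END; helper91)

`L : OpenS S`, `F = L.field ∋ ζ` a primitive `p`-th root of unity, `t ∈ T_U` with divisor `d`
(finitely supported).  If `a₀ ∈ Fˣ` is a local `p`-th power at the primes of `F` over `S` and
`ord_v a₀ ≡ d v mod p` outside (`thetaOrd v a₀ + d v ≡ 0`: `thetaOrd = - ord`), then
`m t ≡ a + p s` modulo `E` with `p ∤ m`, `a = a₀ ^ m ∈ Fˣ`, `diagJ a ∈ p J^U`, `s ∈ T_U`:
the conclusion of `KForm.ExistFinAt` (`OpenS.existFin_end`).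

Inputs: `capit_div` (helper32), `capit_isDivS_toQS`, `diagJ_mem_smul_of_isLocalPow` (helper49).
-/

set_option autoImplicit false
set_option synthInstance.maxHeartbeats 400000

open CategoryTheory groupCohomology ExtCitation
open NumberField IsDedekindDomain

namespace Fermat.Agent.F4

open Fermat.Agent.F4Cf

namespace OpenS

variable {p : ℕ} [Fact p.Prime] {S : Finset Nat.Primes} (L : OpenS S)

/-- The divisor outside `S` of `a ∈ Fˣ` is `- thetaOrd · a`. -/
theorem isDivS_toQS_thetaOrd (a : (L.field)ˣ) :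
    L.IsDivS (L.toQS a) (fun v => -(S14SI.thetaOrd v a)) := by
  have h := L.capit_isDivS_toQS a
  have e : (fun v : HeightOneSpectrum (𝓞 L.field) =>
      -(WithZero.log (v.valuation L.field (a : L.field)))) = fun v => -(S14SI.thetaOrd v a) := by
    funext v
    rw [S14SI.thetaOrd_valuation, WithZero.log_exp]
  rwa [e] at h

/-- `thetaOrd · a` has finite support. -/
theorem finite_support_thetaOrd (a : (L.field)ˣ) :
    (Function.support fun v : HeightOneSpectrum (𝓞 L.field) => S14SI.thetaOrd v a).Finite := by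
  refine (S14SI.finite_valuation_ne_one (M := L.field) a.ne_zero).subset fun v hv => ?_
  rw [Function.mem_support] at hv
  show v.valuation L.field (a : L.field) ≠ 1
  rw [S14SI.thetaOrd_valuation]
  intro h1
  apply hv
  have := congrArg WithZero.log h1
  rwa [WithZero.log_exp, WithZero.log_one] at this

/-- **EX-END.**  The tail of the existence theorem at finite level. -/
theorem existFin_end (hpS : pPrime p ∈ S) (hS : S.Nonempty) {ζ : L.field} (hζ : ζ ^ p = 1)
    (hζ1 : ζ ≠ 1) {t : (kfS S hS).Q} {d : HeightOneSpectrum (𝓞 L.field) → ℤ}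
    (hd : L.IsDivS t d)
    (hfin : (Function.support d).Finite) (a0 : (L.field)ˣ)
    (hloc : ∀ v ∈ L.T, S14SI.IsLocalPow L.field v p ζ (a0 : L.field))
    (hord : ∀ v ∉ L.T, (p : ℤ) ∣ S14SI.thetaOrd v a0 + d v) :
    ∃ m : ℕ, ¬ p ∣ m ∧ ∃ a ∈ (kfS S hS).QU L.U, ∃ s ∈ (kfS S hS).TU L.U,
      (∃ z ∈ (kfS S hS).JU L.U, (kfS S hS).d a = p • z) ∧
        m • t - a - p • s ∈ (kfS S hS).E := by
  classical
  have hp : p.Prime := Fact.out
  have hp0 : (p : ℤ) ≠ 0 := by exact_mod_cast hp.ne_zero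
  -- the quotient divisor
  set e : HeightOneSpectrum (𝓞 L.field) → ℤ := fun v =>
    if v ∈ L.T then 0 else (S14SI.thetaOrd v a0 + d v) / (p : ℤ) with he
  have hpe : ∀ v ∉ L.T, (p : ℤ) * e v = S14SI.thetaOrd v a0 + d v := by
    intro v hv
    simp only [he, if_neg hv]
    exact Int.mul_ediv_cancel' (hord v hv)
  have hefin : (Function.support e).Finite := by
    refine ((L.finite_support_thetaOrd a0).union hfin).subset fun v hv => ?_
    rw [Function.mem_support] at hv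
    by_contra hcon
    rw [Set.mem_union, Function.mem_support, Function.mem_support] at hcon
    push Not at hcon
    apply hv
    simp only [he]
    split_ifs
    · rfl
    · rw [hcon.1, hcon.2, add_zero, Int.zero_ediv]
  obtain ⟨m, hm, hcap⟩ := L.capit_div (p := p) hpS
  obtain ⟨s, hs, hsd⟩ := hcap e hefin
  obtain ⟨Y, hY, hYd⟩ := L.diagJ_mem_smul_of_isLocalPow hp hζ hζ1 a0 hloc
  refine ⟨m, hm, m • L.toQS a0,
    ((kfS S hS).QU L.U).nsmul_mem (fun g hg => L.toQS_fixed a0 g hg) m, s, hs,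
    ⟨m • Y, ((kfS S hS).JU L.U).nsmul_mem hY m, ?_⟩, ?_⟩
  · have h1 : (kfS S hS).d (m • L.toQS a0) = m • (kfS S hS).d (L.toQS a0) :=
      (kfS S hS).d_nsmul m _
    have h2 : (kfS S hS).d (L.toQS a0) = p • (Y : (kfS S hS).J) := hYd
    rw [h1, h2]
    exact smul_comm m p (Y : (kfS S hS).J)
  · have hdiv := ((hd.nsmul m).sub ((L.isDivS_toQS_thetaOrd a0).nsmul m)).sub (hsd.nsmul p)
    have h0 := hdiv.congr (d' := 0) fun q A hA hq => by
      have hv : L.primeBelowAt q A hA ∉ L.T := L.primeBelowAt_not_mem_T q hq A hA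
      have h3 := hpe _ hv
      simp only [Pi.sub_apply, Pi.zero_apply, nsmul_eq_mul,
        Pi.natCast_def, Pi.mul_apply] at h3 ⊢
      linear_combination (-(m : ℤ)) * h3
    exact h0.mem_sUnitsAdd

end OpenS

end Fermat.Agent.F4
end MergeWrap_F4_Dict_ExistEnd
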