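import Mathlib
import Fermat.Prelude.Def_GaloisRep_CompletionBridge
import Fermat.Agent.MU.F4.Dict.Level
import Fermat.Agent.F4.Glob.Compl.Basic
import Fermat.Agent.MU.S17.W.Final
import Fermat.Agent.Lib.Frobenius.Basic

section MergeWrap_F4_Dict_Places -- from F4/Dict/Places.lean

/-!
# F4 / Dict / Places : the elements of `J^U` as families of local elements (layer DICT, P3)

`J = ∏_{q ∈ S} coInd_{D_q → G_ℚ} L_q`; the value of `x ∈ J` at `(q, g)` is `Jval x q g`
(`F4/Dict/Level.lean`).  For `U` open, `x ∈ J^U` is a family of local elements indexed by the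
double cosets `D_q g U`, i.e. by the places of `F = ℚ̄^U` over `S`:

* `Jval_mul_left`, `Jval_mul_right` : `Jval x q (r d * g * u) = d (Jval x q g)`;
* `Jval_add`, `Jval_zero`, `Jval_neg`, `Jval_nsmul`, `Jval_ρ`, `Jrep_ext` : calculus of values;
* `OpenS.Dsub q g` : the decomposition group of the place `D_q g U`, as a subgroup of the local
  group (`{d | g⁻¹ r(d) g ∈ U}`);
* `OpenS.Jval_fixed` : the value of `x ∈ J^U` at `(q, g)` is fixed by `Dsub q g`;
* `OpenS.exists_single` : for `y` fixed by `Dsub q g₀` there is `x ∈ J^U` with value `y` at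
  `(q, g₀)`, and `1` outside the double coset `D_q g₀ U` and at the other primes.
-/

set_option autoImplicit false
set_option synthInstance.maxHeartbeats 400000
set_option linter.unusedSectionVars false

open CategoryTheory groupCohomology ExtCitation
open NumberField IsDedekindDomain

namespace Fermat.Agent.F4

variable {S : Finset Nat.Primes}

/-- The component of `x ∈ J` at `q`, as a function. -/
noncomputable def Jfun (x : Jrep S) (q : ↥S) : GQ → LqS S q.1 :=
  ((x q : ↥(coIndSub (primeLocalToGlobal q.1) (levelsS S) (LqS S q.1))) : GQ → LqS S q.1)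

lemma Jval_def (x : Jrep S) (q : ↥S) (g : GQ) :
    Jval x q g = ((smUnits.val (Jfun x q g) :
      (@PadicAlgCl ((q : Nat.Primes) : ℕ) ⟨(q : Nat.Primes).2⟩)ˣ) :
      @PadicAlgCl ((q : Nat.Primes) : ℕ) ⟨(q : Nat.Primes).2⟩) := rfl

lemma Jfun_mul_left (x : Jrep S) (q : ↥S) (d : primeLocalGaloisGroup q.1) (g : GQ) :
    Jfun x q (primeLocalToGlobal q.1 d * g) = (LqS S q.1).ρ d (Jfun x q g) :=
  coIndSub_equivariant (x q) d g

lemma Jfun_ρ (x : Jrep S) (q : ↥S) (h g : GQ) :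
    Jfun ((Jrep S).ρ h x) q g = Jfun x q (g * h) := rfl

lemma Jfun_add (x y : Jrep S) (q : ↥S) (g : GQ) :
    Jfun (x + y) q g = Jfun x q g + Jfun y q g := rfl

lemma Jfun_zero (q : ↥S) (g : GQ) : Jfun (0 : Jrep S) q g = 0 := rfl

lemma Jfun_neg (x : Jrep S) (q : ↥S) (g : GQ) : Jfun (-x) q g = -Jfun x q g := rfl

lemma Jrep_ext {x y : Jrep S} (h : ∀ q g, Jfun x q g = Jfun y q g) : x = y := by
  funext q
  apply Subtype.ext
  funext g
  exact h q g

lemma Jval_ne_zero (x : Jrep S) (q : ↥S) (g : GQ) : Jval x q g ≠ 0 :=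
  (smUnits.val (Jfun x q g)).ne_zero

lemma Jval_mul_left (x : Jrep S) (q : ↥S) (d : primeLocalGaloisGroup q.1) (g : GQ) :
    Jval x q (primeLocalToGlobal q.1 d * g) = locAct q.1 d (Jval x q g) := by
  rw [Jval_def, Jfun_mul_left, smUnits.val_ρ]
  rfl

lemma Jval_ρ (x : Jrep S) (q : ↥S) (h g : GQ) :
    Jval ((Jrep S).ρ h x) q g = Jval x q (g * h) := rfl

lemma Jval_add (x y : Jrep S) (q : ↥S) (g : GQ) :
    Jval (x + y) q g = Jval x q g * Jval y q g := by
  rw [Jval_def, Jfun_add, smUnits.val_add, Units.val_mul]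
  rfl

lemma Jval_zero (q : ↥S) (g : GQ) : Jval (0 : Jrep S) q g = 1 := rfl

lemma Jval_neg (x : Jrep S) (q : ↥S) (g : GQ) : Jval (-x) q g = (Jval x q g)⁻¹ := by
  rw [Jval_def, Jfun_neg, smUnits.val_neg, Units.val_inv_eq_inv_val]
  rfl

lemma Jval_nsmul (n : ℕ) (x : Jrep S) (q : ↥S) (g : GQ) :
    Jval (n • x) q g = Jval x q g ^ n := by
  induction n with
  | zero => rw [zero_smul, pow_zero, Jval_zero]
  | succ k ih => rw [succ_nsmul, Jval_add, ih, pow_succ]

lemma Jval_ext {x y : Jrep S} (h : ∀ q g, Jval x q g = Jval y q g) : x = y :=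
  Jrep_ext fun q g => smUnits.val_injective (Units.ext (h q g))

namespace OpenS

variable (L : OpenS S)

lemma Jfun_mul_right {x : Jrep S} (hx : x ∈ L.JU) (q : ↥S) (g u : GQ) (hu : u ∈ L.U) :
    Jfun x q (g * u) = Jfun x q g := by
  have h := hx u hu
  rw [← Jfun_ρ, h]

lemma Jval_mul_right {x : Jrep S} (hx : x ∈ L.JU) (q : ↥S) (g u : GQ) (hu : u ∈ L.U) :
    Jval x q (g * u) = Jval x q g := by
  rw [Jval_def, L.Jfun_mul_right hx q g u hu]
  rfl

lemma mem_JU_iff (x : Jrep S) :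
    x ∈ L.JU ↔ ∀ (q : ↥S) (g u : GQ), u ∈ L.U → Jfun x q (g * u) = Jfun x q g := by
  constructor
  · intro hx q g u hu
    exact L.Jfun_mul_right hx q g u hu
  · intro h u hu
    exact Jrep_ext fun q g => (Jfun_ρ x q u g).trans (h q g u hu)

/-- The decomposition group of the place `D_q g U` of `F`: `{d | g⁻¹ r(d) g ∈ U}`. -/
def Dsub (q : Nat.Primes) (g : GQ) : Subgroup (primeLocalGaloisGroup q) where
  carrier := {d | g⁻¹ * primeLocalToGlobal q d * g ∈ L.U}
  one_mem' := by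
    show g⁻¹ * primeLocalToGlobal q 1 * g ∈ L.U
    rw [map_one, mul_one, inv_mul_cancel]
    exact L.U.one_mem
  mul_mem' := by
    intro a b ha hb
    show g⁻¹ * primeLocalToGlobal q (a * b) * g ∈ L.U
    have e : g⁻¹ * primeLocalToGlobal q (a * b) * g =
        (g⁻¹ * primeLocalToGlobal q a * g) * (g⁻¹ * primeLocalToGlobal q b * g) := by
      rw [map_mul]; group
    rw [e]
    exact L.U.mul_mem ha hb
  inv_mem' := by
    intro a ha
    show g⁻¹ * primeLocalToGlobal q a⁻¹ * g ∈ L.U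
    have e : g⁻¹ * primeLocalToGlobal q a⁻¹ * g = (g⁻¹ * primeLocalToGlobal q a * g)⁻¹ := by
      rw [map_inv]; group
    rw [e]
    exact L.U.inv_mem ha

lemma mem_Dsub (q : Nat.Primes) (g : GQ) (d : primeLocalGaloisGroup q) :
    d ∈ L.Dsub q g ↔ g⁻¹ * primeLocalToGlobal q d * g ∈ L.U := Iff.rfl

/-- The value of `x ∈ J^U` at `(q, g)` is fixed by the decomposition group `Dsub q g`. -/
lemma Jfun_fixed {x : Jrep S} (hx : x ∈ L.JU) (q : ↥S) (g : GQ)
    (d : primeLocalGaloisGroup q.1) (hd : d ∈ L.Dsub q.1 g) :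
    (LqS S q.1).ρ d (Jfun x q g) = Jfun x q g := by
  rw [← Jfun_mul_left]
  have e : primeLocalToGlobal q.1 d * g = g * (g⁻¹ * primeLocalToGlobal q.1 d * g) := by group
  rw [e]
  exact L.Jfun_mul_right hx q g _ hd

lemma Jval_fixed {x : Jrep S} (hx : x ∈ L.JU) (q : ↥S) (g : GQ)
    (d : primeLocalGaloisGroup q.1) (hd : d ∈ L.Dsub q.1 g) :
    locAct q.1 d (Jval x q g) = Jval x q g := by
  rw [← Jval_mul_left]
  have e : primeLocalToGlobal q.1 d * g = g * (g⁻¹ * primeLocalToGlobal q.1 d * g) := by group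
  rw [e]
  exact L.Jval_mul_right hx q g _ hd

/-- The double coset `D_q g₀ U`. -/
def InDC (q : Nat.Primes) (g₀ g : GQ) : Prop :=
  ∃ (d : primeLocalGaloisGroup q) (u : GQ), u ∈ L.U ∧ g = primeLocalToGlobal q d * g₀ * u

/-- An element of `(PadicAlgCl q)ˣ` fixed by `Dsub q g₀` is a smooth unit. -/
lemma mem_smUnitsSub_of_fixed (q : Nat.Primes) (g₀ : GQ)
    (y : (@PadicAlgCl (q : ℕ) ⟨q.2⟩)ˣ)
    (hy : ∀ d ∈ L.Dsub q g₀, locAct q d (y : @PadicAlgCl (q : ℕ) ⟨q.2⟩) = y) :
    y ∈ smUnitsSub (locLevelsS S q) (locAct q) := by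
  obtain ⟨W, hW, hle⟩ := L.isOpen
  refine ⟨W.comap (primeLocalToGlobal q), ⟨W, hW, rfl⟩, fun d hd => hy d ?_⟩
  rw [mem_Dsub]
  apply hle
  have hn : W.Normal := (levelsS S).normal W hW
  have := hn.conj_mem _ hd g₀⁻¹
  rwa [inv_inv] at this

section Single

variable (q : ↥S) (g₀ : GQ) (y : (@PadicAlgCl ((q : Nat.Primes) : ℕ) ⟨(q : Nat.Primes).2⟩)ˣ)
  (hy : ∀ d ∈ L.Dsub q.1 g₀,
    locAct q.1 d (y : @PadicAlgCl ((q : Nat.Primes) : ℕ) ⟨(q : Nat.Primes).2⟩) = y)

/-- `y` as an element of `L_q`. -/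
noncomputable def singleVal : LqS S q.1 := smUnits.mk y (L.mem_smUnitsSub_of_fixed q.1 g₀ y hy)

open Classical in
/-- The function `r(d) g₀ u ↦ d y`, `0` outside the double coset. -/
noncomputable def singleFun : GQ → LqS S q.1 := fun g =>
  if h : L.InDC q.1 g₀ g then (LqS S q.1).ρ h.choose (L.singleVal q g₀ y hy) else 0

lemma singleVal_fixed (d : primeLocalGaloisGroup q.1) (hd : d ∈ L.Dsub q.1 g₀) :
    (LqS S q.1).ρ d (L.singleVal q g₀ y hy) = L.singleVal q g₀ y hy := by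
  rw [smUnits.ρ_eq_iff]
  exact hy d hd

lemma singleFun_eq (d : primeLocalGaloisGroup q.1) (u : GQ) (hu : u ∈ L.U) :
    L.singleFun q g₀ y hy (primeLocalToGlobal q.1 d * g₀ * u) =
      (LqS S q.1).ρ d (L.singleVal q g₀ y hy) := by
  have h : L.InDC q.1 g₀ (primeLocalToGlobal q.1 d * g₀ * u) := ⟨d, u, hu, rfl⟩
  unfold singleFun
  rw [dif_pos h]
  obtain ⟨u', hu', he⟩ := h.choose_spec
  set d' := h.choose with hd'
  -- d'⁻¹ d ∈ Dsub
  have hmem : d'⁻¹ * d ∈ L.Dsub q.1 g₀ := by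
    rw [mem_Dsub, map_mul, map_inv]
    have e : g₀⁻¹ * ((primeLocalToGlobal q.1 d')⁻¹ * primeLocalToGlobal q.1 d) * g₀ =
        u' * u⁻¹ := by
      have h1 : primeLocalToGlobal q.1 d * g₀ = primeLocalToGlobal q.1 d' * g₀ * u' * u⁻¹ := by
        rw [← he]; group
      calc g₀⁻¹ * ((primeLocalToGlobal q.1 d')⁻¹ * primeLocalToGlobal q.1 d) * g₀
          = g₀⁻¹ * (primeLocalToGlobal q.1 d')⁻¹ * (primeLocalToGlobal q.1 d * g₀) := by group
        _ = g₀⁻¹ * (primeLocalToGlobal q.1 d')⁻¹ *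
              (primeLocalToGlobal q.1 d' * g₀ * u' * u⁻¹) := by rw [h1]
        _ = u' * u⁻¹ := by group
    rw [e]
    exact L.U.mul_mem hu' (L.U.inv_mem hu)
  have h2 := L.singleVal_fixed q g₀ y hy _ hmem
  have h3 : (LqS S q.1).ρ d (L.singleVal q g₀ y hy) =
      (LqS S q.1).ρ d' ((LqS S q.1).ρ (d'⁻¹ * d) (L.singleVal q g₀ y hy)) := by
    rw [← Module.End.mul_apply, ← map_mul, mul_inv_cancel_left]
  rw [h3, h2]

lemma singleFun_of_not (g : GQ) (h : ¬ L.InDC q.1 g₀ g) : L.singleFun q g₀ y hy g = 0 := by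
  unfold singleFun
  rw [dif_neg h]

lemma inDC_mul_left (d : primeLocalGaloisGroup q.1) (g : GQ) :
    L.InDC q.1 g₀ (primeLocalToGlobal q.1 d * g) ↔ L.InDC q.1 g₀ g := by
  constructor
  · rintro ⟨d₁, u, hu, he⟩
    refine ⟨d⁻¹ * d₁, u, hu, ?_⟩
    rw [map_mul, map_inv, mul_assoc, mul_assoc, ← mul_assoc _ g₀ u, ← he]
    group
  · rintro ⟨d₁, u, hu, he⟩
    refine ⟨d * d₁, u, hu, ?_⟩
    rw [he, map_mul]
    group

lemma inDC_mul_right (g u : GQ) (hu : u ∈ L.U) :
    L.InDC q.1 g₀ (g * u) ↔ L.InDC q.1 g₀ g := by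
  constructor
  · rintro ⟨d₁, u₁, hu₁, he⟩
    refine ⟨d₁, u₁ * u⁻¹, L.U.mul_mem hu₁ (L.U.inv_mem hu), ?_⟩
    rw [← mul_assoc, ← he]
    group
  · rintro ⟨d₁, u₁, hu₁, he⟩
    refine ⟨d₁, u₁ * u, L.U.mul_mem hu₁ hu, ?_⟩
    rw [he]
    group

lemma inDC_self : L.InDC q.1 g₀ g₀ := ⟨1, 1, L.U.one_mem, by rw [map_one, one_mul, mul_one]⟩

lemma singleFun_mul_left (d : primeLocalGaloisGroup q.1) (g : GQ) :
    L.singleFun q g₀ y hy (primeLocalToGlobal q.1 d * g) =
      (LqS S q.1).ρ d (L.singleFun q g₀ y hy g) := by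
  by_cases h : L.InDC q.1 g₀ g
  · obtain ⟨d₁, u, hu, rfl⟩ := h
    have e : primeLocalToGlobal q.1 d * (primeLocalToGlobal q.1 d₁ * g₀ * u) =
        primeLocalToGlobal q.1 (d * d₁) * g₀ * u := by
      rw [map_mul]; group
    rw [e, singleFun_eq _ _ _ _ _ _ _ hu, singleFun_eq _ _ _ _ _ _ _ hu, map_mul,
      Module.End.mul_apply]
  · rw [L.singleFun_of_not q g₀ y hy g h,
      L.singleFun_of_not q g₀ y hy _ (fun h' => h ((L.inDC_mul_left q g₀ d g).1 h')), map_zero]

lemma singleFun_mul_right (g u : GQ) (hu : u ∈ L.U) :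
    L.singleFun q g₀ y hy (g * u) = L.singleFun q g₀ y hy g := by
  by_cases h : L.InDC q.1 g₀ g
  · obtain ⟨d₁, u₁, hu₁, rfl⟩ := h
    have e : primeLocalToGlobal q.1 d₁ * g₀ * u₁ * u = primeLocalToGlobal q.1 d₁ * g₀ * (u₁ * u) := by
      group
    rw [e, singleFun_eq _ _ _ _ _ _ _ (L.U.mul_mem hu₁ hu), singleFun_eq _ _ _ _ _ _ _ hu₁]
  · rw [L.singleFun_of_not q g₀ y hy g h,
      L.singleFun_of_not q g₀ y hy _ (fun h' => h ((L.inDC_mul_right q g₀ g u hu).1 h'))]

lemma singleFun_mem :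
    L.singleFun q g₀ y hy ∈ coIndSub (primeLocalToGlobal q.1) (levelsS S) (LqS S q.1) := by
  refine ⟨fun d g => L.singleFun_mul_left q g₀ y hy d g, ?_⟩
  obtain ⟨W, hW, hle⟩ := L.isOpen
  exact ⟨W, hW, fun g s hs => L.singleFun_mul_right q g₀ y hy g s (hle hs)⟩

open Classical in
/-- The element of `J` with component `singleFun` at `q` and `0` elsewhere. -/
noncomputable def single : Jrep S := fun q' =>
  if h : q' = q then h ▸ (⟨L.singleFun q g₀ y hy, L.singleFun_mem q g₀ y hy⟩ :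
    ↥(coIndSub (primeLocalToGlobal q.1) (levelsS S) (LqS S q.1))) else 0

lemma Jfun_single_self (g : GQ) : Jfun (L.single q g₀ y hy) q g = L.singleFun q g₀ y hy g := by
  unfold Jfun single
  rw [dif_pos rfl]

lemma Jfun_single_of_ne (q' : ↥S) (hq : q' ≠ q) (g : GQ) :
    Jfun (L.single q g₀ y hy) q' g = 0 := by
  unfold Jfun single
  rw [dif_neg hq]
  rfl

lemma single_mem_JU : L.single q g₀ y hy ∈ L.JU := by
  rw [mem_JU_iff]
  intro q' g u hu
  by_cases hq : q' = q
  · subst hq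
    rw [Jfun_single_self, Jfun_single_self]
    exact L.singleFun_mul_right q' g₀ y hy g u hu
  · rw [Jfun_single_of_ne _ _ _ _ _ _ hq, Jfun_single_of_ne _ _ _ _ _ _ hq]

include hy in
/-- **P3 (construction)**: the element of `J^U` with value `y` at the place `D_q g₀ U` and `1` at
the other places over `S`. -/
theorem exists_single :
    ∃ x : Jrep S, x ∈ L.JU ∧
      (∀ (d : primeLocalGaloisGroup q.1) (u : GQ), u ∈ L.U →
        Jval x q (primeLocalToGlobal q.1 d * g₀ * u) =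
          locAct q.1 d (y : @PadicAlgCl ((q : Nat.Primes) : ℕ) ⟨(q : Nat.Primes).2⟩)) ∧
      (∀ g, ¬ L.InDC q.1 g₀ g → Jval x q g = 1) ∧
      ∀ q' : ↥S, q' ≠ q → ∀ g, Jval x q' g = 1 := by
  refine ⟨L.single q g₀ y hy, L.single_mem_JU q g₀ y hy, fun d u hu => ?_, fun g hg => ?_,
    fun q' hq g => ?_⟩
  · rw [Jval_def, Jfun_single_self, singleFun_eq _ _ _ _ _ _ _ hu, smUnits.val_ρ]
    rfl
  · rw [Jval_def, Jfun_single_self, L.singleFun_of_not q g₀ y hy g hg]
    rfl
  · rw [Jval_def, Jfun_single_of_ne _ _ _ _ _ _ hq]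
    rfl

end Single

end OpenS

end Fermat.Agent.F4
end MergeWrap_F4_Dict_Places

section MergeWrap_F4_Glob_Compl_NormCompatA -- from F4/Glob/Compl/NormCompatA.lean

/-!
# F4 / GLOB / Compl : (B3), part A — primes cut out by embeddings into `PadicAlgCl q`

* `nc_norm_eq_of_primeOf_eq` : two ring homomorphisms `M → PadicAlgCl q` cutting out the same
  prime of `M` induce the same norm on `M`;
* `nc_splitsCompletely_of_primeOf_ne` : if `M/F` is Galois of prime degree and some conjugate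
  `jM ∘ σ` of `jM` cuts out another prime than `jM`, the prime below splits completely.
-/

set_option autoImplicit false

open NumberField IsDedekindDomain

namespace Fermat.Agent.F4G.Compl

open Fermat.Agent.F4G

variable {q : ℕ} [Fact q.Prime]

section SamePrime

variable {M : Type*} [Field M] [NumberField M]

lemma nc_norm_natCast : ‖((q : ℕ) : PadicAlgCl q)‖ = (q : ℝ)⁻¹ := by
  have h2 : ‖(q : PadicAlgCl q)‖ = ‖(q : ℚ_[q])‖ := by
    rw [← PadicAlgCl.norm_extends]
    congr 1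
  rw [h2, Padic.norm_p]

/-- The norm of `j x` is determined by the prime cut out by `j`. -/
theorem nc_norm_eq_of_primeOf_eq (j₁ j₂ : M →+* PadicAlgCl q) (h : primeOf j₁ = primeOf j₂)
    (x : M) : ‖j₁ x‖ = ‖j₂ x‖ := by
  by_cases hx : x = 0
  · subst hx; simp
  set w := primeOf j₁ with hw
  have hq0 : ((q : ℕ) : M) ≠ 0 := Nat.cast_ne_zero.mpr (Fact.out : q.Prime).ne_zero
  -- the valuations of `x` and `q`
  have hvx : w.valuation M x ≠ 0 := (Valuation.ne_zero_iff _).mpr hx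
  have hvq : w.valuation M (q : M) ≠ 0 := (Valuation.ne_zero_iff _).mpr hq0
  have hvq1 : w.valuation M (q : M) < 1 := by
    have := natCast_mem_primeOf j₁
    have h1 : w.valuation M (algebraMap (𝓞 M) M (q : 𝓞 M)) < 1 :=
      (w.valuation_lt_one_iff_mem (K := M) (q : 𝓞 M)).mpr this
    simpa using h1
  obtain ⟨a, ha⟩ : ∃ a : ℤ, w.valuation M x = WithZero.exp a :=
    ⟨WithZero.log (w.valuation M x), (WithZero.exp_log hvx).symm⟩
  obtain ⟨b, hb⟩ : ∃ b : ℤ, w.valuation M (q : M) = WithZero.exp b :=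
    ⟨WithZero.log (w.valuation M (q : M)), (WithZero.exp_log hvq).symm⟩
  have hb0 : b < 0 := by
    rw [hb] at hvq1
    have : WithZero.exp b < WithZero.exp (0 : ℤ) := by simpa using hvq1
    exact WithZero.exp_lt_exp.mp this
  -- `e = -b > 0`, `y = x ^ e * q ^ a` has valuation `1`
  set e : ℕ := (-b).toNat with he
  have hecast : (e : ℤ) = -b := Int.toNat_of_nonneg (by omega)
  have he0 : e ≠ 0 := by
    intro h0
    rw [h0] at hecast
    simp at hecast
    omega
  set y : M := x ^ e * ((q : M) ^ a) with hy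
  have hvy : w.valuation M y = 1 := by
    rw [hy, map_mul, map_pow, map_zpow₀, ha, hb, ← WithZero.exp_nsmul, ← WithZero.exp_zsmul,
      ← WithZero.exp_add]
    have : e • a + a • b = 0 := by
      simp only [smul_eq_mul, nsmul_eq_mul]
      rw [hecast]; ring
    rw [this]
    rfl
  have h1 : ‖j₁ y‖ = 1 := (norm_eq_one_iff j₁ y).mpr hvy
  have h2 : ‖j₂ y‖ = 1 := (norm_eq_one_iff j₂ y).mpr (by rw [← h]; exact hvy)
  have key : ∀ j : M →+* PadicAlgCl q, ‖j y‖ = 1 → ‖j x‖ ^ e = ((q : ℝ)⁻¹) ^ (-a) := by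
    intro j hj
    have hjq : j (q : M) = ((q : ℕ) : PadicAlgCl q) := map_natCast j q
    rw [hy, map_mul, map_pow, map_zpow₀, norm_mul, norm_pow, norm_zpow, hjq, nc_norm_natCast] at hj
    have hqpos : (0 : ℝ) < (q : ℝ)⁻¹ :=
      inv_pos.mpr (by exact_mod_cast (Fact.out : q.Prime).pos)
    have hne : ((q : ℝ)⁻¹) ^ a ≠ 0 := zpow_ne_zero _ hqpos.ne'
    rw [zpow_neg]
    exact eq_inv_of_mul_eq_one_left hj
  have h3 : ‖j₁ x‖ ^ e = ‖j₂ x‖ ^ e := by rw [key j₁ h1, key j₂ h2]
  exact (pow_left_inj₀ (norm_nonneg _) (norm_nonneg _) he0).mp h3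

end SamePrime

section Split

variable {F M : Type*} [Field F] [NumberField F] [Field M] [NumberField M] [Algebra F M]

omit [NumberField F] [NumberField M] in
lemma nc_coe_algebraMap_integer (x : 𝓞 F) :
    ((algebraMap (𝓞 F) (𝓞 M) x : 𝓞 M) : M) = algebraMap F M (x : F) := rfl

/-- The prime cut out by `jM` lies over the prime cut out by its restriction to `F`. -/
lemma nc_primeOf_mem_primesOver (jM : M →+* PadicAlgCl q) :
    (primeOf jM).asIdeal ∈ (primeOf (jM.comp (algebraMap F M))).asIdeal.primesOver (𝓞 M) := by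
  refine ⟨(primeOf jM).isPrime, ⟨?_⟩⟩
  ext x
  rw [Ideal.under_def, Ideal.mem_comap, mem_primeOf, mem_primeOf, nc_coe_algebraMap_integer]
  rfl

variable [IsGalois F M]

/-- If `M/F` is Galois of prime degree and a conjugate of `jM` cuts out a different prime, then
the prime of `F` below splits completely in `M`. -/
theorem nc_splitsCompletely_of_primeOf_ne {p : ℕ} (hp : p.Prime)
    (hdeg : Module.finrank F M = p) (jM : M →+* PadicAlgCl q) (σ : M ≃ₐ[F] M)
    (hne : primeOf (jM.comp (σ : M →+* M)) ≠ primeOf jM) :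
    S14SI.SplitsCompletely F M (primeOf (jM.comp (algebraMap F M))) := by
  set v := primeOf (jM.comp (algebraMap F M)) with hv
  have hcomp : (jM.comp (σ : M →+* M)).comp (algebraMap F M) = jM.comp (algebraMap F M) := by
    ext x
    simp
  have h1 : (primeOf jM).asIdeal ∈ v.asIdeal.primesOver (𝓞 M) := nc_primeOf_mem_primesOver jM
  have h2 : (primeOf (jM.comp (σ : M →+* M))).asIdeal ∈ v.asIdeal.primesOver (𝓞 M) := by
    have := nc_primeOf_mem_primesOver (F := F) (jM.comp (σ : M →+* M))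
    rwa [hcomp] at this
  have hne' : (primeOf (jM.comp (σ : M →+* M))).asIdeal ≠ (primeOf jM).asIdeal :=
    fun h => hne (HeightOneSpectrum.ext h)
  have hfin : (v.asIdeal.primesOver (𝓞 M)).Finite := Algebra.QuasiFinite.finite_primesOver v.asIdeal
  have hgt : 1 < (v.asIdeal.primesOver (𝓞 M)).ncard :=
    (Set.one_lt_ncard_iff hfin).mpr ⟨_, _, h2, h1, hne'⟩
  have hfund := Ideal.ncard_primesOver_mul_ramificationIdxIn_mul_inertiaDegIn v.asIdeal (𝓞 M)
    Gal(M/F)
  rw [IsGaloisGroup.card_eq_finrank Gal(M/F) F M, hdeg] at hfund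
  have hdvd : (v.asIdeal.primesOver (𝓞 M)).ncard ∣ p := Dvd.intro _ hfund
  rcases (Nat.dvd_prime hp).mp hdvd with h | h
  · omega
  · show (v.asIdeal.primesOver (𝓞 M)).ncard = Module.finrank F M
    rw [h, hdeg]

end Split

end Fermat.Agent.F4G.Compl
end MergeWrap_F4_Glob_Compl_NormCompatA

section MergeWrap_F4_Dict_PlacesB_Conj -- from F4/Dict/PlacesB/Conj.lean

/-!
# F4 / Dict / PlacesB / Conj : embeddings of a number field into `PadicAlgCl q` with the same
prime are conjugate under `Gal(PadicAlgCl q / ℚ_q)`  (seat PLACES P2, helper90)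

`F` a number field, `j j' : F →+* Ω = PadicAlgCl q`.

* `plb_exists_rat_approx` : a polynomial over `ℚ_q` is approximated, uniformly on a ball of `Ω`,
  by a polynomial over `ℚ`;
* `plb_aeval_minpoly_eq_zero` : if `‖j x‖ = ‖j' x‖` for all `x`, then `j' θ` is a root of the
  minimal polynomial of `j θ` over `ℚ_q`;
* `plb_exists_algEquiv_of_norm_eq` : if `‖j x‖ = ‖j' x‖` for all `x`, there is
  `d ∈ Gal(Ω / ℚ_q)` with `d ∘ j = j'`;
* `plb_exists_algEquiv_of_primeOf_eq` : the same under `primeOf j = primeOf j'`.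
-/

set_option autoImplicit false

open NumberField IsDedekindDomain Polynomial

namespace Fermat.Agent.F4G

variable {q : ℕ} [Fact q.Prime]

/-- A polynomial over `ℚ_q` is approximated, uniformly on the ball of radius `R` of `Ω`, by a
polynomial over `ℚ`. -/
theorem plb_exists_rat_approx (P : ℚ_[q][X]) (R : ℝ) {ε : ℝ} (hε : 0 < ε) :
    ∃ h : ℚ[X], ∀ y : PadicAlgCl q, ‖y‖ ≤ R →
      ‖aeval y P - aeval y (h.map (algebraMap ℚ ℚ_[q]))‖ < ε := by
  induction P using Polynomial.induction_on' with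
  | add P₁ P₂ h₁ h₂ =>
    obtain ⟨a₁, ha₁⟩ := h₁
    obtain ⟨a₂, ha₂⟩ := h₂
    refine ⟨a₁ + a₂, fun y hy => ?_⟩
    have e : aeval y (P₁ + P₂) - aeval y ((a₁ + a₂).map (algebraMap ℚ ℚ_[q])) =
        (aeval y P₁ - aeval y (a₁.map (algebraMap ℚ ℚ_[q]))) +
          (aeval y P₂ - aeval y (a₂.map (algebraMap ℚ ℚ_[q]))) := by
      rw [Polynomial.map_add, map_add, map_add]
      ring
    rw [e]
    exact lt_of_le_of_lt (IsUltrametricDist.norm_add_le_max _ _) (max_lt (ha₁ y hy) (ha₂ y hy))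
  | monomial n a =>
    have hR : 0 < |R| ^ n + 1 := by positivity
    obtain ⟨b, hb⟩ := Padic.rat_dense q a (div_pos hε hR)
    refine ⟨Polynomial.monomial n b, fun y hy => ?_⟩
    have e : aeval y (Polynomial.monomial n a) -
        aeval y ((Polynomial.monomial n b).map (algebraMap ℚ ℚ_[q])) =
        algebraMap ℚ_[q] (PadicAlgCl q) (a - (b : ℚ_[q])) * y ^ n := by
      rw [Polynomial.map_monomial, Polynomial.aeval_monomial, Polynomial.aeval_monomial, map_sub]
      have : algebraMap ℚ ℚ_[q] b = (b : ℚ_[q]) := rfl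
      rw [this]
      ring
    rw [e, norm_mul, norm_pow]
    have h1 : ‖algebraMap ℚ_[q] (PadicAlgCl q) (a - (b : ℚ_[q]))‖ = ‖a - (b : ℚ_[q])‖ :=
      PadicAlgCl.norm_extends q _
    rw [h1]
    have h2 : ‖y‖ ^ n ≤ |R| ^ n :=
      pow_le_pow_left₀ (norm_nonneg y) (hy.trans (le_abs_self R)) n
    calc ‖a - (b : ℚ_[q])‖ * ‖y‖ ^ n ≤ ‖a - (b : ℚ_[q])‖ * (|R| ^ n + 1) :=
          mul_le_mul_of_nonneg_left (h2.trans (le_add_of_nonneg_right zero_le_one)) (norm_nonneg _)
      _ < ε / (|R| ^ n + 1) * (|R| ^ n + 1) := mul_lt_mul_of_pos_right hb hR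
      _ = ε := div_mul_cancel₀ ε hR.ne'

section CharZero

variable {F : Type*} [Field F] [CharZero F]

/-- Evaluation of a rational polynomial commutes with a ring homomorphism into `Ω`. -/
lemma plb_map_aeval (j : F →+* PadicAlgCl q) (θ : F) (h : ℚ[X]) :
    j (aeval θ h) = aeval (j θ) (h.map (algebraMap ℚ ℚ_[q])) := by
  rw [Polynomial.aeval_def, Polynomial.aeval_def, Polynomial.eval₂_map, Polynomial.hom_eval₂]
  congr 1
  exact Subsingleton.elim _ _

/-- If two embeddings induce the same norm on `F`, the image of `θ` under the second is a root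
of the minimal polynomial over `ℚ_q` of its image under the first. -/
theorem plb_aeval_minpoly_eq_zero (j j' : F →+* PadicAlgCl q)
    (hn : ∀ x : F, ‖j x‖ = ‖j' x‖) (θ : F) :
    aeval (j' θ) (minpoly ℚ_[q] (j θ)) = 0 := by
  by_contra hne
  have hc : 0 < ‖aeval (j' θ) (minpoly ℚ_[q] (j θ))‖ := norm_pos_iff.mpr hne
  obtain ⟨h, hh⟩ := plb_exists_rat_approx (minpoly ℚ_[q] (j θ)) ‖j θ‖ hc
  have h1 := hh (j θ) le_rfl
  have h2 := hh (j' θ) (hn θ).ge
  rw [minpoly.aeval, zero_sub, norm_neg, ← plb_map_aeval] at h1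
  rw [← plb_map_aeval] at h2
  -- `‖j' x‖ = c`
  have h3 : ‖j' (aeval θ h)‖ = ‖aeval (j' θ) (minpoly ℚ_[q] (j θ))‖ := by
    have e : j' (aeval θ h) = aeval (j' θ) (minpoly ℚ_[q] (j θ)) +
        -(aeval (j' θ) (minpoly ℚ_[q] (j θ)) - j' (aeval θ h)) := by ring
    rw [e]
    refine IsUltrametricDist.norm_add_eq_max_of_norm_ne_norm ?_ |>.trans ?_
    · rw [norm_neg]; exact h2.ne'
    · rw [norm_neg]; exact max_eq_left h2.le
  rw [hn, h3] at h1
  exact lt_irrefl _ h1

end CharZero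

variable {F : Type*} [Field F] [NumberField F]

/-- **Conjugacy.**  Two embeddings of a number field into `PadicAlgCl q` which induce the same
norm are conjugate under `Gal(PadicAlgCl q / ℚ_q)`. -/
theorem plb_exists_algEquiv_of_norm_eq (j j' : F →+* PadicAlgCl q)
    (hn : ∀ x : F, ‖j x‖ = ‖j' x‖) :
    ∃ d : PadicAlgCl q ≃ₐ[ℚ_[q]] PadicAlgCl q, ∀ x : F, d (j x) = j' x := by
  obtain ⟨θ, hθ⟩ := Field.exists_primitive_element ℚ F
  have hroot := plb_aeval_minpoly_eq_zero j j' hn θ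
  have halg : IsAlgebraic ℚ_[q] (j θ) := Algebra.IsAlgebraic.isAlgebraic _
  obtain ⟨σ, hσ⟩ := minpoly.exists_algEquiv_of_root' halg hroot
  refine ⟨σ, fun x => ?_⟩
  -- `x` is a polynomial in `θ`
  have hx : x ∈ Algebra.adjoin ℚ {θ} := by
    have hint : IsIntegral ℚ θ := Algebra.IsIntegral.isIntegral θ
    have h1 := IntermediateField.adjoin_simple_toSubalgebra_of_isAlgebraic hint.isAlgebraic
    have h2 : x ∈ (IntermediateField.adjoin ℚ {θ}).toSubalgebra := by
      rw [hθ]; trivial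
    rwa [h1] at h2
  rw [Algebra.adjoin_singleton_eq_range_aeval] at hx
  obtain ⟨r, rfl⟩ := hx
  show σ (j (aeval θ r)) = j' (aeval θ r)
  rw [plb_map_aeval, plb_map_aeval, ← hσ]
  exact (Polynomial.aeval_algHom_apply (σ : PadicAlgCl q →ₐ[ℚ_[q]] PadicAlgCl q) (j θ) _).symm

/-- **Conjugacy.**  Two embeddings of a number field into `PadicAlgCl q` which cut out the same
prime are conjugate under `Gal(PadicAlgCl q / ℚ_q)`. -/
theorem plb_exists_algEquiv_of_primeOf_eq (j j' : F →+* PadicAlgCl q)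
    (h : primeOf j = primeOf j') :
    ∃ d : PadicAlgCl q ≃ₐ[ℚ_[q]] PadicAlgCl q, ∀ x : F, d (j x) = j' x :=
  plb_exists_algEquiv_of_norm_eq j j' (Compl.nc_norm_eq_of_primeOf_eq j j' h)

end Fermat.Agent.F4G
end MergeWrap_F4_Dict_PlacesB_Conj

section MergeWrap_F4_Dict_PlacesB_Trans -- from F4/Dict/PlacesB/Trans.lean

/-!
# F4 / Dict / PlacesB / Trans : every prime of a number field `F ⊂ ℚ̄` over `q` is cut out by
`ι ∘ g`, `g ∈ Gal(ℚ̄/ℚ)`  (seat PLACES P1, helper90)

`ι = padicEmbedding q : ℚ̄ → PadicAlgCl q`.  The absolute Galois group acts transitively on the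
primes of the ring `Zb` of all algebraic integers over `q`
(`Algebra.IsInvariant.exists_smul_of_under_eq_of_profinite`); a prime `v` of `F` over `q` is the
restriction of a prime of `Zb` (going up), and `ι` cuts out a prime of `Zb` over `q`.

* `plbIdeal q` : the prime `{b ∈ Zb | ‖ι b‖ < 1}`;
* `plb_exists_gal` : for `v` a prime of `F` containing `q` there is `g` with
  `x ∈ v ↔ ‖ι (g x)‖ < 1` for all `x ∈ 𝓞 F`.
-/

set_option autoImplicit false
set_option linter.unusedSectionVars false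
set_option linter.style.haveILetI false

open NumberField IsDedekindDomain
open scoped Pointwise

namespace Fermat.Agent.F4G

open Fermat.Agent.FrobExists

attribute [local instance] isAlgebraic_Qb isAlgClosure_Qb isInvariant_Zb

variable (q : ℕ) [Fact q.Prime]

/-- Algebraic integers have norm `≤ 1` in `PadicAlgCl q`. -/
lemma plb_norm_le_one (b : Zb) : ‖padicEmbedding q (b : Qb)‖ ≤ 1 :=
  norm_le_one_of_isIntegral (map_isIntegral_int (padicEmbedding q).toRingHom b.2)

/-- The prime of the ring of all algebraic integers cut out by `ι = padicEmbedding q`. -/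
def plbIdeal : Ideal Zb where
  carrier := {b | ‖padicEmbedding q (b : Qb)‖ < 1}
  add_mem' := by
    intro a b ha hb
    show ‖padicEmbedding q ((a : Qb) + (b : Qb))‖ < 1
    rw [map_add]
    exact lt_of_le_of_lt (IsUltrametricDist.norm_add_le_max _ _) (max_lt ha hb)
  zero_mem' := by
    show ‖padicEmbedding q ((0 : Zb) : Qb)‖ < 1
    simp
  smul_mem' := by
    intro c x hx
    show ‖padicEmbedding q ((c : Qb) * (x : Qb))‖ < 1
    rw [map_mul, norm_mul]
    calc ‖padicEmbedding q (c : Qb)‖ * ‖padicEmbedding q (x : Qb)‖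
        ≤ 1 * ‖padicEmbedding q (x : Qb)‖ :=
          mul_le_mul_of_nonneg_right (plb_norm_le_one q c) (norm_nonneg _)
      _ = ‖padicEmbedding q (x : Qb)‖ := one_mul _
      _ < 1 := hx

lemma mem_plbIdeal {b : Zb} : b ∈ plbIdeal q ↔ ‖padicEmbedding q (b : Qb)‖ < 1 := Iff.rfl

instance plbIdeal_isPrime : (plbIdeal q).IsPrime := by
  refine ⟨?_, ?_⟩
  · intro h
    have : (1 : Zb) ∈ plbIdeal q := by rw [h]; trivial
    rw [mem_plbIdeal] at this
    simp at this
  · intro a b hab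
    have hab' : ‖padicEmbedding q ((a : Qb) * (b : Qb))‖ < 1 := hab
    rw [map_mul, norm_mul] at hab'
    by_contra hcon
    simp only [not_or, mem_plbIdeal, not_lt] at hcon
    have ha : ‖padicEmbedding q (a : Qb)‖ = 1 := le_antisymm (plb_norm_le_one q a) hcon.1
    have hb : ‖padicEmbedding q (b : Qb)‖ = 1 := le_antisymm (plb_norm_le_one q b) hcon.2
    rw [ha, hb, mul_one] at hab'
    exact lt_irrefl _ hab'

lemma natCast_mem_plbIdeal : ((q : ℕ) : Zb) ∈ plbIdeal q := by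
  rw [mem_plbIdeal]
  have h1 : padicEmbedding q (((q : ℕ) : Zb) : Qb) = ((q : ℕ) : PadicAlgCl q) := by
    have : (((q : ℕ) : Zb) : Qb) = ((q : ℕ) : Qb) := by simp
    rw [this, map_natCast]
  rw [h1, Compl.nc_norm_natCast]
  exact inv_lt_one_of_one_lt₀ (by exact_mod_cast (Fact.out : q.Prime).one_lt)

variable {q}

/-- A prime ideal of `Zb` containing `q` lies over `(q)`. -/
lemma plb_under_eq (Q : Ideal Zb) [Q.IsPrime] (hq : ((q : ℕ) : Zb) ∈ Q) :
    Q.under ℤ = Ideal.span {(q : ℤ)} := by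
  have hq' : (q : ℤ) ∈ Q.under ℤ := by
    rw [Ideal.under_def, Ideal.mem_comap]
    simpa using hq
  have hmax : (Ideal.span {(q : ℤ)}).IsMaximal :=
    PrincipalIdealRing.isMaximal_of_irreducible
      (Nat.prime_iff_prime_int.mp (Fact.out : q.Prime)).irreducible
  have hle : Ideal.span {(q : ℤ)} ≤ Q.under ℤ := by
    rw [Ideal.span_singleton_le_iff_mem]
    exact hq'
  have hne : Q.under ℤ ≠ ⊤ := (inferInstance : (Q.under ℤ).IsPrime).ne_top
  exact (hmax.eq_of_le hne hle).symm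

/-- **Transitivity.**  Every prime of `Zb` containing `q` is conjugate to the prime cut out by
`ι`. -/
theorem plb_exists_smul_eq (Q : Ideal Zb) [Q.IsPrime] (hq : ((q : ℕ) : Zb) ∈ Q) :
    ∃ g : GQ, Q = g • plbIdeal q := by
  let _ : TopologicalSpace Zb := ⊥
  have : DiscreteTopology Zb := ⟨rfl⟩
  have := continuousSMul_Zb
  refine Algebra.IsInvariant.exists_smul_of_under_eq_of_profinite (A := ℤ) (G := GQ)
    (plbIdeal q) Q ?_
  rw [plb_under_eq Q hq, plb_under_eq (plbIdeal q) (natCast_mem_plbIdeal q)]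

variable (F : IntermediateField ℚ Qb) [NumberField F]

/-- The inclusion of the integers of `F` in the ring of all algebraic integers. -/
noncomputable def plbIncl : 𝓞 F →+* Zb where
  toFun x := ⟨((x : F) : Qb), map_isIntegral_int (algebraMap F Qb) (RingOfIntegers.isIntegral_coe x)⟩
  map_one' := Subtype.ext (by simp)
  map_mul' a b := Subtype.ext (by simp)
  map_zero' := Subtype.ext (by simp)
  map_add' a b := Subtype.ext (by simp)

@[simp] lemma coe_plbIncl (x : 𝓞 F) : ((plbIncl F x : Zb) : Qb) = ((x : F) : Qb) := rfl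

lemma plbIncl_injective : Function.Injective (plbIncl F) := by
  intro a b h
  have h1 := congrArg (fun z : Zb => (z : Qb)) h
  simp only [coe_plbIncl] at h1
  exact RingOfIntegers.ext (Subtype.ext h1)

/-- **P1 (existence).**  Every prime of `F` containing `q` is cut out by `ι ∘ g` for some
`g ∈ Gal(ℚ̄/ℚ)`. -/
theorem plb_exists_gal (v : HeightOneSpectrum (𝓞 F)) (hq : ((q : ℕ) : 𝓞 F) ∈ v.asIdeal) :
    ∃ g : GQ, ∀ x : 𝓞 F, x ∈ v.asIdeal ↔ ‖padicEmbedding q (g ((x : F) : Qb))‖ < 1 := by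
  letI : Algebra (𝓞 F) Zb := (plbIncl F).toAlgebra
  have hint : Algebra.IsIntegral (𝓞 F) Zb := by
    constructor
    intro b
    have hb : IsIntegral ℤ b := integralClosure.isIntegral b
    exact hb.tower_top
  have hker : RingHom.ker (algebraMap (𝓞 F) Zb) ≤ v.asIdeal := by
    intro x hx
    rw [RingHom.mem_ker] at hx
    have : x = 0 := plbIncl_injective F (hx.trans (map_zero _).symm)
    rw [this]
    exact v.asIdeal.zero_mem
  obtain ⟨Q, hQ, hQv⟩ := Ideal.exists_ideal_over_prime_of_isIntegral_of_isDomain v.asIdeal hker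
  have hqQ : ((q : ℕ) : Zb) ∈ Q := by
    have h1 : ((q : ℕ) : 𝓞 F) ∈ Q.comap (algebraMap (𝓞 F) Zb) := by rw [hQv]; exact hq
    rw [Ideal.mem_comap, map_natCast] at h1
    exact h1
  obtain ⟨g, hg⟩ := plb_exists_smul_eq Q hqQ
  refine ⟨g⁻¹, fun x => ?_⟩
  rw [← hQv, Ideal.mem_comap, hg, Ideal.mem_pointwise_smul_iff_inv_smul_mem, mem_plbIdeal]
  rfl

end Fermat.Agent.F4G
end MergeWrap_F4_Dict_PlacesB_Trans

section MergeWrap_F4_Dict_PlacesB -- from F4/Dict/PlacesB.lean

/-!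
# F4 / Dict / PlacesB : the places of `F = ℚ̄^U` over `S` are the double cosets `D_q g U`
(layer DICT, seats P1 + P2, helper90)

`L : OpenS S`, `F = L.field`, `q` a prime, `g : G_ℚ`; `L.emb q g : F → PadicAlgCl q`,
`a ↦ ι (g a)`, cuts out the prime `primeOf (L.emb q g)` of `F` (helper86's `F4/Glob/Compl`).

* `OpenS.primeOf_emb_mem_T_of_mem` (P1) : for `q ∈ S` the prime `primeOf (L.emb q g)` lies in `L.T`;
* `OpenS.exists_primeOf_emb_eq` (P1) : every `v ∈ L.T` is `primeOf (L.emb q g)` for some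
  `q ∈ S`, `g : G_ℚ`;
* `OpenS.primeOf_emb_eq_iff` (P2) : `primeOf (L.emb q g) = primeOf (L.emb q g')` iff
  `g' ∈ D_q g U` (`L.InDC q g g'`);
* `OpenS.norm_emb_eq_of_inDC`, `OpenS.exists_locAct_emb_eq` : the norm / the conjugating
  element of the local group.
-/

set_option autoImplicit false
set_option synthInstance.maxHeartbeats 400000
set_option linter.unusedSectionVars false
set_option linter.style.haveILetI false

open CategoryTheory groupCohomology ExtCitation
open NumberField IsDedekindDomain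

namespace Fermat.Agent.F4

variable {S : Finset Nat.Primes}

namespace OpenS

variable (L : OpenS S)

/-- Membership in the prime cut out by `L.emb q g`. -/
lemma mem_primeOf_emb (q : Nat.Primes) (g : GQ) (x : 𝓞 L.field) :
    letI : Fact (q : ℕ).Prime := ⟨q.2⟩
    x ∈ (F4G.primeOf (L.emb q g)).asIdeal ↔
      ‖padicEmbedding (q : ℕ) (g (((x : L.field)) : AlgebraicClosure ℚ))‖ < 1 := by
  letI : Fact (q : ℕ).Prime := ⟨q.2⟩
  exact Iff.rfl

/-- **P1.**  The prime cut out by `L.emb q g`, `q ∈ S`, is a prime of `F` over `S`. -/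
theorem primeOf_emb_mem_T_of_mem (q : Nat.Primes) (hq : q ∈ S) (g : GQ) :
    letI : Fact (q : ℕ).Prime := ⟨q.2⟩
    F4G.primeOf (L.emb q g) ∈ L.T := by
  letI : Fact (q : ℕ).Prime := ⟨q.2⟩
  rw [L.mem_T]
  exact ⟨q, hq, F4G.natCast_mem_primeOf (L.emb q g)⟩

/-- **P1.**  Every prime of `F` over `S` is cut out by some `L.emb q g`, `q ∈ S`. -/
theorem exists_primeOf_emb_eq (v : HeightOneSpectrum (𝓞 L.field)) (hv : v ∈ L.T) :
    ∃ q ∈ S, ∃ g : GQ,
      letI : Fact (q : ℕ).Prime := ⟨q.2⟩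
      F4G.primeOf (L.emb q g) = v := by
  obtain ⟨q, hq, hqv⟩ := (L.mem_T v).1 hv
  letI : Fact (q : ℕ).Prime := ⟨q.2⟩
  obtain ⟨g, hg⟩ := F4G.plb_exists_gal (q := (q : ℕ)) L.field v hqv
  refine ⟨q, hq, g, ?_⟩
  apply HeightOneSpectrum.ext
  ext x
  rw [hg x]
  exact L.mem_primeOf_emb q g x

/-- The norm of `L.emb q g a` depends only on the double coset `D_q g U`. -/
theorem norm_emb_eq_of_inDC (q : Nat.Primes) {g g' : GQ} (h : L.InDC q g g') (a : L.field) :
    letI : Fact (q : ℕ).Prime := ⟨q.2⟩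
    ‖L.emb q g' a‖ = ‖L.emb q g a‖ := by
  letI : Fact (q : ℕ).Prime := ⟨q.2⟩
  obtain ⟨d, u, hu, rfl⟩ := h
  have hua : u (a : AlgebraicClosure ℚ) = a := (L.mem_field_iff _).1 a.2 u hu
  have h1 : L.emb q (primeLocalToGlobal q d * g * u) a = locAct q d (L.emb q g a) := by
    rw [emb_apply, emb_apply, ← locEmb_primeLocalToGlobal]
    show locEmb q (primeLocalToGlobal q d (g (u (a : AlgebraicClosure ℚ)))) = _
    rw [hua]
  rw [h1]
  have h2 := nnnorm_padicAlgCl_algEquiv (q : ℕ) d (L.emb q g a)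
  exact congrArg NNReal.toReal h2

/-- Two embeddings `L.emb q g`, `L.emb q g'` with the same prime are conjugate under the local
Galois group. -/
theorem exists_locAct_emb_eq (q : Nat.Primes) (g g' : GQ)
    (h : letI : Fact (q : ℕ).Prime := ⟨q.2⟩
      F4G.primeOf (L.emb q g) = F4G.primeOf (L.emb q g')) :
    ∃ d : primeLocalGaloisGroup q, ∀ a : L.field, locAct q d (L.emb q g a) = L.emb q g' a := by
  letI : Fact (q : ℕ).Prime := ⟨q.2⟩
  obtain ⟨d, hd⟩ := F4G.plb_exists_algEquiv_of_primeOf_eq (L.emb q g) (L.emb q g') h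
  exact ⟨d, hd⟩

/-- **P2.**  `L.emb q g` and `L.emb q g'` cut out the same prime of `F` iff `g' ∈ D_q g U`. -/
theorem primeOf_emb_eq_iff (q : Nat.Primes) (g g' : GQ) :
    letI : Fact (q : ℕ).Prime := ⟨q.2⟩
    F4G.primeOf (L.emb q g) = F4G.primeOf (L.emb q g') ↔ L.InDC q g g' := by
  letI : Fact (q : ℕ).Prime := ⟨q.2⟩
  constructor
  · intro h
    obtain ⟨d, hd⟩ := L.exists_locAct_emb_eq q g g' h
    refine ⟨d, (primeLocalToGlobal q d * g)⁻¹ * g', ?_, by group⟩
    rw [← L.fixingSubgroup_field, IntermediateField.mem_fixingSubgroup_iff]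
    intro a ha
    have h1 := hd ⟨a, ha⟩
    rw [emb_apply, emb_apply, ← locEmb_primeLocalToGlobal] at h1
    have h2 : primeLocalToGlobal q d (g a) = g' a := locEmb_injective q h1
    show (primeLocalToGlobal q d * g)⁻¹ (g' a) = a
    rw [← h2]
    exact (primeLocalToGlobal q d * g).symm_apply_apply a
  · intro h
    apply HeightOneSpectrum.ext
    ext x
    rw [F4G.mem_primeOf, F4G.mem_primeOf, L.norm_emb_eq_of_inDC q h]

end OpenS

end Fermat.Agent.F4
end MergeWrap_F4_Dict_PlacesB
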